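import Fermat.Agent.TwoAdic.Selmer.Residual
import Fermat.Agent.Chebotarev.Main
import Mathlib.NumberTheory.LegendreSymbol.JacobiSymbol
import Mathlib.NumberTheory.LSeries.PrimesInAP
import Mathlib.Data.Nat.ChineseRemainder

/-!
# Order-three primes with prescribed quadratic symbols

Chebotarev gives primes with Frobenius of order three in the residual image and prescribed
quadratic symbols.
-/

set_option autoImplicit false

noncomputable section

namespace Fermat.Agent.TwoAdic.Selmer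

open GaloisRep Fermat.Agent.DefRing Fermat.Agent.TameInertia

local notation "Ω" => AlgebraicClosure ℚ

open scoped NumberTheorySymbols in
/-- A prime `p ≡ 1 (mod 4)` with prescribed symbols. -/
theorem exists_prime_symbols (T : Finset ℕ) (hT : ∀ ℓ ∈ T, ℓ.Prime) (χ : ℕ → ℤ)
    (hχ : ∀ ℓ ∈ T, χ ℓ = 1 ∨ χ ℓ = -1) (n : ℕ) (h2 : 3 ≤ n → 2 ∈ T → χ 2 = 1) (X : Finset ℕ) :
    ∃ p, p.Prime ∧ p ∉ X ∧ p % 2 ^ n = 1 % 2 ^ n ∧ p % 4 = 1 ∧ p ∉ T ∧
      ∀ ℓ ∈ T, J((ℓ : ℤ) | p) = χ ℓ := by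
  classical
  set N := if 2 ∈ T ∧ χ 2 = -1 then 3 else max n 3 with hN
  have hN3 : 3 ≤ N := by rw [hN]; split_ifs <;> omega
  let s : ℕ → ℕ := fun ℓ => if ℓ = 2 then 2 ^ N else ℓ
  have hex : ∀ ℓ ∈ T, ℓ ≠ 2 → ∃ c : ℕ, ¬ ℓ ∣ c ∧
      ∀ [Fact ℓ.Prime], legendreSym ℓ (c : ℤ) = χ ℓ := by
    intro ℓ hℓ hℓ2
    have : Fact ℓ.Prime := ⟨hT ℓ hℓ⟩
    rcases hχ ℓ hℓ with h | h
    · refine ⟨1, (hT ℓ hℓ).not_dvd_one, fun [_] => ?_⟩
      rw [h, Nat.cast_one, legendreSym.at_one]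
    · obtain ⟨x, hx⟩ := FiniteField.exists_nonsquare (F := ZMod ℓ)
        (by rw [ZMod.ringChar_zmod_n]; exact hℓ2)
      refine ⟨x.val, fun hd => hx ?_, fun [_] => ?_⟩
      · rw [← ZMod.natCast_zmod_val x, (ZMod.natCast_eq_zero_iff _ _).mpr hd]
        exact IsSquare.zero
      · rw [h, legendreSym.eq_neg_one_iff', ZMod.natCast_zmod_val]
        exact hx
  let a : ℕ → ℕ := fun ℓ => if h : ℓ ∈ T ∧ ℓ ≠ 2 then (hex ℓ h.1 h.2).choose
    else if 2 ∈ T ∧ χ 2 = -1 then 5 else 1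
  have hprime : ∀ ℓ ∈ insert 2 T, ℓ.Prime := fun ℓ hℓ => by
    rcases Finset.mem_insert.mp hℓ with rfl | h
    · exact Nat.prime_two
    · exact hT ℓ h
  have hs0 : ∀ ℓ ∈ insert 2 T, s ℓ ≠ 0 := fun ℓ hℓ => by
    simp only [s]; split_ifs
    · positivity
    · exact (hprime ℓ hℓ).ne_zero
  have hcop : Set.Pairwise (↑(insert 2 T : Finset ℕ)) (Function.onFun Nat.Coprime s) := by
    intro x hx y hy hne
    have hxy := (Nat.coprime_primes (hprime x hx) (hprime y hy)).mpr hne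
    simp only [Function.onFun, s]
    split_ifs with h1 h2 h2
    · exact absurd (h1.trans h2.symm) hne
    · exact Nat.Coprime.pow_left _ (h1 ▸ hxy)
    · exact Nat.Coprime.pow_right _ (h2 ▸ hxy)
    · exact hxy
  obtain ⟨c, hc⟩ := Nat.chineseRemainderOfFinset a s (insert 2 T) hs0 hcop
  have hc2 := hc 2 (Finset.mem_insert_self 2 T)
  simp only [s, a, if_true, ne_eq, not_true_eq_false, and_false, dite_false] at hc2
  have hcM : c.Coprime (∏ ℓ ∈ insert 2 T, s ℓ) := by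
    refine Nat.Coprime.prod_right fun ℓ hℓ => ?_
    by_cases h : ℓ = 2
    · subst h
      simp only [s, if_true]
      refine Nat.Coprime.pow_right N ((Nat.coprime_comm).mp (Nat.prime_two.coprime_iff_not_dvd.mpr ?_))
      intro hd
      have h' := hc2.dvd_iff (dvd_pow_self 2 (by omega : N ≠ 0))
      have := h'.mp hd
      split_ifs at this <;> omega
    · have hℓT := (Finset.mem_insert.mp hℓ).resolve_left h
      simp only [s, if_neg h]
      refine Nat.coprime_comm.mp ((hprime ℓ hℓ).coprime_iff_not_dvd.mpr fun hd => ?_)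
      have h' := hc ℓ hℓ
      simp only [s, a, if_neg h, dif_pos (And.intro hℓT h)] at h'
      exact (hex ℓ hℓT h).choose_spec.1 ((h'.dvd_iff dvd_rfl).mp hd)
  obtain ⟨p, hpgt, hp, hpc⟩ := Nat.forall_exists_prime_gt_and_modEq
    ((insert 2 (X ∪ T)).sup id) (Finset.prod_ne_zero_iff.mpr hs0) hcM
  have hnotmem : ∀ x ∈ insert 2 (X ∪ T), p ≠ x := fun x hx h => by
    have := Finset.le_sup (f := id) hx
    simp only [id, h] at this hpgt
    omega
  have hpTn : p ∉ T := fun h => hnotmem p (by simp [h]) rfl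
  have h2N : p ≡ (if 2 ∈ T ∧ χ 2 = -1 then 5 else 1) [MOD 2 ^ N] := by
    have h := hpc.of_dvd (Finset.dvd_prod_of_mem s (Finset.mem_insert_self 2 T))
    simp only [s, if_true] at h
    exact h.trans hc2
  have h8 : p ≡ (if 2 ∈ T ∧ χ 2 = -1 then 5 else 1) [MOD 8] :=
    h2N.of_dvd (show (2 ^ 3 : ℕ) ∣ 2 ^ N from pow_dvd_pow 2 hN3)
  have hp4 : p % 4 = 1 := by
    unfold Nat.ModEq at h8
    split_ifs at h8 <;> omega
  refine ⟨p, hp, fun h => hnotmem p (by simp [h]) rfl, ?_, hp4, hpTn, fun ℓ hℓ => ?_⟩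
  · by_cases hcase : 2 ∈ T ∧ χ 2 = -1
    · have hn : n ≤ 2 := by
        by_contra hn
        exact absurd ((h2 (by omega) hcase.1).symm.trans hcase.2) (by norm_num)
      have : p ≡ 1 [MOD 4] := by
        unfold Nat.ModEq
        rw [hp4]
      exact this.of_dvd (show 2 ^ n ∣ (2 ^ 2 : ℕ) from pow_dvd_pow 2 hn)
    · rw [if_neg hcase] at h2N
      exact h2N.of_dvd (pow_dvd_pow 2 (by rw [hN, if_neg hcase]; exact le_max_left _ _))
  · have hpodd : Odd p := Nat.odd_iff.mpr (by omega)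
    by_cases hℓ2 : ℓ = 2
    · subst hℓ2
      rw [Nat.cast_ofNat, jacobiSym.at_two hpodd, ZMod.χ₈_nat_eq_if_mod_eight]
      unfold Nat.ModEq at h8
      rcases hχ 2 hℓ with h | h
      · rw [h, if_neg (by omega), if_pos]
        rw [if_neg (by rw [h]; simp)] at h8
        omega
      · rw [h, if_neg (by omega), if_neg]
        rw [if_pos ⟨hℓ, h⟩] at h8
        omega
    · have : Fact ℓ.Prime := ⟨hT ℓ hℓ⟩
      rw [← jacobiSym.quadratic_reciprocity_one_mod_four hp4 ((hT ℓ hℓ).odd_of_ne_two hℓ2),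
        ← jacobiSym.legendreSym.to_jacobiSym]
      have h1 := (hpc.of_dvd (Finset.dvd_prod_of_mem s (Finset.mem_insert_of_mem hℓ))).trans
        (hc ℓ (Finset.mem_insert_of_mem hℓ))
      simp only [s, a, if_neg hℓ2, dif_pos (And.intro hℓ hℓ2)] at h1
      rw [← (hex ℓ hℓ hℓ2).choose_spec.2, legendreSym.mod]
      conv_rhs => rw [legendreSym.mod]
      congr 1
      exact_mod_cast h1

theorem commutator_fix {x y : GQ} {w : Ω} {P : Ω → Prop} (hw : P w) (hstab : ∀ (g : GQ) z, P z → P (g z))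
    (h : ∀ z, P z → x (y z) = y (x z)) : (x * y * x⁻¹ * y⁻¹) w = w := by
  have hz := h ((y * x)⁻¹ w) (hstab _ w hw)
  have h2 : y (x ((y * x)⁻¹ w)) = w := by
    rw [← AlgEquiv.mul_apply, ← AlgEquiv.mul_apply, mul_inv_cancel, AlgEquiv.one_apply]
  rw [h2, ← AlgEquiv.mul_apply, ← AlgEquiv.mul_apply] at hz
  rwa [show x * y * (y * x)⁻¹ = x * y * x⁻¹ * y⁻¹ by group] at hz

theorem commutator_sqrt {x y : GQ} {s : Ω} {a : ℤ} (hs : s ^ 2 = (a : Ω)) :
    (x * y * x⁻¹ * y⁻¹) s = s := by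
  refine commutator_fix (P := fun z => z ^ 2 = (a : Ω)) hs
    (fun g z hz => by rw [← map_pow, hz, map_intCast]) fun z hz => ?_
  rcases apply_sqrt hz x with h1 | h1 <;> rcases apply_sqrt hz y with h2 | h2 <;>
    simp [h1, h2]

theorem commutator_root {x y : GQ} {ζ : Ω} {m : ℕ} [NeZero m] (hζ : IsPrimitiveRoot ζ m) :
    (x * y * x⁻¹ * y⁻¹) ζ = ζ := by
  refine commutator_fix (P := fun z => z ^ m = 1) hζ.pow_eq_one
    (fun g z hz => by rw [← map_pow, hz, map_one]) fun z hz => ?_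
  obtain ⟨i, -, rfl⟩ := hζ.eq_pow_of_pow_eq_one hz
  obtain ⟨a, -, ha⟩ := hζ.eq_pow_of_pow_eq_one (ξ := x ζ) (by rw [← map_pow, hζ.pow_eq_one, map_one])
  obtain ⟨b, -, hb⟩ := hζ.eq_pow_of_pow_eq_one (ξ := y ζ) (by rw [← map_pow, hζ.pow_eq_one, map_one])
  simp only [map_pow, ← ha, ← hb, ← pow_mul]
  congr 1
  ring

local instance instAlgebraicQbar : Algebra.IsAlgebraic ℚ (AlgebraicClosure ℚ) :=
  AlgebraicClosure.isAlgebraic ℚ

variable {k : Type} [Field k] [CharP k 2] {D : ℕ} {r : MRep k}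

open scoped NumberTheorySymbols in
/-- **Order-three primes with prescribed symbols.** -/
theorem exists_pattern (hr : IsDihedralResidual D r) (hc : IsCont r) (hsf : Squarefree D)
    (hD8 : D % 8 = 3) (T : Finset ℕ) (hT : ∀ ℓ ∈ T, ℓ.Prime)
    (hDT : ∀ ℓ, ℓ.Prime → ℓ ∣ D → ℓ ∈ T) (χ : ℕ → ℤ) (hχ : ∀ ℓ ∈ T, χ ℓ = 1 ∨ χ ℓ = -1)
    (hprod : ∏ ℓ ∈ D.primeFactors, χ ℓ = 1) (n : ℕ) (h2 : 3 ≤ n → 2 ∈ T → χ 2 = 1)
    (X : Finset ℕ) :
    ∃ q, q ∉ X ∧ q % 2 ^ n = 1 % 2 ^ n ∧ q.Prime ∧ q % 4 = 1 ∧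
      (∀ ℓ ∈ T, J((ℓ : ℤ) | q) = χ ℓ) ∧
      ∀ P : ValuationSubring Ω, P.LiesOverPrime q → ∀ φ : GQ, P.IsFrobeniusAt φ q →
        (r φ).trace = 1 := by
  classical
  have hD0 : 0 < D := by omega
  set N := max n 2 with hN
  obtain ⟨p, hp, -, hpn, hp4, hpT, hpJ⟩ := exists_prime_symbols T hT χ hχ n h2 {2}
  have : Fact p.Prime := ⟨hp⟩
  have hp2 : p ≠ 2 := by intro h; rw [h] at hp4; omega
  obtain ⟨B, hB⟩ := Fermat.Agent.Frobenius.exists_liesOverPrime Ω hp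
  obtain ⟨σ₁, hσ₁⟩ := Fermat.Agent.Frobenius.exists_isFrobeniusAt_qbar hp hB
  have : NeZero (2 ^ N : ℕ) := ⟨by positivity⟩
  have : NeZero ((2 ^ N : ℕ) : Ω) := ⟨Nat.cast_ne_zero.2 (NeZero.ne _)⟩
  obtain ⟨ζ, hζ⟩ := HasEnoughRootsOfUnity.exists_primitiveRoot Ω (2 ^ N)
  choose sq hsq using fun ℓ : ℕ => IsAlgClosed.exists_pow_nat_eq ((ℓ : ℤ) : Ω) two_pos
  obtain ⟨im, him⟩ := IsAlgClosed.exists_pow_nat_eq (((-1 : ℤ) : ℤ) : Ω) two_pos
  have hpN : p % 2 ^ N = 1 := by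
    rcases le_or_gt n 2 with h | h
    · rw [hN, max_eq_right h]
      simpa using hp4
    · rw [hN, max_eq_left h.le, hpn, Nat.one_mod_eq_one.mpr (Nat.one_lt_two_pow (by omega)).ne']
  have hσζ : σ₁ ζ = ζ := by
    rw [frobenius_root_of_unity hp hB hσ₁ (fun h => hp2 ((Nat.prime_dvd_prime_iff_eq hp Nat.prime_two).1
      (hp.dvd_of_dvd_pow h))) hζ.pow_eq_one]
    conv_lhs => rw [← Nat.div_add_mod p (2 ^ N), hpN, pow_succ, pow_mul, hζ.pow_eq_one, one_pow,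
      one_mul]
  have hσsq : ∀ ℓ ∈ T, σ₁ (sq ℓ) = (χ ℓ : Ω) * sq ℓ := fun ℓ hℓ => by
    rw [frobenius_sqrt hB hp2 (hsq ℓ) (fun h => hpT (by
      have := (Nat.prime_dvd_prime_iff_eq hp (hT ℓ hℓ)).1 (Int.natCast_dvd_natCast.1 h)
      rwa [this])) hσ₁, ← hpJ ℓ hℓ, ← jacobiSym.legendreSym.to_jacobiSym]
  have hσim : σ₁ im = im := by
    rw [frobenius_sqrt hB hp2 him (fun h => hp.not_dvd_one (by
      rw [dvd_neg] at h; exact_mod_cast h)) hσ₁, legendreSym.at_neg_one hp2,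
      ZMod.χ₄_nat_one_mod_four hp4, Int.cast_one, one_mul]
  set sD : Ω := im * ∏ ℓ ∈ D.primeFactors, sq ℓ with hsD
  have hsD2 : sD ^ 2 = -(D : Ω) := by
    rw [hsD, mul_pow, him, ← Finset.prod_pow, Finset.prod_congr rfl fun ℓ _ => hsq ℓ]
    push_cast
    rw [← Nat.cast_prod, Nat.prod_primeFactors_of_squarefree hsf]
    ring
  have hσD : ¬ IsTransp r σ₁ := by
    rw [IsTransp]
    rintro ⟨h0, h1⟩
    have hfix : σ₁ sD = sD := by
      rw [hsD, map_mul, hσim, map_prod, Finset.prod_congr rfl fun ℓ hℓ =>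
        hσsq ℓ (hDT ℓ (Nat.prime_of_mem_primeFactors hℓ) (Nat.dvd_of_mem_primeFactors hℓ)),
        Finset.prod_mul_distrib, ← Int.cast_prod, hprod, Int.cast_one, one_mul]
    rcases (hr.fixing σ₁).mp (fun x hx => by
      rcases sq_eq_sq_iff_eq_or_eq_neg.1 (hx.trans hsD2.symm) with rfl | rfl
      · exact hfix
      · rw [map_neg, hfix]) with h | h
    · exact h h0
    · exact h1 h
  obtain ⟨x, y, hx, hy, hxy⟩ := exists_noncommute hr hD0
  set ν := x * y * x⁻¹ * y⁻¹ with hν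
  have hνT : ¬ IsTransp r ν := by
    rw [transp_iff hr, not_not, hν]
    exact commutator_sqrt (a := -(D : ℤ)) (by rw [rootNeg_sq]; push_cast; rfl)
  have hν1 : r ν ≠ 1 := fun h => hxy (by
    have h2 : r (x * y) = r ν * r (y * x) := by
      rw [← map_mul, hν]; congr 1; group
    rw [h, one_mul, map_mul, map_mul] at h2
    exact h2)
  obtain ⟨σ, hσT, hσ1, hσfix⟩ : ∃ σ : GQ, ¬ IsTransp r σ ∧ r σ ≠ 1 ∧
      σ ζ = ζ ∧ ∀ ℓ ∈ T, σ (sq ℓ) = (χ ℓ : Ω) * sq ℓ := by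
    by_cases h : r σ₁ = 1
    · refine ⟨σ₁ * ν, ?_, ?_, ?_, fun ℓ hℓ => ?_⟩
      · rw [transp_mul_iff hr]; tauto
      · rwa [map_mul, h, one_mul]
      · rw [AlgEquiv.mul_apply, hν, commutator_root hζ, hσζ]
      · rw [AlgEquiv.mul_apply, hν, commutator_sqrt (hsq ℓ), hσsq ℓ hℓ]
    · exact ⟨σ₁, hσD, h, hσζ, hσsq⟩
  obtain ⟨F, hF, hlev⟩ := exists_level hc
  let G : IntermediateField ℚ Ω :=
    IntermediateField.adjoin ℚ ((insert ζ (T.image sq) : Finset Ω) : Set Ω)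
  have : FiniteDimensional ℚ G :=
    IntermediateField.finiteDimensional_adjoin fun z _ => Algebra.IsIntegral.isIntegral z
  have : FiniteDimensional ℚ (F ⊔ G : IntermediateField ℚ Ω) :=
    IntermediateField.finiteDimensional_sup F G
  obtain ⟨q, hq, hqX, P, hP, φ, hφ, hag⟩ := Fermat.Agent.Chebotarev.exists_isFrobeniusAt_eqOn
    (F ⊔ G) σ (X ∪ T ∪ {2})
  simp only [Finset.mem_union, Finset.mem_singleton, not_or] at hqX
  have : Fact q.Prime := ⟨hq⟩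
  have hqD : ¬ q ∣ D := fun h => hqX.1.2 (hDT q hq h)
  have hrφ : r φ = r σ := by
    have h : r (σ⁻¹ * φ) = 1 := hlev _ (by
      rw [IntermediateField.mem_fixingSubgroup_iff]
      intro z hz
      rw [AlgEquiv.mul_apply, hag z ((le_sup_left : F ≤ F ⊔ G) hz), ← AlgEquiv.mul_apply,
        inv_mul_cancel, AlgEquiv.one_apply])
    calc r φ = r σ * r (σ⁻¹ * φ) := by rw [← map_mul, mul_inv_cancel_left]
      _ = r σ := by rw [h, mul_one]
  have hmem : ∀ z ∈ insert ζ (T.image sq), φ z = σ z := fun z hz =>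
    hag z ((le_sup_right : G ≤ F ⊔ G) (IntermediateField.subset_adjoin ℚ _ (Finset.mem_coe.mpr hz)))
  have hqN : q % 2 ^ N = 1 := by
    have h1 := hmem ζ (Finset.mem_insert_self _ _)
    rw [hσfix.1, frobenius_root_of_unity hq hP hφ (fun h => hqX.2
      ((Nat.prime_dvd_prime_iff_eq hq Nat.prime_two).1 (hq.dvd_of_dvd_pow h))) hζ.pow_eq_one] at h1
    have h2 := modEq_of_pow_eq hζ (NeZero.ne _) (h1.trans (pow_one ζ).symm)
    rw [Nat.ModEq] at h2
    rw [h2, Nat.one_mod_eq_one.mpr (Nat.one_lt_two_pow (by omega)).ne']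
  refine ⟨q, hqX.1.1, ?_, hq, ?_, fun ℓ hℓ => ?_, fun P' hP' φ' hφ' => ?_⟩
  · have h1 : q ≡ 1 [MOD 2 ^ N] := by
      rw [Nat.ModEq, hqN, Nat.one_mod_eq_one.mpr (Nat.one_lt_two_pow (by omega)).ne']
    exact h1.of_dvd (pow_dvd_pow 2 (le_max_left _ _))
  · have h1 : q ≡ 1 [MOD 2 ^ N] := by
      rw [Nat.ModEq, hqN, Nat.one_mod_eq_one.mpr (Nat.one_lt_two_pow (by omega)).ne']
    exact h1.of_dvd (pow_dvd_pow 2 (le_max_right n 2))
  · have hℓq : ¬ (q : ℤ) ∣ (ℓ : ℤ) := fun h => hqX.1.2 (by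
      rwa [(Nat.prime_dvd_prime_iff_eq hq (hT ℓ hℓ)).1 (Int.natCast_dvd_natCast.1 h)])
    have h1 := hmem (sq ℓ) (Finset.mem_insert_of_mem (Finset.mem_image_of_mem sq hℓ))
    rw [hσfix.2 ℓ hℓ, frobenius_sqrt hP hqX.2 (hsq ℓ) hℓq hφ] at h1
    rw [← jacobiSym.legendreSym.to_jacobiSym]
    have hs0 : sq ℓ ≠ 0 := fun h => by
      have := hsq ℓ
      rw [h, zero_pow two_ne_zero] at this
      exact (hT ℓ hℓ).ne_zero (by exact_mod_cast this.symm)
    exact_mod_cast mul_right_cancel₀ hs0 h1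
  · obtain ⟨g, rfl⟩ := Fermat.Agent.Frobenius.exists_smul_eq_of_liesOverPrime_qbar hq hP hP'
    have hτ := Fermat.Agent.Frobenius.isFrobeniusAt_inv_mul_mem_inertia
      (Fermat.Agent.Frobenius.isFrobeniusAt_conj hφ g) hφ'
    have h1 := hr.unramified q hq hqD _ hP' _ hτ
    have h2 : r φ' = r g * r φ * r g⁻¹ := by
      calc r φ' = r (g * φ * g⁻¹) * r ((g * φ * g⁻¹)⁻¹ * φ') := by
            rw [← map_mul, mul_inv_cancel_left]
        _ = r g * r φ * r g⁻¹ := by rw [h1, mul_one, map_mul, map_mul]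
    rw [h2, Matrix.trace_mul_cycle, r_inv_mul, one_mul, hrφ]
    exact trace_eq_one hr hD0 hσT hσ1

end Fermat.Agent.TwoAdic.Selmer
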