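import Fermat.Agent.TwoAdic.Selmer.AuxPrimes
import Mathlib.NumberTheory.LegendreSymbol.JacobiSymbol

/-!
# The scalar part of the Selmer classes

Classes with scalar values are quadratic characters, cut down by the Legendre patterns of the
order-three primes; hence the bound on the dimension of a space of classes.
-/

set_option autoImplicit false

noncomputable section

namespace Fermat.Agent.TwoAdic.Selmer

open GaloisRep Fermat.Agent.DefRing Fermat.Agent.TameInertia Fermat.Agent.Deform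
  Fermat.Agent.GalCoh Matrix

local notation "Ω" => AlgebraicClosure ℚ

local instance instAlgebraicQbarScalar : Algebra.IsAlgebraic ℚ (AlgebraicClosure ℚ) :=
  AlgebraicClosure.isAlgebraic ℚ

variable {k : Type} [Field k] [CharP k 2] {D : ℕ} {r : MRep k}

theorem frobenius_mul_inertia {P : ValuationSubring Ω} {φ τ : GQ} {q : ℕ}
    (hφ : P.IsFrobeniusAt φ q) (hτ : τ ∈ P.inertiaSubgroupIn ℚ) : P.IsFrobeniusAt (φ * τ) q := by
  obtain ⟨h, hx⟩ := hφ
  obtain ⟨h', hx'⟩ := Fermat.Agent.Frobenius.mem_inertiaSubgroupIn_iff.1 hτ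
  refine ⟨mul_mem h h', fun x => ?_⟩
  rw [show (⟨φ * τ, mul_mem h h'⟩ : P.decompositionSubgroup ℚ) = ⟨φ, h⟩ * ⟨τ, h'⟩ from rfl,
    mul_smul, hx', hx]

/-- The conditions defining the space of cocycles. -/
def selmerCond (D ℓ₀ : ℕ) (r : MRep k) (g₀ : GQ) (A : Finset ℕ) :
    Submodule k (GQ → Matrix (Fin 2) (Fin 2) k) where
  carrier := {c | (∀ g, (c g).trace = 0) ∧
    (∀ p ∈ bad D A, ∀ P : ValuationSubring Ω, P.LiesOverPrime p → IsLocalAt r c P) ∧
    (∀ p : ℕ, p.Prime → p ∉ bad D A → ∀ P : ValuationSubring Ω, P.LiesOverPrime p →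
      ∀ τ ∈ P.inertiaSubgroupIn ℚ, avg (r g₀) (c τ) = c τ) ∧
    (∀ p ∈ insert 2 A, ∀ P : ValuationSubring Ω, P.LiesOverPrime p →
      ∀ τ ∈ P.inertiaSubgroupIn ℚ, ∀ σ ∈ P.decompositionSubgroup ℚ, (r σ - 1) * c τ = 0) ∧
    ∀ ℓ ∈ D.primeFactors, ℓ ≠ ℓ₀ → ∀ P : ValuationSubring Ω, P.LiesOverPrime ℓ →
      ∀ φ : GQ, P.IsFrobeniusAt φ ℓ → r φ = 1 → ∀ τ ∈ P.inertiaSubgroupIn ℚ,
        c φ * (r τ - 1) = 0}
  zero_mem' := by
    refine ⟨fun g => trace_zero _ _, fun p _ P _ σ _ => ?_, fun p _ _ P _ τ _ => ?_,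
      fun p _ P _ τ _ σ _ => ?_, fun ℓ _ _ P _ φ _ _ τ _ => ?_⟩
    · simp
    · simp [avg]
    · simp
    · simp
  add_mem' := by
    rintro c c' ⟨a1, a2, a3, a4, a5⟩ ⟨b1, b2, b3, b4, b5⟩
    refine ⟨fun g => ?_, fun p hp P hP σ hσ => ?_, fun p hp hp' P hP τ hτ => ?_,
      fun p hp P hP τ hτ σ hσ => ?_, fun ℓ hℓ hℓ' P hP φ hφ h1 τ hτ => ?_⟩
    · simp [a1 g, b1 g]
    · simp [add_mul, a2 p hp P hP σ hσ, b2 p hp P hP σ hσ]
    · simp [avg_add, a3 p hp hp' P hP τ hτ, b3 p hp hp' P hP τ hτ]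
    · simp [mul_add, a4 p hp P hP τ hτ σ hσ, b4 p hp P hP τ hτ σ hσ]
    · simp [add_mul, a5 ℓ hℓ hℓ' P hP φ hφ h1 τ hτ, b5 ℓ hℓ hℓ' P hP φ hφ h1 τ hτ]
  smul_mem' := by
    rintro a c ⟨a1, a2, a3, a4, a5⟩
    refine ⟨fun g => ?_, fun p hp P hP σ hσ => ?_, fun p hp hp' P hP τ hτ => ?_,
      fun p hp P hP τ hτ σ hσ => ?_, fun ℓ hℓ hℓ' P hP φ hφ h1 τ hτ => ?_⟩
    · simp [a1 g]
    · simp [a2 p hp P hP σ hσ]
    · simp [avg_smul, a3 p hp hp' P hP τ hτ]
    · simp [a4 p hp P hP τ hτ σ hσ]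
    · simp [a5 ℓ hℓ hℓ' P hP φ hφ h1 τ hτ]

variable {ℓ₀ : ℕ} {g₀ : GQ} {A Q : Finset ℕ}

/-- The primes allowed to ramify. -/
abbrev ramSet (D : ℕ) (A Q : Finset ℕ) : Finset Nat.Primes := primesOf (bad D A ∪ Q)

variable (hr : IsDihedralResidual D r) (hcont : IsCont r) (hsf : Squarefree D) (hD8 : D % 8 = 3)
  (hg₀ : ¬ IsTransp r g₀) (hg₁ : r g₀ ≠ 1) (hA : IsAuxSet D r A)

include hr hcont hsf hD8 hg₀ hg₁ hA in
/-- The decomposition of a cocycle of the space. -/
theorem exists_decomp {c : GQ → Matrix (Fin 2) (Fin 2) k}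
    (hker : ∀ x ∈ auxSpace D r g₀ A, (∀ σ, c σ = 0 → x σ = 0) → ∀ h, r h = 1 → x h = 0)
    (hc : IsCoc r c)
    (hcts : (levelsS (ramSet D A Q)).IsCts₁ c) (hm : c ∈ selmerCond D ℓ₀ r g₀ A) :
    ∃ (Y : Matrix (Fin 2) (Fin 2) k) (a : GQ → k), (∀ σ τ, a (σ * τ) = a σ + a τ) ∧
      (∀ σ, avg (r g₀) (c σ) = a σ • 1) ∧ ∀ σ, c σ = r σ * Y * r σ⁻¹ + Y + a σ • 1 := by
  have hD : 0 < D := by omega
  have h3 := cube_eq_one hr hD hg₀
  have htr := trace_eq_one hr hD hg₀ hg₁
  obtain ⟨hc0, hloc, hav, -, -⟩ := hm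
  obtain ⟨a, ha⟩ : ∃ a : GQ → k, ∀ σ, avg (r g₀) (c σ) = a σ • 1 :=
    ⟨fun σ => (isScal_avg h3 (by rw [htr]; exact one_ne_zero) (hc0 σ)).choose,
      fun σ => (isScal_avg h3 (by rw [htr]; exact one_ne_zero) (hc0 σ)).choose_spec⟩
  have hadd : ∀ σ τ, a (σ * τ) = a σ + a τ := fun σ τ => by
    have h := ha (σ * τ)
    rw [hc, avg_add, avg_conj (r_mul_inv r σ) (r_inv_mul r σ) h3 (conj_order_three hr hD hg₀ hg₁ σ),
      ha, ha, Matrix.mul_smul, mul_one, Matrix.smul_mul, r_mul_inv, ← add_smul, add_comm] at h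
    simpa using (congrFun (congrFun h 0) 0).symm
  obtain ⟨x, hx⟩ : ∃ x : GQ → Matrix (Fin 2) (Fin 2) k, ∀ σ, x σ = c σ + a σ • 1 :=
    ⟨_, fun σ => rfl⟩
  have hxc : IsCoc r x := fun σ τ => by
    rw [hx, hx, hx, hc, hadd, mul_add, add_mul, Matrix.mul_smul, mul_one, Matrix.smul_mul,
      r_mul_inv, add_smul]
    abel
  have hx0 : ∀ σ, (x σ).trace = 0 := fun σ => by
    rw [hx, trace_add, hc0, trace_two_smul_one, add_zero]
  have hxav : ∀ σ, avg (r g₀) (x σ) = 0 := fun σ => by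
    rw [hx, avg_add, ha, avg_of_isScal h3 ⟨a σ, rfl⟩, add_self_mat]
  have hxcts : (levelsS (ramSet D A Q)).IsCts₁ x := by
    obtain ⟨U, hU, hU'⟩ := hcts
    refine ⟨U, hU, fun g s hs => ?_⟩
    have e1 := hU' g s hs
    have e2 : a (g * s) = a g := by
      have h := ha (g * s)
      rw [e1, ha] at h
      simpa using (congrFun (congrFun h 0) 0).symm
    rw [hx, hx, e1, e2]
  have hsub : D.primeFactors ⊆ bad D A := Finset.subset_union_left.trans (Finset.subset_insert _ _)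
  have hmem : x ∈ auxSpace D r g₀ A := by
    refine ⟨hxc, cts_of_inertia hr hxc hxcts (trivial_levelS hr hcont
      (hsub.trans Finset.subset_union_left) hD.ne') (fun q hq hqD => hq (mem_primesOf.mpr
        (hsub (Nat.mem_primeFactors.mpr ⟨q.2, hqD, hD.ne'⟩)))) (fun q _ hq P hP τ hτ => ?_),
      hx0, hxav, fun p hp P hP σ hσ => ?_⟩
    · have hq' : (q : ℕ) ∉ bad D A := fun h => hq (mem_primesOf.mpr h)
      rw [hx, ← ha, hav q q.2 hq' P hP τ hτ, add_self_mat]
    · obtain ⟨t, -, hT, himg⟩ := hasLocalTransp_bad hr hcont hsf hD8 hA hp hP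
      rw [hx, add_mul, trace_add, hloc p hp P hP σ hσ, zero_add, Matrix.smul_mul, one_mul,
        trace_smul]
      rcases himg σ hσ with h | h <;> rw [h]
      · rw [← trace_smul, trace_two_smul_one]
      · rw [hT.1, smul_zero]
  obtain ⟨Y, -, hY⟩ := eq_coboundary hr hg₀ hg₁ hD hxc hx0 hxav (hker x hmem fun σ hσ => by
    have := ha σ
    rw [hσ] at this
    rw [hx, hσ, ← this]
    simp [avg])
  refine ⟨Y, a, hadd, ha, fun σ => ?_⟩
  rw [← hY, hx, add_assoc, add_self_mat, add_zero]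

include hr hg₀ hg₁ in
/-- The character of the quadratic field is the coboundary of an element of order three. -/
theorem coboundary_char (hD : 0 < D) (σ : GQ) [Decidable (IsTransp r σ)] :
    r σ * r g₀ * r σ⁻¹ + r g₀ = (if IsTransp r σ then (1 : k) else 0) • 1 := by
  have h3 := cube_eq_one hr hD hg₀
  have htr := trace_eq_one hr hD hg₀ hg₁
  have key : ∀ u : GQ, IsTransp r u → r u * r g₀ * r u⁻¹ = r g₀ * r g₀ := by
    intro u hu
    refine (conj_order_three hr hD hg₀ hg₁ u).resolve_left fun h => ?_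
    have hc : Commute (r u) (r g₀) := by
      show r u * r g₀ = r g₀ * r u
      conv_rhs => rw [← h, mul_assoc, r_inv_mul, mul_one]
    obtain ⟨z, hz⟩ := isScal_of_commute hu.1 (by rw [htr]; exact one_ne_zero) hc
    have hd := hr.det_one u
    rw [hz, Matrix.det_smul, det_one, mul_one, Fintype.card_fin] at hd
    refine hu.2 ?_
    rw [hz, show z = 1 from ?_, one_smul]
    have h0 : (2 : k) = 0 := CharTwo.two_eq_zero
    have : (z - 1) ^ 2 = 0 := by linear_combination hd + (1 - z) * h0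
    exact sub_eq_zero.mp (pow_eq_zero_iff two_ne_zero |>.mp this)
  split_ifs with hσ
  · rw [key σ hσ, one_smul]
    have hd := hr.det_one g₀
    rw [det_fin_two] at hd
    rw [trace_fin_two] at htr
    have h0 : (2 : k) = 0 := CharTwo.two_eq_zero
    generalize r g₀ = G at *
    ext i j
    fin_cases i <;> fin_cases j <;> simp [mul_apply, Fin.sum_univ_two]
    · linear_combination G 0 0 * htr - hd + (G 0 0 - 1) * h0
    · linear_combination G 0 1 * htr + G 0 1 * h0
    · linear_combination G 1 0 * htr + G 1 0 * h0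
    · linear_combination G 1 1 * htr - hd + (G 1 1 - 1) * h0
  · obtain ⟨t, ht⟩ := exists_transp hr hD
    have h1 := key t ht
    have h2 := key (σ * t) (by rw [transp_mul_iff hr]; tauto)
    have e : ∀ Z, r (σ * t) * Z * r (σ * t)⁻¹ = r σ * (r t * Z * r t⁻¹) * r σ⁻¹ := fun Z => by
      simp only [map_mul, _root_.mul_inv_rev, mul_assoc]
    rw [e, h1] at h2
    have h4 : r g₀ * r g₀ * (r g₀ * r g₀) = r g₀ := by rw [← mul_assoc, h3, one_mul]
    have h5 : r σ * r g₀ * r σ⁻¹ = r g₀ := by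
      conv_lhs => rw [← h4]
      rw [← conj_mul, h2, h4]
    rw [h5, zero_smul, add_self_mat]

include hr hcont hsf hD8 hg₀ hg₁ hA in
open scoped NumberTheorySymbols in
/-- The classes of a part of the space are determined by the values of the scalar part at the tame
generators of the primes dividing `D`, up to constants. -/
theorem finrank_classes_le_of (W : Submodule k (GQ → Matrix (Fin 2) (Fin 2) k))
    (hW : W ≤ selmerCond D ℓ₀ r g₀ A)
    (hker : ∀ c ∈ W, IsCoc r c → ∀ x ∈ auxSpace D r g₀ A, (∀ σ, c σ = 0 → x σ = 0) →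
      ∀ h, r h = 1 → x h = 0)
    (hℓ₀ : ℓ₀ ∈ D.primeFactors) (f : ℕ → ℕ) (hQ : Q = (D.primeFactors.erase ℓ₀).image f)
    (hf : ∀ i ∈ D.primeFactors.erase ℓ₀, (f i).Prime ∧ f i % 4 = 1 ∧
      (∀ ℓ ∈ D.primeFactors, J((ℓ : ℤ) | f i) = if ℓ = i ∨ ℓ = ℓ₀ then -1 else 1))
    [FiniteDimensional k ↥(Submodule.comap (Z1 (levelsS (ramSet D A Q)) (adRep r)).subtype
      W)] :
    Module.finrank k ↥(Submodule.map (H1mk (levelsS (ramSet D A Q)) (adRep r))
      (Submodule.comap (Z1 (levelsS (ramSet D A Q)) (adRep r)).subtype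
        W)) ≤ (D.primeFactors.erase ℓ₀).card := by
  classical
  have hD : 0 < D := by omega
  have hodd : Odd D := Nat.odd_iff.mpr (by omega)
  set S := ramSet D A Q with hS
  set Zs := Submodule.comap (Z1 (levelsS S) (adRep r)).subtype W
  have hprime : ∀ ℓ : D.primeFactors, (ℓ : ℕ).Prime ∧ (ℓ : ℕ) ∣ D ∧ (2 : ℕ) ≠ ℓ := fun ℓ => by
    refine ⟨Nat.prime_of_mem_primeFactors ℓ.2, Nat.dvd_of_mem_primeFactors ℓ.2, fun h => ?_⟩
    have := Nat.dvd_of_mem_primeFactors ℓ.2
    rw [← h] at this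
    omega
  choose PD hPD using fun ℓ : D.primeFactors =>
    Fermat.Agent.Frobenius.exists_liesOverPrime Ω (hprime ℓ).1
  choose τD hτD using fun ℓ : D.primeFactors =>
    exists_tameGenerator Nat.prime_two (hprime ℓ).1 (hprime ℓ).2.2 (hPD ℓ)
  let Θ : Zs →ₗ[k] (D.primeFactors → k) :=
    { toFun := fun c ℓ => avg (r g₀) (c.1.1 (τD ℓ)) 0 0
      map_add' := fun c c' => funext fun ℓ => by simp [avg_add]
      map_smul' := fun m c => funext fun ℓ => by simp [avg_smul] }
  let one : D.primeFactors → k := fun _ => 1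
  let Θ' : Zs →ₗ[k] (D.primeFactors → k) ⧸ (k ∙ one) := (k ∙ one).mkQ ∘ₗ Θ
  let Φ := (H1mk (levelsS S) (adRep r)).domRestrict Zs
  have hkerle : LinearMap.ker Θ' ≤ LinearMap.ker Φ := by
    intro c hc
    rw [LinearMap.mem_ker] at hc ⊢
    change (k ∙ one).mkQ (Θ c) = 0 at hc
    rw [Submodule.mkQ_apply, Submodule.Quotient.mk_eq_zero, Submodule.mem_span_singleton] at hc
    obtain ⟨μ, hμ⟩ := hc
    obtain ⟨hcoc, hcts⟩ := mem_Z1_iff.mp c.1.2
    have hcoc' : IsCoc r c.1.1 := isCoc_iff_adRep.mpr hcoc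
    have hm : c.1.1 ∈ selmerCond D ℓ₀ r g₀ A := hW c.2
    obtain ⟨Y, a, hadd, hav, hdec⟩ := exists_decomp hr hcont hsf hD8 hg₀ hg₁ hA (hker c.1.1 c.2 hcoc') hcoc' hcts hm
    obtain ⟨hc0, hloc, hscal, hP4, hP5⟩ := hm
    have haτ : ∀ ℓ : D.primeFactors, a (τD ℓ) = μ := fun ℓ => by
      have := (congrFun hμ ℓ).symm
      change avg (r g₀) (c.1.1 (τD ℓ)) 0 0 = μ * 1 at this
      rw [hav] at this
      simpa using this
    let χ : GQ → k := fun σ => if IsTransp r σ then 1 else 0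
    have hχ : ∀ σ τ, χ (σ * τ) = χ σ + χ τ := fun σ τ => by
      simp only [χ, transp_mul_iff hr]
      by_cases h1 : IsTransp r σ <;> by_cases h2 : IsTransp r τ <;>
        simp [h1, h2, CharTwo.add_self_eq_zero]
    have hχ0 : ∀ σ, r σ = 1 → χ σ = 0 := fun σ h => if_neg fun hT => hT.2 h
    let b₀ : GQ → k := fun σ => a σ + μ * χ σ
    have hb₀ : ∀ σ τ, b₀ (σ * τ) = b₀ σ + b₀ τ := fun σ τ => by
      simp only [b₀, hadd, hχ]; ring
    suffices hzero : ∀ σ, b₀ σ = 0 by
      show H1mk (levelsS S) (adRep r) c.1 = 0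
      rw [H1mk_eq_zero_iff, mem_B1_iff]
      refine ⟨Y + μ • r g₀, fun σ => ?_⟩
      rw [adRep_apply, sub_mat, hdec, mul_add, add_mul, Matrix.mul_smul, Matrix.smul_mul,
        show a σ = μ * χ σ from CharTwo.add_eq_zero.mp (hzero σ), mul_smul,
        ← coboundary_char hr hg₀ hg₁ hD σ, smul_add]
      abel
    have hblev : ∃ F : IntermediateField ℚ Ω, FiniteDimensional ℚ F ∧
        ∀ σ ∈ F.fixingSubgroup, b₀ σ = 0 := by
      obtain ⟨U, hU, hU'⟩ := hcts
      obtain ⟨F, hF, hFU⟩ : fullLevels.mem U := by simpa using compat_levelsS S hU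
      obtain ⟨F', hF', hlev⟩ := exists_level hcont
      refine ⟨F ⊔ F', IntermediateField.finiteDimensional_sup F F', fun σ hσ => ?_⟩
      have h1 : c.1.1 σ = 0 := by
        have := hU' 1 σ (hFU (IntermediateField.fixingSubgroup_antitone le_sup_left hσ))
        rwa [one_mul, hcoc'.map_one] at this
      have h2 := hlev σ (IntermediateField.fixingSubgroup_antitone le_sup_right hσ)
      have h3 := hav σ
      rw [h1] at h3
      have : a σ = 0 := by simpa [avg] using (congrFun (congrFun h3 0) 0).symm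
      simp [b₀, this, hχ0 σ h2]
    have hgenI : ∀ {q : ℕ} {P : ValuationSubring Ω} (b : GQ → k), q.Prime → (2 : ℕ) ≠ q →
        P.LiesOverPrime q → (∀ σ τ, b (σ * τ) = b σ + b τ) →
        (∃ F : IntermediateField ℚ Ω, FiniteDimensional ℚ F ∧ ∀ σ ∈ F.fixingSubgroup, b σ = 0) →
        ∀ {τ₀ : GQ}, IsTameGenerator P 2 q τ₀ → b τ₀ = 0 →
        ∀ τ ∈ P.inertiaSubgroupIn ℚ, b τ = 0 := by
      intro q P b hq h2 hP hb hlev τ₀ hτ₀ h0 τ hτ
      obtain ⟨F, hF, hlev⟩ := hlev
      let ρ : GQ →* Multiplicative k :=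
        MonoidHom.mk' (fun σ => Multiplicative.ofAdd (b σ)) fun σ τ => by rw [hb, ofAdd_add]
      obtain ⟨j, hj⟩ := exists_eq_pow_tameGenerator Nat.prime_two hq h2 hP (MonoidHom.id GQ)
        (ρ := ρ) ⟨F, hF, fun σ hσ => congrArg Multiplicative.ofAdd (hlev σ hσ)⟩ (k := 1)
        (fun σ _ => by
          show Multiplicative.ofAdd (b σ) ^ (2 ^ 1) = 1
          rw [pow_one, ← ofAdd_nsmul, two_nsmul, CharTwo.add_self_eq_zero, ofAdd_zero])
        (d₀ := τ₀) hτ₀ (d := τ) hτ
      have := congrArg Multiplicative.toAdd hj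
      simpa [ρ, h0] using this
    -- outside `D` and `Q` the character is unramified
    have hout : ∀ p : ℕ, p.Prime → ¬ p ∣ D → p ∉ Q → ∀ P : ValuationSubring Ω, P.LiesOverPrime p →
        ∀ τ ∈ P.inertiaSubgroupIn ℚ, b₀ τ = 0 := by
      intro p hp hpD hpQ P hP τ hτ
      have hrτ := hr.unramified p hp hpD P hP τ hτ
      have hinv : r τ⁻¹ = 1 := by simpa [hrτ] using r_mul_inv r τ
      have hcτ : c.1.1 τ = a τ • 1 := by
        rw [hdec, hrτ, hinv, one_mul, mul_one, add_self_mat, zero_add]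
      suffices a τ = 0 by simp [b₀, this, hχ0 τ hrτ]
      by_cases hpA : p ∈ insert 2 A
      · have hpb : p ∈ bad D A := by
          simp only [bad, Finset.mem_insert, Finset.mem_union] at hpA ⊢
          tauto
        obtain ⟨t, ht, hT, -⟩ := hasLocalTransp_bad hr hcont hsf hD8 hA hpb hP
        have h := hP4 p hpA P hP τ hτ t ht
        rw [hcτ, Matrix.mul_smul, mul_one] at h
        rcases smul_eq_zero.mp h with h | h
        · exact h
        · exact absurd (sub_eq_zero.mp h) hT.2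
      · have hpS : (⟨p, hp⟩ : Nat.Primes) ∉ S := by
          intro h
          have h' := mem_primesOf.mp h
          change p ∈ bad D A ∪ Q at h'
          simp only [bad, Finset.mem_insert, Finset.mem_union, Nat.mem_primeFactors] at h' hpA
          tauto
        have h0 := cts_inertia hcoc' hcts hpS hP hτ
        rw [hcτ] at h0
        simpa using congrFun (congrFun h0 0) 0
    have hdvd : ∀ ℓ : D.primeFactors, ∀ τ ∈ (PD ℓ).inertiaSubgroupIn ℚ, b₀ τ = 0 := fun ℓ =>
      hgenI b₀ (hprime ℓ).1 (hprime ℓ).2.2 (hPD ℓ) hb₀ hblev (hτD ℓ) (by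
        obtain ⟨hT, -, -⟩ := inertia_image hr hsf hodd (hprime ℓ).1 (hprime ℓ).2.1 (hPD ℓ) (hτD ℓ)
        simp [b₀, χ, haτ ℓ, hT, CharTwo.add_self_eq_zero])
    -- the characters of the auxiliary order-three primes
    let I := D.primeFactors.erase ℓ₀
    have hfD : ∀ i : I, ¬ f i ∣ D := fun i hdvd => by
      obtain ⟨hp, -, hJ⟩ := hf i i.2
      have h := hJ (f i) (Nat.mem_primeFactors.mpr ⟨hp, hdvd, hD.ne'⟩)
      rw [jacobiSym.mod_left] at h
      simp [jacobiSym.zero_left hp.one_lt] at h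
      split_ifs at h <;> norm_num at h
    have hf2 : ∀ i : I, (2 : ℕ) ≠ f i := fun i h => by
      have := (hf i i.2).2.1
      omega
    have hfinj : ∀ i j : I, f i = f j → i = j := fun i j h => by
      by_contra hne
      have hiD := (Finset.mem_erase.mp i.2).2
      have h1 := (hf i i.2).2.2 i hiD
      have h2 := (hf j j.2).2.2 i hiD
      rw [h, h2, if_pos (Or.inl rfl), if_neg] at h1
      · norm_num at h1
      · rintro (e | e)
        · exact hne (Subtype.ext e)
        · exact (Finset.mem_erase.mp i.2).1 e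
    choose PQ hPQ using fun i : I => Fermat.Agent.Frobenius.exists_liesOverPrime Ω (hf i i.2).1
    choose τQ hτQ using fun i : I =>
      exists_tameGenerator Nat.prime_two (hf i i.2).1 (hf2 i) (hPQ i)
    choose sQ hsQ using fun i : I => IsAlgClosed.exists_pow_nat_eq ((f i : ℕ) : Ω) two_pos
    have hsQ' : ∀ i, sQ i ^ 2 = (((f i : ℕ) : ℤ) : Ω) := fun i => by rw [hsQ, Int.cast_natCast]
    let κ : I → GQ → k := fun i σ => if σ (sQ i) = sQ i then 0 else 1
    have hs0 : ∀ i, sQ i ≠ -sQ i := fun i h => by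
      rw [eq_neg_iff_add_eq_zero, ← two_mul, mul_eq_zero] at h
      have := hsQ i
      rw [h.resolve_left two_ne_zero, zero_pow two_ne_zero, eq_comm, Nat.cast_eq_zero] at this
      exact (hf i i.2).1.ne_zero this
    have hκ : ∀ i σ τ, κ i (σ * τ) = κ i σ + κ i τ := fun i σ τ => by
      simp only [κ, AlgEquiv.mul_apply]
      rcases apply_sqrt (hsQ' i) σ with h1 | h1 <;> rcases apply_sqrt (hsQ' i) τ with h2 | h2 <;>
        simp [h1, h2, map_neg, (hs0 i).symm, CharTwo.add_self_eq_zero]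
    let b : GQ → k := fun σ => b₀ σ + ∑ i, b₀ (τQ i) * κ i σ
    have hb : ∀ σ τ, b (σ * τ) = b σ + b τ := fun σ τ => by
      simp only [b, hb₀, hκ, mul_add, Finset.sum_add_distrib]
      abel
    have hblev' : ∃ F : IntermediateField ℚ Ω, FiniteDimensional ℚ F ∧
        ∀ σ ∈ F.fixingSubgroup, b σ = 0 := by
      obtain ⟨F, hF, hlev⟩ := hblev
      have : FiniteDimensional ℚ (IntermediateField.adjoin ℚ (Set.range sQ)) := by
        have : Finite (Set.range sQ) := inferInstance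
        exact IntermediateField.finiteDimensional_adjoin fun z _ => Algebra.IsIntegral.isIntegral z
      refine ⟨F ⊔ IntermediateField.adjoin ℚ (Set.range sQ),
        IntermediateField.finiteDimensional_sup _ _, fun σ hσ => ?_⟩
      have h1 := hlev σ (IntermediateField.fixingSubgroup_antitone le_sup_left hσ)
      have h2 : ∀ i, κ i σ = 0 := fun i => if_pos
        ((IntermediateField.mem_fixingSubgroup_iff _ σ).mp hσ _
          ((le_sup_right : IntermediateField.adjoin ℚ (Set.range sQ) ≤ F ⊔ _)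
            (IntermediateField.subset_adjoin ℚ _ ⟨i, rfl⟩)))
      simp [b, h1, h2]
    have hκI : ∀ (i : I) (p : ℕ) (P : ValuationSubring Ω), p.Prime → P.LiesOverPrime p →
        p ≠ f i → ∀ τ ∈ P.inertiaSubgroupIn ℚ, κ i τ = 0 := fun i p P hp hP hne τ hτ => by
      have : Fact (f i).Prime := ⟨(hf i i.2).1⟩
      exact if_pos (inertia_sqrt_prime (hf i i.2).2.1 (hsQ i) hp hP hne hτ)
    have hbzero : ∀ σ, b σ = 0 := by
      let ρ : GQ →* Multiplicative k :=
        MonoidHom.mk' (fun σ => Multiplicative.ofAdd (b σ)) fun σ τ => by rw [hb, ofAdd_add]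
      obtain ⟨F, hF, hlev⟩ := hblev'
      have htop : ρ.ker = ⊤ := by
        refine Fermat.Agent.FreyReducible.subgroup_eq_top_of_inertia_le ρ.ker
          ⟨F, hF, fun σ hσ => congrArg Multiplicative.ofAdd (hlev σ hσ)⟩ fun p hp => ?_
        suffices ∃ P : ValuationSubring Ω, P.LiesOverPrime p ∧
            ∀ τ ∈ P.inertiaSubgroupIn ℚ, b τ = 0 by
          obtain ⟨P, hP, h⟩ := this
          exact ⟨P, hP, fun τ hτ => congrArg Multiplicative.ofAdd (h τ hτ)⟩
        by_cases hpD : p ∣ D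
        · let ℓ : D.primeFactors := ⟨p, Nat.mem_primeFactors.mpr ⟨hp, hpD, hD.ne'⟩⟩
          refine ⟨PD ℓ, hPD ℓ, fun τ hτ => ?_⟩
          have h2 : ∀ i, κ i τ = 0 := fun i =>
            hκI i p _ hp (hPD ℓ) (fun e => hfD i (e ▸ hpD)) τ hτ
          simp [b, hdvd ℓ τ hτ, h2]
        by_cases hpQ : p ∈ Q
        · obtain ⟨i₁, hi₁, rfl⟩ := Finset.mem_image.mp (hQ ▸ hpQ)
          let i : I := ⟨i₁, hi₁⟩
          refine ⟨PQ i, hPQ i, hgenI b hp (hf2 i) (hPQ i) hb ⟨F, hF, hlev⟩ (hτQ i) ?_⟩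
          have h1 : κ i (τQ i) = 1 := if_neg ((hτQ i).2 _ (hsQ i))
          have h2 : ∀ j, j ≠ i → κ j (τQ i) = 0 := fun j hj =>
            hκI j _ _ hp (hPQ i) (fun e => hj (hfinj j i e.symm)) _ (hτQ i).1
          simp only [b]
          rw [Finset.sum_eq_single i (fun j _ hj => by rw [h2 j hj, mul_zero])
            (fun h => absurd (Finset.mem_univ _) h), h1, mul_one, CharTwo.add_self_eq_zero]
        · obtain ⟨P, hP⟩ := Fermat.Agent.Frobenius.exists_liesOverPrime Ω hp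
          refine ⟨P, hP, fun τ hτ => ?_⟩
          have h2 : ∀ i : I, κ i τ = 0 := fun i => hκI i p P hp hP
            (fun e => hpQ (hQ ▸ Finset.mem_image.mpr ⟨i, i.2, e.symm⟩)) τ hτ
          simp [b, hout p hp hpD hpQ P hP τ hτ, h2]
      intro σ
      have h : σ ∈ ρ.ker := htop ▸ Subgroup.mem_top σ
      exact congrArg Multiplicative.toAdd (MonoidHom.mem_ker.mp h)
    have hcoef : ∀ i : I, b₀ (τQ i) = 0 := by
      intro i
      have hi := Finset.mem_erase.mp i.2
      let ℓ : D.primeFactors := ⟨i, hi.2⟩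
      have hℓp : Fact (i : ℕ).Prime := ⟨(hprime ℓ).1⟩
      obtain ⟨hT, -, himg⟩ :=
        inertia_image hr hsf hodd (hprime ℓ).1 (hprime ℓ).2.1 (hPD ℓ) (hτD ℓ)
      obtain ⟨φ, hφ, hrφ⟩ : ∃ φ, (PD ℓ).IsFrobeniusAt φ i ∧ r φ = 1 := by
        obtain ⟨φ, hφ⟩ := Fermat.Agent.Frobenius.exists_isFrobeniusAt_qbar (hprime ℓ).1 (hPD ℓ)
        rcases himg φ hφ.mem_decompositionSubgroup with h | h
        · exact ⟨φ, hφ, h⟩
        · exact ⟨φ * τD ℓ, frobenius_mul_inertia hφ (hτD ℓ).1, by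
            rw [map_mul, h, transp_sq hr hT]⟩
      have hb₀φ : b₀ φ = 0 := by
        have h := hP5 i hi.2 hi.1 _ (hPD ℓ) φ hφ hrφ _ (hτD ℓ).1
        have hinv : r φ⁻¹ = 1 := by simpa [hrφ] using r_mul_inv r φ
        rw [hdec, hrφ, hinv, one_mul, mul_one, add_self_mat, zero_add, Matrix.smul_mul,
          one_mul] at h
        rcases smul_eq_zero.mp h with h | h
        · simp [b₀, h, hχ0 φ hrφ]
        · exact absurd (sub_eq_zero.mp h) hT.2
      have hκφ : ∀ j : I, κ j φ = if j = i then 1 else 0 := by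
        intro j
        obtain ⟨hjp, hj4, hjJ⟩ := hf j j.2
        have hne : (i : ℕ) ≠ 2 := fun e => (hprime ℓ).2.2 e.symm
        have hnd : ¬ ((i : ℕ) : ℤ) ∣ ((f j : ℕ) : ℤ) := fun h => hfD j (by
          rw [← (Nat.prime_dvd_prime_iff_eq (hprime ℓ).1 hjp).1 (Int.natCast_dvd_natCast.1 h)]
          exact (hprime ℓ).2.1)
        have h1 := frobenius_sqrt (hPD ℓ) hne (hsQ' j) hnd hφ
        rw [jacobiSym.legendreSym.to_jacobiSym,
          jacobiSym.quadratic_reciprocity_one_mod_four hj4 ((hprime ℓ).1.odd_of_ne_two hne),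
          hjJ i hi.2] at h1
        by_cases hji : j = i
        · subst hji
          rw [if_pos (Or.inl rfl), Int.cast_neg, Int.cast_one, neg_one_mul] at h1
          rw [if_pos rfl]
          exact if_neg (fun e => hs0 j (e.symm.trans h1))
        · rw [if_neg, Int.cast_one, one_mul] at h1
          · rw [if_neg hji]
            exact if_pos h1
          · rintro (e | e)
            · exact hji (Subtype.ext e).symm
            · exact hi.1 e
      have h := hbzero φ
      simp only [b, hb₀φ, zero_add, hκφ, mul_ite, mul_one, mul_zero, Finset.sum_ite_eq',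
        Finset.mem_univ, if_true] at h
      exact h
    intro σ
    have h := hbzero σ
    simpa [b, hcoef] using h
  rw [← LinearMap.range_domRestrict]
  change Module.finrank k (LinearMap.range Φ) ≤ _
  have : IsNoetherian k Zs := isNoetherian_of_isNoetherianRing_of_finite k Zs
  have h1 := Submodule.finrank_mono hkerle
  have h2 := LinearMap.finrank_range_add_finrank_ker (K := k) (V := Zs) Φ
  have h3 := LinearMap.finrank_range_add_finrank_ker (K := k) (V := Zs) Θ'
  have h4 := Submodule.finrank_le (LinearMap.range Θ')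
  have h5 := Submodule.finrank_quotient_add_finrank (k ∙ one)
  rw [Module.finrank_fintype_fun_eq_card, Fintype.card_coe, finrank_span_singleton (fun e => by
    simpa [one] using congrFun e ⟨ℓ₀, hℓ₀⟩)] at h5
  rw [Finset.card_erase_of_mem hℓ₀]
  omega

end Fermat.Agent.TwoAdic.Selmer
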