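import Mathlib.LinearAlgebra.Matrix.Trace
import Mathlib.LinearAlgebra.Matrix.Charpoly.Coeff
import Mathlib.LinearAlgebra.Matrix.Determinant.Basic
import Mathlib.Algebra.CharP.Two

/-!
# Trace zero matrices in characteristic two

Two by two trace zero matrices over a ring of characteristic two: scalars, transpositions and
averages over elements of order three.
-/

set_option autoImplicit false


namespace Fermat.Agent.TwoAdic.Selmer

open Matrix

variable {k : Type*} [Field k] [CharP k 2] {X Y t g : Matrix (Fin 2) (Fin 2) k}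

local notation "M₂" => Matrix (Fin 2) (Fin 2) k

/-- A scalar matrix. -/
def IsScal (X : M₂) : Prop := ∃ z : k, X = z • (1 : M₂)

omit [CharP k 2] in
theorem isScal_zero : IsScal (0 : M₂) := ⟨0, (zero_smul _ _).symm⟩

theorem trace_two_smul_one (z : k) : (z • (1 : M₂)).trace = 0 := by
  rw [trace_smul, trace_one]
  simp [CharTwo.two_eq_zero]

theorem IsScal.trace_eq_zero (hX : IsScal X) : X.trace = 0 := by
  obtain ⟨z, rfl⟩ := hX
  exact trace_two_smul_one z

theorem neg_mat (X : M₂) : -X = X := by
  ext i j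
  simp [CharTwo.neg_eq]

theorem sub_mat (X Y : M₂) : X - Y = X + Y := by rw [sub_eq_add_neg, neg_mat]

theorem add_self_mat (X : M₂) : X + X = 0 := by
  ext i j
  simp [CharTwo.add_self_eq_zero]

theorem apply_eq_of_trace_eq_zero (hX : X.trace = 0) : X 1 1 = X 0 0 := by
  rw [trace_fin_two, CharTwo.add_eq_zero] at hX
  exact hX.symm

/-- Cayley–Hamilton, polarised. -/
theorem mul_add_mul_swap (hX : X.trace = 0) (ht : t.trace = 0) :
    X * t + t * X = (X * t).trace • (1 : M₂) := by
  have h1 := apply_eq_of_trace_eq_zero hX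
  have h2 := apply_eq_of_trace_eq_zero ht
  have h0 : (2 : k) = 0 := CharTwo.two_eq_zero
  ext i j
  fin_cases i <;> fin_cases j <;>
    simp [trace_fin_two, mul_apply, Fin.sum_univ_two, h1, h2] <;>
    first
      | linear_combination (X 0 0 * t 0 1 + X 0 1 * t 0 0) * h0
      | linear_combination (X 0 0 * t 1 0 + X 1 0 * t 0 0) * h0
      | linear_combination (0 : k) * h0

theorem commute_iff_trace_mul (hX : X.trace = 0) (ht : t.trace = 0) :
    Commute X t ↔ (X * t).trace = 0 := by
  have h := mul_add_mul_swap hX ht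
  constructor
  · intro hc
    rw [← hc.eq, add_self_mat] at h
    simpa using (congrFun (congrFun h 0) 0).symm
  · intro h0
    rw [h0, zero_smul, ← sub_mat, sub_eq_zero] at h
    exact h

theorem trace_mul_trace_zero (hX : X.trace = 0) (hY : Y.trace = 0) :
    (X * Y).trace = X 0 1 * Y 1 0 + X 1 0 * Y 0 1 := by
  have h1 := apply_eq_of_trace_eq_zero hX
  have h2 := apply_eq_of_trace_eq_zero hY
  have h0 : (2 : k) = 0 := CharTwo.two_eq_zero
  simp [trace_fin_two, mul_apply, Fin.sum_univ_two, h1, h2]
  linear_combination (X 0 0 * Y 0 0) * h0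

theorem sq_eq_one_of_trace_eq_zero (ht : t.trace = 0) (hd : t.det = 1) : t * t = 1 := by
  have h2 := apply_eq_of_trace_eq_zero ht
  have h0 : (2 : k) = 0 := CharTwo.two_eq_zero
  rw [det_fin_two, h2] at hd
  ext i j
  fin_cases i <;> fin_cases j <;> simp [mul_apply, Fin.sum_univ_two, h2] <;>
    first
      | linear_combination hd + (t 0 1 * t 1 0) * h0
      | linear_combination (t 0 0 * t 0 1) * h0
      | linear_combination (t 0 0 * t 1 0) * h0

theorem offdiag_ne_zero (ht : t.trace = 0) (hd : t.det = 1) (h1 : t ≠ 1) :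
    t 0 1 ≠ 0 ∨ t 1 0 ≠ 0 := by
  by_contra! h
  have h2 := apply_eq_of_trace_eq_zero ht
  have h0 : (2 : k) = 0 := CharTwo.two_eq_zero
  rw [det_fin_two, h2, h.1, h.2] at hd
  have e : t 0 0 = 1 := by
    have : (t 0 0 - 1) ^ 2 = 0 := by linear_combination hd + (1 - t 0 0) * h0
    exact sub_eq_zero.mp (pow_eq_zero_iff two_ne_zero |>.mp this)
  refine h1 (Matrix.ext fun i j => ?_)
  fin_cases i <;> fin_cases j <;> simp [h.1, h.2, h2, e]

/-- Two trace zero matrices commuting with an involution are orthogonal. -/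
theorem trace_mul_eq_zero (ht : t.trace = 0) (hd : t.det = 1) (h1 : t ≠ 1) (hX : X.trace = 0)
    (hY : Y.trace = 0) (hXt : (X * t).trace = 0) (hYt : (Y * t).trace = 0) :
    (X * Y).trace = 0 := by
  rw [trace_mul_trace_zero hX ht] at hXt
  rw [trace_mul_trace_zero hY ht] at hYt
  rw [trace_mul_trace_zero hX hY]
  have h0 : (2 : k) = 0 := CharTwo.two_eq_zero
  rcases offdiag_ne_zero ht hd h1 with h | h
  · refine (mul_eq_zero.mp ?_).resolve_left h
    linear_combination Y 0 1 * hXt + X 0 1 * hYt - (t 1 0 * X 0 1 * Y 0 1) * h0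
  · refine (mul_eq_zero.mp ?_).resolve_left h
    linear_combination Y 1 0 * hXt + X 1 0 * hYt - (t 0 1 * X 1 0 * Y 1 0) * h0

/-- A trace zero matrix commuting with a matrix of non-zero trace is scalar. -/
theorem isScal_of_commute (hX : X.trace = 0) (hg : g.trace ≠ 0) (hc : Commute X g) :
    IsScal X := by
  have h1 := apply_eq_of_trace_eq_zero hX
  have h0 : (2 : k) = 0 := CharTwo.two_eq_zero
  rw [trace_fin_two] at hg
  have e1 := congrFun (congrFun hc.eq 0) 1
  have e2 := congrFun (congrFun hc.eq 1) 0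
  simp only [mul_apply, Fin.sum_univ_two, h1] at e1 e2
  have b : X 0 1 = 0 := (mul_eq_zero.mp (show (g 0 0 + g 1 1) * X 0 1 = 0 by
    linear_combination e1 + (g 0 0 * X 0 1) * h0)).resolve_left hg
  have c : X 1 0 = 0 := (mul_eq_zero.mp (show (g 0 0 + g 1 1) * X 1 0 = 0 by
    linear_combination e2 + (g 1 1 * X 1 0) * h0)).resolve_left hg
  refine ⟨X 0 0, Matrix.ext fun i j => ?_⟩
  fin_cases i <;> fin_cases j <;> simp [b, c, h1]

theorem trace_eq_one_of_cube (h3 : g * g * g = 1) (hd : g.det = 1) (h1 : g ≠ 1) : g.trace = 1 := by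
  have ht : g.trace ≠ 0 := fun h => h1 (by
    rw [sq_eq_one_of_trace_eq_zero h hd, one_mul] at h3
    exact h3)
  have h0 : (2 : k) = 0 := CharTwo.two_eq_zero
  have hd' : g 0 0 * g 1 1 - g 0 1 * g 1 0 = 1 := by rw [← det_fin_two, hd]
  have e00 := congrFun (congrFun h3 0) 0
  have e01 := congrFun (congrFun h3 0) 1
  have e10 := congrFun (congrFun h3 1) 0
  have e11 := congrFun (congrFun h3 1) 1
  simp only [mul_apply, Fin.sum_univ_two, one_apply_eq, one_apply_ne (show (0 : Fin 2) ≠ 1 by decide),
    one_apply_ne (show (1 : Fin 2) ≠ 0 by decide)] at e00 e01 e10 e11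
  rw [trace_fin_two] at ht ⊢
  set τ := g 0 0 + g 1 1 with hτ
  have q01 : (τ ^ 2 - 1) * g 0 1 = 0 := by
    rw [hτ]; linear_combination e01 + g 0 1 * hd'
  have q10 : (τ ^ 2 - 1) * g 1 0 = 0 := by
    rw [hτ]; linear_combination e10 + g 1 0 * hd'
  have qd : (τ ^ 2 - 1) * (g 0 0 - g 1 1) = 0 := by
    rw [hτ]; linear_combination e00 - e11 + (g 0 0 - g 1 1) * hd'
  by_contra hne
  have hq : τ ^ 2 - 1 ≠ 0 := fun h => hne (by
    have : (τ - 1) ^ 2 = 0 := by linear_combination h + (1 - τ) * h0
    exact sub_eq_zero.mp (pow_eq_zero_iff two_ne_zero |>.mp this))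
  have a := (mul_eq_zero.mp q01).resolve_left hq
  have b := (mul_eq_zero.mp q10).resolve_left hq
  have c := sub_eq_zero.mp ((mul_eq_zero.mp qd).resolve_left hq)
  exact ht (by rw [hτ, c]; exact CharTwo.add_self_eq_zero _)

section Average

/-- The sum over the conjugates by the powers of `g`. -/
def avg (g X : M₂) : M₂ := X + g * X * (g * g) + g * g * X * g

omit [CharP k 2] in
theorem avg_add (g X Y : M₂) : avg g (X + Y) = avg g X + avg g Y := by
  simp only [avg, mul_add, add_mul]
  abel

omit [CharP k 2] in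
theorem avg_smul (g : M₂) (a : k) (X : M₂) : avg g (a • X) = a • avg g X := by
  simp only [avg, Matrix.mul_smul, Matrix.smul_mul, smul_add]

theorem avg_of_isScal (h3 : g * g * g = 1) (hX : IsScal X) : avg g X = X := by
  obtain ⟨z, rfl⟩ := hX
  have h3' : g * (g * g) = 1 := by rw [← mul_assoc, h3]
  rw [avg_smul, avg, mul_one, h3', mul_one, h3, add_self_mat, zero_add]

theorem trace_avg (h3 : g * g * g = 1) (X : M₂) : (avg g X).trace = X.trace := by
  have h3' : g * (g * g) = 1 := by rw [← mul_assoc, h3]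
  rw [avg, trace_add, trace_add, trace_mul_cycle g X (g * g), h3, one_mul,
    trace_mul_cycle (g * g) X g, h3', one_mul, add_assoc, CharTwo.add_self_eq_zero, add_zero]

omit [CharP k 2] in
theorem commute_avg (h3 : g * g * g = 1) (X : M₂) : Commute (avg g X) g := by
  have h3' : g * (g * g) = 1 := by rw [← mul_assoc, h3]
  show avg g X * g = g * avg g X
  have e1 : g * X * (g * g) * g = g * X := by rw [mul_assoc _ (g * g) g, h3, mul_one]
  have e2 : g * (g * g * X * g) = X * g := by rw [← mul_assoc, ← mul_assoc, h3', one_mul]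
  have e3 : g * g * X * g * g = g * g * X * (g * g) := by rw [mul_assoc _ g g]
  simp only [avg, add_mul, mul_add, e1, e2, e3, ← mul_assoc g g X, ← mul_assoc g (g * X) (g * g)]
  abel

theorem isScal_avg (h3 : g * g * g = 1) (hg : g.trace ≠ 0) (hX : X.trace = 0) :
    IsScal (avg g X) :=
  isScal_of_commute (by rw [trace_avg h3, hX]) hg (commute_avg h3 X)

omit [CharP k 2] in
/-- Averaging commutes with conjugations normalising the cyclic group of `g`. -/
theorem avg_conj {f f' : M₂} (hff : f * f' = 1) (hff' : f' * f = 1) (h3 : g * g * g = 1)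
    (hn : f * g * f' = g ∨ f * g * f' = g * g) (X : M₂) :
    avg g (f * X * f') = f * avg g X * f' := by
  have conj : ∀ A B : M₂, f * (A * B) * f' = (f * A * f') * (f * B * f') := fun A B => by
    rw [show (f * A * f') * (f * B * f') = f * A * (f' * f) * B * f' by simp only [mul_assoc],
      hff', mul_one, mul_assoc f A B]
  have h4 : g * g * (g * g) = g := by rw [← mul_assoc, h3, one_mul]
  simp only [avg, mul_add, add_mul, conj]
  rcases hn with hn | hn
  · rw [hn]
  · rw [hn, h4]
    abel

end Average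

end Fermat.Agent.TwoAdic.Selmer
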