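import Mathlib
import Fermat.Agent.TameInertia.Presentation
import Fermat.Agent.EllLocal.TameChar
import Fermat.Prelude.Def_GaloisRep_ComplexConjugation

/-!
# Galois action on square roots

Elements of inertia and Frobenius elements acting on square roots of integers.
-/

set_option autoImplicit false

noncomputable section

namespace Fermat.Agent.TwoAdic.Selmer

open Fermat.Agent.MultRed Fermat.Agent.TameInertia

local notation "Ω" => AlgebraicClosure ℚ
local notation "GQ" => (AlgebraicClosure ℚ) ≃ₐ[ℚ] (AlgebraicClosure ℚ)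

variable {A : ValuationSubring Ω} {q : ℕ} {s : Ω} {a : ℤ}

theorem apply_sqrt (hs : s ^ 2 = (a : Ω)) (σ : GQ) : σ s = s ∨ σ s = -s := by
  refine sq_eq_sq_iff_eq_or_eq_neg.1 ?_
  rw [← map_pow, hs, map_intCast]

theorem valuation_sqrt (hq : q.Prime) (hA : A.LiesOverPrime q) (hs : s ^ 2 = (a : Ω))
    (ha : ¬ (q : ℤ) ∣ a) : A.valuation s = 1 :=
  (pow_left_inj₀ zero_le zero_le two_ne_zero).1
    (by rw [← map_pow, hs, vint_eq_one hq hA ha, one_pow])

theorem two_mul_notMem_nonunits (hq : q.Prime) (hA : A.LiesOverPrime q) (hq2 : q ≠ 2)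
    (hs : s ^ 2 = (a : Ω)) (ha : ¬ (q : ℤ) ∣ a) : 2 * s ∉ A.nonunits := by
  rw [ValuationSubring.mem_nonunits_iff, map_mul, valuation_sqrt hq hA hs ha, mul_one,
    show (2 : Ω) = ((2 : ℕ) : Ω) by norm_num,
    vnat_eq_one hq hA fun h => hq2 ((Nat.prime_dvd_prime_iff_eq hq Nat.prime_two).1 h)]
  exact lt_irrefl _

/-- Inertia fixes the square roots of units. -/
theorem inertia_sqrt (hq : q.Prime) (hA : A.LiesOverPrime q) (hq2 : q ≠ 2)
    (hs : s ^ 2 = (a : Ω)) (ha : ¬ (q : ℤ) ∣ a) {σ : GQ} (hσ : σ ∈ A.inertiaSubgroupIn ℚ) :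
    σ s = s := by
  refine (apply_sqrt hs σ).resolve_right fun h => ?_
  have hmem : s ∈ A := (A.valuation_le_one_iff s).1 (valuation_sqrt hq hA hs ha).le
  have h1 := ((Fermat.Agent.FreyReducible.mem_inertiaSubgroupIn_iff A σ).1 hσ).2 s hmem
  rw [h, show -s - s = -(2 * s) by ring] at h1
  refine two_mul_notMem_nonunits hq hA hq2 hs ha ?_
  simpa [ValuationSubring.mem_nonunits_iff, Valuation.map_neg] using h1

/-- Frobenius acts on square roots through the Legendre symbol. -/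
theorem frobenius_sqrt [hq : Fact q.Prime] (hA : A.LiesOverPrime q) (hq2 : q ≠ 2)
    (hs : s ^ 2 = (a : Ω)) (ha : ¬ (q : ℤ) ∣ a) {φ : GQ} (hφ : A.IsFrobeniusAt φ q) :
    φ s = (legendreSym q a : Ω) * s := by
  have hmem : s ∈ A := (A.valuation_le_one_iff s).1 (valuation_sqrt hq.out hA hs ha).le
  have h1 := frobenius_sub_pow_mem hφ hmem
  have hsv := valuation_sqrt hq.out hA hs ha
  have hodd : q = 2 * (q / 2) + 1 :=
    (Nat.two_mul_div_two_add_one_of_odd (hq.out.odd_of_ne_two hq2)).symm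
  have h2 : s ^ q - (legendreSym q a : Ω) * s ∈ A.nonunits := by
    rw [ValuationSubring.mem_nonunits_iff]
    rw [show s ^ q = s ^ (2 * (q / 2) + 1) from congrArg (s ^ ·) hodd, pow_succ, pow_mul, hs,
      ← sub_mul, map_mul, hsv, mul_one]
    rw [← Int.cast_pow, ← Int.cast_sub]
    refine vint_lt_one hA ?_
    rw [← ZMod.intCast_zmod_eq_zero_iff_dvd, Int.cast_sub, Int.cast_pow, legendreSym.eq_pow,
      sub_self]
  have h3 : φ s - (legendreSym q a : Ω) * s ∈ A.nonunits := by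
    rw [← sub_add_sub_cancel (φ s) (s ^ q)]
    exact A.nonunits.add_mem h1 h2
  have ha' : (a : ZMod q) ≠ 0 := by
    rwa [Ne, ZMod.intCast_zmod_eq_zero_iff_dvd]
  rcases apply_sqrt hs φ with h | h <;> rcases legendreSym.eq_one_or_neg_one q ha' with hl | hl <;>
    rw [hl] at h3 ⊢ <;> rw [h] at h3 ⊢ <;> push_cast at h3 ⊢ <;>
    first
      | exact (one_mul s).symm
      | exact (neg_one_mul s).symm
      | (exfalso; refine two_mul_notMem_nonunits hq.out hA hq2 hs ha ?_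
         rw [ValuationSubring.mem_nonunits_iff] at h3 ⊢
         first
           | (rw [show s - -1 * s = 2 * s by ring] at h3; exact h3)
           | (rw [show -s - 1 * s = -(2 * s) by ring, Valuation.map_neg] at h3; exact h3))

/-- A tame generator at `q` moves the square roots of `q` times a unit. -/
theorem tameGenerator_sqrt (hq : q.Prime) (hA : A.LiesOverPrime q) (hq2 : q ≠ 2) {m : ℤ}
    (hm : ¬ (q : ℤ) ∣ m) (hs : s ^ 2 = (q : Ω) * (m : Ω)) {σ : GQ}
    (hσ : IsTameGenerator A 2 q σ) : σ s = -s := by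
  obtain ⟨y, hy⟩ := IsAlgClosed.exists_pow_nat_eq (q : Ω) two_pos
  have hy0 : y ≠ 0 := fun h => by
    rw [h, zero_pow two_ne_zero] at hy
    exact Nat.cast_ne_zero.2 hq.ne_zero hy.symm
  have hz : (s / y) ^ 2 = (m : Ω) := by
    rw [div_pow, hs, hy, mul_div_cancel_left₀ _ (Nat.cast_ne_zero.2 hq.ne_zero)]
  have h1 := inertia_sqrt hq hA hq2 hz hm hσ.1
  have h2 : σ y = -y :=
    (apply_sqrt (a := (q : ℤ)) (by rw [hy]; norm_num) σ).resolve_left (hσ.2 y hy)
  rw [map_div₀, h2, div_neg] at h1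
  calc σ s = -((-(σ s / y)) * y) := by rw [neg_mul, neg_neg, div_mul_cancel₀ _ hy0]
    _ = -s := by rw [h1, div_mul_cancel₀ _ hy0]

theorem complexConjugation_sqrt {D : ℕ} (hD : 0 < D) (hs : s ^ 2 = -(D : Ω)) :
    complexConjugation s ≠ s := by
  intro h
  have h1 : (starRingEnd ℂ) (complexEmbedding s) = complexEmbedding s := by
    rw [← complexEmbedding_complexConjugation, h]
  obtain ⟨r, hr⟩ := Complex.conj_eq_iff_real.1 h1
  have h2 := congrArg complexEmbedding hs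
  rw [map_pow, hr, map_neg, map_natCast] at h2
  have h3 : r ^ 2 = -(D : ℝ) := by exact_mod_cast h2
  have h4 : (0 : ℝ) < D := by exact_mod_cast hD
  nlinarith [sq_nonneg r]

/-- Frobenius at `2` moves `√(-D)` when `D ≡ 3 (mod 8)`. -/
theorem frobenius_two_sqrt {D : ℕ} (hD : D % 8 = 3) (hA : A.LiesOverPrime 2)
    (hs : s ^ 2 = -(D : Ω)) {φ : GQ} (hφ : A.IsFrobeniusAt φ 2) : φ s ≠ s := by
  intro h
  set w : Ω := (1 + s) / 2 with hw
  obtain ⟨c, hc, hc2⟩ : ∃ c : ℕ, D + 1 = 4 * c ∧ c % 2 = 1 :=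
    ⟨(D + 1) / 4, by omega, by omega⟩
  have hcΩ : (D : Ω) + 1 = 4 * (c : Ω) := by exact_mod_cast congrArg (Nat.cast : ℕ → Ω) hc
  have hw2 : w ^ 2 - w + (c : Ω) = 0 := by
    rw [hw]
    linear_combination (1 / 4 : Ω) * hs - (1 / 4 : Ω) * hcΩ
  have hint : IsIntegral ℤ w := by
    refine ⟨Polynomial.X ^ 2 + Polynomial.C (-1) * Polynomial.X + Polynomial.C (c : ℤ), ?_, ?_⟩
    · monicity!
    · rw [← Polynomial.aeval_def]
      simp
      linear_combination hw2
  have h1 := frobenius_sub_pow_mem hφ (Fermat.Agent.FreyReducible.mem_of_isIntegral_int A hint)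
  have h2 : φ w = w := by rw [hw, map_div₀, map_add, map_one, h, map_ofNat]
  rw [h2, show w - w ^ 2 = (c : Ω) by linear_combination -hw2, ValuationSubring.mem_nonunits_iff,
    vnat_eq_one Nat.prime_two hA (by omega)] at h1
  exact lt_irrefl _ h1

/-- An element fixing the `q`-th roots of unity fixes `√q` for `q ≡ 1 (mod 4)`. -/
theorem fix_sqrt_of_fix_roots [hq : Fact q.Prime] (hq4 : q % 4 = 1) (hs : s ^ 2 = (q : Ω))
    {σ : GQ} (hσ : ∀ ζ : Ω, ζ ^ q = 1 → σ ζ = ζ) : σ s = s := by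
  have : NeZero (q : Ω) := ⟨Nat.cast_ne_zero.2 hq.out.ne_zero⟩
  have hq2 : ringChar (ZMod q) ≠ 2 := by
    rw [ZMod.ringChar_zmod_n]; omega
  obtain ⟨ζ, hζ⟩ := HasEnoughRootsOfUnity.exists_primitiveRoot Ω q
  set χ : MulChar (ZMod q) Ω := (quadraticChar (ZMod q)).ringHomComp (Int.castRingHom Ω)
  set ψ : AddChar (ZMod q) Ω := AddChar.zmodChar q hζ.pow_eq_one
  have hg := gaussSum_sq (χ := χ) ((MulChar.ringHomComp_ne_one_iff (RingHom.injective_int _)).2
    (quadraticChar_ne_one hq2)) ((quadraticChar_isQuadratic (ZMod q)).comp _)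
    (ψ := ψ) (AddChar.zmodChar_primitive_of_primitive_root q hζ)
  rw [MulChar.ringHomComp_apply, quadraticChar_neg_one hq2, ZMod.card,
    ZMod.χ₄_nat_one_mod_four hq4, map_one, one_mul, ← hs] at hg
  have hfix : σ (gaussSum χ ψ) = gaussSum χ ψ := by
    rw [gaussSum, map_sum]
    refine Finset.sum_congr rfl fun x _ => ?_
    rw [map_mul, MulChar.ringHomComp_apply, Int.coe_castRingHom, map_intCast]
    congr 1
    exact hσ _ (by rw [AddChar.zmodChar_apply, ← pow_mul, mul_comm, pow_mul, hζ.pow_eq_one, one_pow])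
  rcases sq_eq_sq_iff_eq_or_eq_neg.1 hg with h | h
  · rwa [h] at hfix
  · rw [h, map_neg, neg_inj] at hfix
    exact hfix

/-- Inertia outside `q` fixes `√q` for `q ≡ 1 (mod 4)`. -/
theorem inertia_sqrt_prime [hq : Fact q.Prime] (hq4 : q % 4 = 1) (hs : s ^ 2 = (q : Ω)) {ℓ : ℕ}
    (hℓ : ℓ.Prime) (hA : A.LiesOverPrime ℓ) (hne : ℓ ≠ q) {σ : GQ}
    (hσ : σ ∈ A.inertiaSubgroupIn ℚ) : σ s = s :=
  fix_sqrt_of_fix_roots hq4 hs fun ζ hζ =>
    Fermat.Agent.EllLocal.inertia_rootOfUnity hℓ hA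
      (fun h => hne ((Nat.prime_dvd_prime_iff_eq hℓ hq.out).1 h)) hσ hζ

end Fermat.Agent.TwoAdic.Selmer
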