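import Fermat.Agent.TwoAdic.Blueprint.Local
import Fermat.Agent.TwoAdic.Selmer.Mat
import Fermat.Agent.TwoAdic.Selmer.Sqrt

/-!
# The dihedral residual representation of order six

The residual representation with image of order six and the images of its decomposition and
inertia groups.
-/

set_option autoImplicit false

noncomputable section

namespace Fermat.Agent.TwoAdic.Selmer

open GaloisRep Fermat.Agent.DefRing Fermat.Agent.TameInertia

local notation "Ω" => AlgebraicClosure ℚ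

variable {k : Type} [Field k] [CharP k 2] {D : ℕ} {r : MRep k}

/-- The image is a transposition. -/
def IsTransp (r : MRep k) (σ : GQ) : Prop := (r σ).trace = 0 ∧ r σ ≠ 1

/-- A square root of `-D`. -/
def rootNeg (D : ℕ) : Ω := (IsAlgClosed.exists_pow_nat_eq (-(D : Ω)) two_pos).choose

theorem rootNeg_sq (D : ℕ) : rootNeg D ^ 2 = -(D : Ω) :=
  (IsAlgClosed.exists_pow_nat_eq (-(D : Ω)) two_pos).choose_spec

/-- A trivial level for a continuous residual representation. -/
theorem exists_level (hc : IsCont r) :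
    ∃ F : IntermediateField ℚ Ω, FiniteDimensional ℚ F ∧ ∀ σ ∈ F.fixingSubgroup, r σ = 1 := by
  obtain ⟨F, hF, h⟩ := hc 1
  refine ⟨F, hF, fun σ hσ => Matrix.ext fun i j => ?_⟩
  have := h σ ((IntermediateField.mem_fixingSubgroup_iff F σ).mp hσ) i j
  rw [pow_one, IsLocalRing.maximalIdeal_eq_bot, Ideal.mem_bot, Matrix.sub_apply, sub_eq_zero] at this
  exact this

theorem r_mul_inv (r : MRep k) (σ : GQ) : r σ * r σ⁻¹ = 1 := by
  rw [← map_mul, mul_inv_cancel, map_one]

theorem r_inv_mul (r : MRep k) (σ : GQ) : r σ⁻¹ * r σ = 1 := by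
  rw [← map_mul, inv_mul_cancel, map_one]

section Structure

variable (hr : IsDihedralResidual D r)

include hr

theorem fix_iff (σ : GQ) : σ (rootNeg D) = rootNeg D ↔ ((r σ).trace ≠ 0 ∨ r σ = 1) := by
  rw [← hr.fixing σ]
  refine ⟨fun h x hx => ?_, fun h => h _ (rootNeg_sq D)⟩
  rcases sq_eq_sq_iff_eq_or_eq_neg.1 (hx.trans (rootNeg_sq D).symm) with rfl | rfl
  · exact h
  · rw [map_neg, h]

theorem transp_iff (σ : GQ) : IsTransp r σ ↔ σ (rootNeg D) ≠ rootNeg D := by
  rw [Ne, fix_iff hr, IsTransp]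
  tauto

theorem transp_mul_iff (σ τ : GQ) :
    IsTransp r (σ * τ) ↔ ¬ (IsTransp r σ ↔ IsTransp r τ) := by
  rw [transp_iff hr, transp_iff hr, transp_iff hr, AlgEquiv.mul_apply]
  have hs : rootNeg D ^ 2 = ((-(D : ℤ) : ℤ) : Ω) := by rw [rootNeg_sq]; push_cast; rfl
  rcases apply_sqrt hs σ with h1 | h1 <;> rcases apply_sqrt hs τ with h2 | h2 <;>
    rw [h2] <;> simp [map_neg, h1]

theorem exists_transp (hD : 0 < D) : ∃ σ, IsTransp r σ :=
  ⟨complexConjugation, (transp_iff hr _).mpr (complexConjugation_sqrt hD (rootNeg_sq D))⟩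

theorem transp_sq {σ : GQ} (h : IsTransp r σ) : r σ * r σ = 1 :=
  sq_eq_one_of_trace_eq_zero h.1 (hr.det_one σ)

theorem cube_eq_one (hD : 0 < D) {σ : GQ} (h : ¬ IsTransp r σ) : r σ * r σ * r σ = 1 := by
  obtain ⟨t, ht⟩ := exists_transp hr hD
  let H : Subgroup GQ :=
    { carrier := {τ | ¬ IsTransp r τ}
      one_mem' := fun h1 => h1.2 (map_one r)
      mul_mem' := fun {a b} ha hb => by
        simp only [Set.mem_ofPred_eq, transp_mul_iff hr] at *
        tauto
      inv_mem' := fun {a} ha => by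
        simp only [Set.mem_ofPred_eq] at *
        intro h1
        have := (transp_mul_iff hr a a⁻¹).mpr (by tauto)
        rw [mul_inv_cancel] at this
        exact this.2 (map_one r) }
  set G : GQ →* (Matrix (Fin 2) (Fin 2) k)ˣ := r.toHomUnits with hG
  have hval : ∀ τ, ((G τ : (Matrix (Fin 2) (Fin 2) k)ˣ) : Matrix (Fin 2) (Fin 2) k) = r τ :=
    fun τ => rfl
  have h6 : Nat.card G.range = 6 := by
    rw [← hr.card_range, ← Nat.card_coe_set_eq]
    exact Nat.card_congr (Equiv.ofBijective (fun u : G.range => (⟨(u.1 : _), by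
        obtain ⟨τ, hτ⟩ := u.2
        exact ⟨τ, by rw [← hval, hτ]⟩⟩ : Set.range r))
      ⟨fun a b h => Subtype.ext (Units.ext (congrArg Subtype.val h)), fun ⟨_, τ, rfl⟩ =>
        ⟨⟨G τ, τ, rfl⟩, rfl⟩⟩)
  set H' : Subgroup G.range := (H.map G).subgroupOf G.range
  have hmem : ∀ τ, G τ ∈ H.map G ↔ ¬ IsTransp r τ := by
    intro τ
    refine ⟨fun ⟨τ', hτ', he⟩ => ?_, fun h => ⟨τ, h, rfl⟩⟩
    have he' : r τ' = r τ := by rw [← hval, he, hval]
    change ¬ IsTransp r τ' at hτ'
    rwa [IsTransp, he'] at hτ'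
  have hidx : H'.index = 2 := by
    rw [Subgroup.index_eq_two_iff]
    refine ⟨⟨G t, t, rfl⟩, ?_⟩
    rintro ⟨_, τ, rfl⟩
    show Xor (G τ * G t ∈ H.map G) (G τ ∈ H.map G)
    rw [← map_mul, hmem, hmem, transp_mul_iff hr, Xor]
    tauto
  have h3 : Nat.card H' = 3 := by
    have := H'.index_mul_card
    rw [hidx, h6] at this
    omega
  have hu : (⟨G σ, σ, rfl⟩ : G.range) ∈ H' := by
    show G σ ∈ H.map G
    exact (hmem σ).mpr h
  have h := pow_card_eq_one' (x := (⟨⟨G σ, σ, rfl⟩, hu⟩ : H'))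
  rw [h3] at h
  have h' := congrArg (fun x : H' => (((x : G.range) : (Matrix (Fin 2) (Fin 2) k)ˣ) :
    Matrix (Fin 2) (Fin 2) k)) h
  simp only [SubmonoidClass.coe_pow, Units.val_pow_eq_pow_val, OneMemClass.coe_one,
    Units.val_one, hval] at h'
  rw [← h', pow_succ, pow_two]

theorem trace_eq_one (hD : 0 < D) {σ : GQ} (h : ¬ IsTransp r σ) (h1 : r σ ≠ 1) :
    (r σ).trace = 1 :=
  trace_eq_one_of_cube (cube_eq_one hr hD h) (hr.det_one σ) h1

theorem eq_one_of_sq (hD : 0 < D) {σ : GQ} (h : ¬ IsTransp r σ) (h2 : r σ * r σ = 1) :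
    r σ = 1 := by
  have := cube_eq_one hr hD h
  rwa [h2, one_mul] at this

/-- Commuting transpositions are equal. -/
theorem transp_eq_of_commute (hD : 0 < D) {σ τ : GQ} (hσ : IsTransp r σ) (hτ : IsTransp r τ)
    (hc : Commute (r σ) (r τ)) : r σ = r τ := by
  have h : r (σ * τ) = 1 := by
    refine eq_one_of_sq hr hD (by rw [transp_mul_iff hr]; tauto) ?_
    rw [map_mul, show r σ * r τ * (r σ * r τ) = r σ * (r τ * r σ) * r τ by simp only [mul_assoc],
      ← hc.eq, ← mul_assoc, transp_sq hr hσ, one_mul, transp_sq hr hτ]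
  rw [map_mul] at h
  calc r σ = r σ * (r τ * r τ) := by rw [transp_sq hr hτ, mul_one]
    _ = r τ := by rw [← mul_assoc, h, one_mul]

theorem eq_one_or_eq_of_commute (hD : 0 < D) {σ τ : GQ} (hτ : IsTransp r τ)
    (hc : Commute (r σ) (r τ)) : r σ = 1 ∨ r σ = r τ := by
  by_cases hσ : IsTransp r σ
  · exact Or.inr (transp_eq_of_commute hr hD hσ hτ hc)
  · left
    have h1 : IsTransp r (σ * τ) := by rw [transp_mul_iff hr]; tauto
    have h2 := transp_eq_of_commute hr hD h1 hτ (by
      rw [map_mul]; exact hc.mul_left (Commute.refl _))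
    rw [map_mul] at h2
    calc r σ = r σ * r τ * r τ := by rw [mul_assoc, transp_sq hr hτ, mul_one]
      _ = 1 := by rw [h2, transp_sq hr hτ]

/-- An element with image of order three. -/
theorem exists_order_three (hD : 0 < D) : ∃ g, ¬ IsTransp r g ∧ r g ≠ 1 := by
  obtain ⟨t, ht⟩ := exists_transp hr hD
  by_contra! hall
  have hsub : Set.range r ⊆ {1, r t} := by
    rintro _ ⟨σ, rfl⟩
    by_cases hσ : IsTransp r σ
    · have h := hall (σ * t) (by rw [transp_mul_iff hr]; tauto)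
      rw [map_mul] at h
      refine Or.inr ?_
      calc r σ = r σ * r t * r t := by rw [mul_assoc, transp_sq hr ht, mul_one]
        _ = r t := by rw [h, one_mul]
    · exact Or.inl (hall σ hσ)
  have := Set.ncard_le_ncard hsub (Set.toFinite _)
  rw [hr.card_range] at this
  have := this.trans (Set.ncard_insert_le _ _)
  rw [Set.ncard_singleton] at this
  omega

theorem exists_noncommute (hD : 0 < D) : ∃ σ τ, IsTransp r σ ∧ IsTransp r τ ∧
    ¬ Commute (r σ) (r τ) := by
  obtain ⟨t, ht⟩ := exists_transp hr hD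
  obtain ⟨g, hg, hg1⟩ := exists_order_three hr hD
  have h1 : IsTransp r (g * t) := by rw [transp_mul_iff hr]; tauto
  refine ⟨g * t, t, h1, ht, fun hc => hg1 ?_⟩
  have h2 := transp_eq_of_commute hr hD h1 ht hc
  rw [map_mul] at h2
  calc r g = r g * r t * r t := by rw [mul_assoc, transp_sq hr ht, mul_one]
    _ = 1 := by rw [h2, transp_sq hr ht]

/-- The conjugates of an element of order three. -/
theorem conj_order_three (hD : 0 < D) {g : GQ} (hg : ¬ IsTransp r g) (hg1 : r g ≠ 1) (σ : GQ) :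
    r σ * r g * r σ⁻¹ = r g ∨ r σ * r g * r σ⁻¹ = r g * r g := by
  have hc3 := cube_eq_one hr hD hg
  have key : ∀ u, ¬ IsTransp r u → r u = 1 ∨ r u = r g ∨ r u = r g * r g := by
    intro u hu
    by_contra! hne
    obtain ⟨t, ht⟩ := exists_transp hr hD
    let f : Fin 4 → Matrix (Fin 2) (Fin 2) k := ![1, r g, r g * r g, r u]
    have hgg1 : r g * r g ≠ 1 := fun h => hg1 (eq_one_of_sq hr hD hg h)
    have hgg : r g * r g ≠ r g := fun h => hgg1 (by
      calc r g * r g = r g * r g * r g := by conv_rhs => rw [h]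
        _ = 1 := hc3)
    have hfinj : Function.Injective f := by
      intro i j hij
      fin_cases i <;> fin_cases j <;> simp [f] at hij ⊢ <;>
        first
          | exact hg1 hij | exact hg1 hij.symm | exact hgg1 hij | exact hgg1 hij.symm
          | exact hgg hij | exact hgg hij.symm
          | exact hne.1 hij | exact hne.1 hij.symm | exact hne.2.1 hij | exact hne.2.1 hij.symm
          | exact hne.2.2 hij | exact hne.2.2 hij.symm
    have hf : ∀ i, ∃ v, ¬ IsTransp r v ∧ r v = f i := by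
      intro i
      fin_cases i
      · exact ⟨1, fun h => h.2 (map_one r), map_one r⟩
      · exact ⟨g, hg, rfl⟩
      · exact ⟨g * g, by rw [transp_mul_iff hr]; tauto, map_mul r g g⟩
      · exact ⟨u, hu, rfl⟩
    choose v hv hvf using hf
    let F : Fin 4 × Fin 2 → Set.range r := fun p =>
      ⟨r (v p.1 * t ^ (p.2 : ℕ)), _, rfl⟩
    have hF : Function.Injective F := by
      rintro ⟨i, a⟩ ⟨j, b⟩ h
      have h' : r (v i * t ^ (a : ℕ)) = r (v j * t ^ (b : ℕ)) := congrArg Subtype.val h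
      have hab : a = b := by
        by_contra hab
        have hh : IsTransp r (v i * t ^ (a : ℕ)) ↔ IsTransp r (v j * t ^ (b : ℕ)) := by
          rw [IsTransp, IsTransp, h']
        have hi := hv i
        have hj := hv j
        fin_cases a <;> fin_cases b <;> simp_all [transp_mul_iff hr]
      subst hab
      rw [map_mul, map_mul] at h'
      have h2 := congrArg (· * r (t ^ (a : ℕ))⁻¹) h'
      simp only [mul_assoc, r_mul_inv, mul_one, hvf] at h2
      rw [hfinj h2]
    have : Finite (Set.range r) := Nat.finite_of_card_ne_zero (by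
      rw [Nat.card_coe_set_eq, hr.card_range]; norm_num)
    have h8 := Nat.card_le_card_of_injective F hF
    rw [Nat.card_prod, Nat.card_fin, Nat.card_fin, Nat.card_coe_set_eq, hr.card_range] at h8
    omega
  have hu : ¬ IsTransp r (σ * g * σ⁻¹) := by
    rw [transp_iff hr, not_not] at hg ⊢
    have hs : rootNeg D ^ 2 = ((-(D : ℤ) : ℤ) : Ω) := by rw [rootNeg_sq]; push_cast; rfl
    rw [AlgEquiv.mul_apply, AlgEquiv.mul_apply]
    have h2 : σ (σ⁻¹ (rootNeg D)) = rootNeg D := by
      rw [← AlgEquiv.mul_apply, mul_inv_cancel, AlgEquiv.one_apply]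
    rcases apply_sqrt hs σ⁻¹ with h | h
    · rw [h] at h2 ⊢
      rw [hg, h2]
    · rw [h] at h2 ⊢
      rw [map_neg g, hg, h2]
  rcases key _ hu with h | h | h
  · exfalso
    refine hg1 ?_
    rw [map_mul, map_mul] at h
    have := congrArg (fun Z => r σ⁻¹ * Z * r σ) h
    simpa [mul_assoc, r_inv_mul, ← mul_assoc (r σ⁻¹) (r σ)] using this
  · exact Or.inl (by rw [← map_mul, ← map_mul, h])
  · exact Or.inr (by rw [← map_mul, ← map_mul, h])

end Structure

section Local

variable (hr : IsDihedralResidual D r) {A : ValuationSubring Ω}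

include hr

/-- At `ℓ ∣ D` inertia acts through one transposition. -/
theorem inertia_image (hD : Squarefree D) (hodd : Odd D) {ℓ : ℕ} (hℓ : ℓ.Prime) (hℓD : ℓ ∣ D)
    (hA : A.LiesOverPrime ℓ) {τ₀ : GQ} (hτ₀ : IsTameGenerator A 2 ℓ τ₀) :
    IsTransp r τ₀ ∧ (∀ τ ∈ A.inertiaSubgroupIn ℚ, r τ = 1 ∨ r τ = r τ₀) ∧
      ∀ σ ∈ A.decompositionSubgroup ℚ, r σ = 1 ∨ r σ = r τ₀ := by
  have hD0 : 0 < D := hD.ne_zero |> Nat.pos_of_ne_zero
  obtain ⟨e, he⟩ := hℓD
  have hℓ2 : ℓ ≠ 2 := fun h => by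
    rw [he, h] at hodd
    exact (Nat.not_even_iff_odd.mpr hodd) ⟨e, by ring⟩
  have he' : ¬ (ℓ : ℤ) ∣ -(e : ℤ) := by
    rw [dvd_neg, Int.natCast_dvd_natCast]
    rintro ⟨f, rfl⟩
    exact hℓ.ne_one (Nat.isUnit_iff.mp (hD ℓ ⟨f, by rw [he]; ring⟩))
  have h0 : IsTransp r τ₀ := by
    rw [transp_iff hr, tameGenerator_sqrt hℓ hA hℓ2 he' (by
      rw [rootNeg_sq, he]; push_cast; ring) hτ₀]
    intro h
    rw [neg_eq_iff_add_eq_zero, ← two_mul, mul_eq_zero] at h
    have h' := h.resolve_left two_ne_zero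
    have h2 := rootNeg_sq D
    rw [h', zero_pow two_ne_zero, eq_comm, neg_eq_zero, Nat.cast_eq_zero] at h2
    omega
  have hI : ∀ τ ∈ A.inertiaSubgroupIn ℚ, r τ = 1 ∨ r τ = r τ₀ := by
    intro τ hτ
    by_cases h : IsTransp r τ
    · right
      have h1 := eq_one_of_sq hr hD0 (σ := τ * τ₀) (by rw [transp_mul_iff hr]; tauto)
        (hr.tame ℓ hℓ (Dvd.intro e he.symm) A hA _ (mul_mem hτ hτ₀.1))
      rw [map_mul] at h1
      calc r τ = r τ * r τ₀ * r τ₀ := by rw [mul_assoc, transp_sq hr h0, mul_one]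
        _ = r τ₀ := by rw [h1, one_mul]
    · exact Or.inl (eq_one_of_sq hr hD0 h (hr.tame ℓ hℓ (Dvd.intro e he.symm) A hA τ hτ))
  refine ⟨h0, hI, fun σ hσ => eq_one_or_eq_of_commute hr hD0 h0 ?_⟩
  rcases hI _ (inertia_normal_in_decomposition hσ hτ₀.1) with h | h
  · exfalso
    rw [map_mul, map_mul] at h
    refine h0.2 ?_
    have := congrArg (fun Z => r σ⁻¹ * Z * r σ) h
    simpa [mul_assoc, r_inv_mul, ← mul_assoc (r σ⁻¹) (r σ)] using this
  · rw [map_mul, map_mul] at h
    have := congrArg (· * r σ) h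
    simp only [mul_assoc, r_inv_mul, mul_one] at this
    exact this

/-- At an unramified place with transposition Frobenius the image is generated by it. -/
theorem unramified_image (hD : 0 < D) (hc : IsCont r) {q : ℕ} (hq : q.Prime) (hqD : ¬ q ∣ D)
    (hA : A.LiesOverPrime q) {φ : GQ} (hφ : A.IsFrobeniusAt φ q) (hT : IsTransp r φ) :
    ∀ σ ∈ A.decompositionSubgroup ℚ, r σ = 1 ∨ r σ = r φ := by
  intro σ hσ
  obtain ⟨F, hF, hlev⟩ := exists_level hc
  obtain ⟨n, τ, hτ, hfix⟩ := exists_eq_frobenius_pow_mul hq hA hφ hσ F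
  have h1 := hlev _ hfix
  have h2 : r σ = r φ ^ n := by
    calc r σ = r (φ ^ n * τ) * r ((φ ^ n * τ)⁻¹ * σ) := by rw [← map_mul, mul_inv_cancel_left]
      _ = r φ ^ n := by rw [h1, mul_one, map_mul, map_pow, hr.unramified q hq hqD A hA τ hτ, mul_one]
  rcases Nat.even_or_odd' n with ⟨m, rfl | rfl⟩
  · left; rw [h2, pow_mul, pow_two, transp_sq hr hT, one_pow]
  · right; rw [h2, pow_succ, pow_mul, pow_two, transp_sq hr hT, one_pow, one_mul]

theorem frobenius_two_transp (hD : D % 8 = 3) (hA : A.LiesOverPrime 2) {φ : GQ}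
    (hφ : A.IsFrobeniusAt φ 2) : IsTransp r φ :=
  (transp_iff hr φ).mpr (frobenius_two_sqrt hD hA (rootNeg_sq D) hφ)

end Local

end Fermat.Agent.TwoAdic.Selmer
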