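import Fermat.Agent.TwoAdic.Selmer.Swap
import Fermat.Agent.Chebotarev.Main
import Fermat.Agent.Deform.Finite

/-!
# Auxiliary sets and their local spaces

The local conditions attached to a set of auxiliary primes on classes with values in the projective
summand, detection of classes at auxiliary primes, and triviality of the classes killed by all.
-/

set_option autoImplicit false
set_option linter.unusedSectionVars false

noncomputable section

namespace Fermat.Agent.TwoAdic.Selmer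

open GaloisRep Fermat.Agent.DefRing Fermat.Agent.TameInertia Fermat.Agent.Deform
  Fermat.Agent.GalCoh Matrix

local notation "Ω" => AlgebraicClosure ℚ

variable {k : Type} [Field k] [CharP k 2] {D : ℕ} {r : MRep k}

/-- The primes with a local condition. -/
def bad (D : ℕ) (A : Finset ℕ) : Finset ℕ := insert 2 (D.primeFactors ∪ A)

/-- The primes in a set of natural numbers. -/
def primesOf (s : Finset ℕ) : Finset Nat.Primes := s.subtype Nat.Prime

theorem mem_primesOf {s : Finset ℕ} {p : Nat.Primes} : p ∈ primesOf s ↔ (p : ℕ) ∈ s :=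
  Finset.mem_subtype

/-- Admissible auxiliary sets. -/
def IsAuxSet (D : ℕ) (r : MRep k) (A : Finset ℕ) : Prop :=
  ∀ q ∈ A, q.Prime ∧ q ≠ 2 ∧ ¬ q ∣ D ∧ ∀ P : ValuationSubring Ω, P.LiesOverPrime q →
    ∀ φ : GQ, P.IsFrobeniusAt φ q → IsTransp r φ

/-- The classes with values in the projective summand and everywhere local conditions. -/
def auxSpace (D : ℕ) (r : MRep k) (g₀ : GQ) (A : Finset ℕ) :
    Set (GQ → Matrix (Fin 2) (Fin 2) k) :=
  {c | IsCoc r c ∧ (levelsS (primesOf (bad D A))).IsCts₁ c ∧ (∀ g, (c g).trace = 0) ∧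
    (∀ g, avg (r g₀) (c g) = 0) ∧
    ∀ p ∈ bad D A, ∀ P : ValuationSubring Ω, P.LiesOverPrime p → IsLocalAt r c P}

variable (hr : IsDihedralResidual D r) (hcont : IsCont r) (hsf : Squarefree D) (hD8 : D % 8 = 3)

include hr hcont in
theorem trivial_levelS {s : Finset ℕ} (hs : D.primeFactors ⊆ s) (hD : D ≠ 0) :
    ∃ U, (levelsS (primesOf s)).mem U ∧ ∀ σ ∈ U, r σ = 1 := by
  obtain ⟨F, hF, hlev⟩ := exists_level hcont
  refine exists_levelS_trivial r ⟨F, hF, fun σ hσ =>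
    hlev σ ((IntermediateField.mem_fixingSubgroup_iff F σ).mpr hσ)⟩ fun q hq P hP σ hσ => ?_
  refine hr.unramified q q.2 (fun h => hq (mem_primesOf.mpr (hs ?_))) P hP σ hσ
  exact Nat.mem_primeFactors.mpr ⟨q.2, h, hD⟩

theorem cts_inertia {c : GQ → Matrix (Fin 2) (Fin 2) k} (hc : IsCoc r c) {S : Finset Nat.Primes}
    (hcts : (levelsS S).IsCts₁ c) {p : Nat.Primes} (hp : p ∉ S) {P : ValuationSubring Ω}
    (hP : P.LiesOverPrime (p : ℕ)) {τ : GQ} (hτ : τ ∈ P.inertiaSubgroupIn ℚ) : c τ = 0 := by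
  obtain ⟨U, ⟨F, hF, hFU⟩, hU⟩ := hcts
  have := hU 1 τ (hFU (hF.2 p hp P hP hτ))
  rwa [one_mul, hc.map_one] at this

include hr in
theorem cts_of_inertia {c : GQ → Matrix (Fin 2) (Fin 2) k} (hc : IsCoc r c)
    {S T : Finset Nat.Primes} (hcts : (levelsS T).IsCts₁ c)
    (hrT : ∃ U, (levelsS T).mem U ∧ ∀ σ ∈ U, r σ = 1)
    (hS : ∀ q : Nat.Primes, q ∉ S → ¬ (q : ℕ) ∣ D)
    (h0 : ∀ q : Nat.Primes, q ∈ T → q ∉ S → ∀ P : ValuationSubring Ω, P.LiesOverPrime (q : ℕ) →
      ∀ τ ∈ P.inertiaSubgroupIn ℚ, c τ = 0) : (levelsS S).IsCts₁ c := by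
  obtain ⟨F, hF, hlev⟩ := (isLift_liftOf hc (compat_levelsS T) hrT hcts).level
  obtain ⟨U, hU, hU'⟩ := exists_levelS_trivial (S := S) (liftOf r c (isCoc_iff_adRep.mp hc))
    ⟨F, hF, fun σ hσ => hlev σ ((IntermediateField.mem_fixingSubgroup_iff F σ).mpr hσ)⟩
    fun q hq P hP σ hσ => by
      have h1 : c σ = 0 := by
        by_cases hqT : q ∈ T
        · exact h0 q hqT hq P hP σ hσ
        · exact cts_inertia hc hcts hqT hP hσ
      show dualMat _ _ = 1
      rw [h1, zero_mul, hr.unramified q q.2 (hS q hq) P hP σ hσ, dualMat_one]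
  refine ⟨U, hU, fun g s hs => ?_⟩
  have h2 := hU' s hs
  have h3 : c s = 0 := by
    have h4 := congrArg (fun A => A.map TrivSqZeroExt.snd) h2
    change (dualMat (r s) (c s * r s)).map TrivSqZeroExt.snd = _ at h4
    rw [← dualMat_one] at h4
    simp only [snd_dualMat] at h4
    have h5 := congrArg (· * r s⁻¹) h4
    simpa [mul_assoc, r_mul_inv] using h5
  rw [hc, h3, mul_zero, zero_mul, zero_add]

include hr hcont hsf hD8 in
theorem hasLocalTransp_bad {A : Finset ℕ} (hA : IsAuxSet D r A) {p : ℕ} (hp : p ∈ bad D A)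
    {P : ValuationSubring Ω} (hP : P.LiesOverPrime p) : HasLocalTransp r P := by
  rcases Finset.mem_insert.mp hp with rfl | hp
  · exact hasLocalTransp_two hr hD8 hcont hP
  rcases Finset.mem_union.mp hp with hp | hp
  · exact hasLocalTransp_dvd hr hD8 hsf (Nat.prime_of_mem_primeFactors hp)
      (Nat.dvd_of_mem_primeFactors hp) hP
  · obtain ⟨h1, -, h3, h4⟩ := hA p hp
    exact hasLocalTransp_aux hr hD8 hcont h1 h3 hP (h4 P hP)

variable {g₀ : GQ} (hg₀ : ¬ IsTransp r g₀) (hg₁ : r g₀ ≠ 1)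

include hr hg₀ hg₁ in
/-- A class which is non-zero on the kernel is detected by a transposition. -/
theorem exists_detect (hD : 0 < D) {c : GQ → Matrix (Fin 2) (Fin 2) k} (hc : IsCoc r c)
    (hc0 : ∀ g, (c g).trace = 0) (hav : ∀ g, avg (r g₀) (c g) = 0) {h : GQ} (hh : r h = 1)
    (hne : c h ≠ 0) : ∃ σ, IsTransp r σ ∧ (c σ * r σ).trace ≠ 0 := by
  by_contra! hall
  have hcm : ∀ σ, IsTransp r σ → Commute (c h) (r σ) := fun σ hσ => by
    have hhσ : IsTransp r (h * σ) := by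
      rwa [IsTransp, map_mul, hh, one_mul]
    have h1 := hall _ hhσ
    rw [hc.mul_of_eq_one hh, map_mul, hh, one_mul, add_mul, trace_add, hall σ hσ, zero_add] at h1
    exact (commute_iff_trace_mul (hc0 h) hσ.1).mpr h1
  obtain ⟨σ, τ, hσ, hτ, hστ⟩ := exists_noncommute hr hD
  have h1 : ¬ IsTransp r (σ * τ) := by rw [transp_mul_iff hr]; tauto
  have h2 : r (σ * τ) ≠ 1 := fun e => hστ (by
    rw [map_mul] at e
    have : r σ = r τ := by
      calc r σ = r σ * (r τ * r τ) := by rw [transp_sq hr hτ, mul_one]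
        _ = r τ := by rw [← mul_assoc, e, one_mul]
    rw [this])
  have h3 : IsScal (c h) := isScal_of_commute (hc0 h)
    (by rw [trace_eq_one hr hD h1 h2]; exact one_ne_zero)
    (by rw [map_mul]; exact (hcm σ hσ).mul_right (hcm τ hτ))
  exact hne ((avg_of_isScal (cube_eq_one hr hD hg₀) h3).symm.trans (hav h))

include hr hg₀ hg₁ in
/-- A class which vanishes on the kernel is a coboundary. -/
theorem eq_coboundary (hD : 0 < D) {c : GQ → Matrix (Fin 2) (Fin 2) k} (hc : IsCoc r c)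
    (hc0 : ∀ g, (c g).trace = 0) (hav : ∀ g, avg (r g₀) (c g) = 0)
    (hker : ∀ h, r h = 1 → c h = 0) :
    ∃ Y : Matrix (Fin 2) (Fin 2) k, Y.trace = 0 ∧ ∀ σ, c σ = r σ * Y * r σ⁻¹ + Y := by
  have h3 := cube_eq_one hr hD hg₀
  have h3' : r g₀ * (r g₀ * r g₀) = 1 := by rw [← mul_assoc, h3]
  have hinv : r g₀⁻¹ = r g₀ * r g₀ := by
    calc r g₀⁻¹ = r g₀⁻¹ * (r g₀ * (r g₀ * r g₀)) := by rw [h3', mul_one]
      _ = r g₀ * r g₀ := by rw [← mul_assoc, r_inv_mul, one_mul]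
  have hconjY : r g₀ * c g₀ * r g₀⁻¹ = r g₀ * c g₀ * (r g₀ * r g₀) := by rw [hinv]
  obtain ⟨Y, hY⟩ : ∃ Y, Y = r g₀ * c g₀ * (r g₀ * r g₀) := ⟨_, rfl⟩
  have hYtr : Y.trace = 0 := by rw [hY, ← hconjY, conj_trace, hc0]
  obtain ⟨x, hx⟩ : ∃ x : GQ → Matrix (Fin 2) (Fin 2) k,
      ∀ σ, x σ = c σ + (r σ * Y * r σ⁻¹ + Y) := ⟨_, fun σ => rfl⟩
  have hxc : IsCoc r x := fun g h => by
    rw [hx, hx, hx, hc, map_mul, _root_.mul_inv_rev, map_mul]
    have e := add_self_mat (r g * Y * r g⁻¹)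
    simp only [mul_add, add_mul, mul_assoc] at e ⊢
    rw [show r g * (r h * (Y * (r h⁻¹ * r g⁻¹))) + Y =
      (r g * (r h * (Y * (r h⁻¹ * r g⁻¹))) + Y) + 0 from (add_zero _).symm, ← e]
    abel
  have hx0 : ∀ σ, (x σ).trace = 0 := fun σ => by
    rw [hx, trace_add, trace_add, conj_trace, hc0, hYtr, add_zero, add_zero]
  have hnorm : ∀ σ, r σ * r g₀ * r σ⁻¹ = r g₀ ∨ r σ * r g₀ * r σ⁻¹ = r g₀ * r g₀ :=
    conj_order_three hr hD hg₀ hg₁
  have hav' : ∀ σ X, avg (r g₀) (r σ * X * r σ⁻¹) = r σ * avg (r g₀) X * r σ⁻¹ := fun σ X =>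
    avg_conj (r_mul_inv r σ) (r_inv_mul r σ) h3 (hnorm σ) X
  have hxav : ∀ σ, avg (r g₀) (x σ) = 0 := fun σ => by
    have hYav : avg (r g₀) Y = 0 := by rw [hY, ← hconjY, hav', hav, mul_zero, zero_mul]
    rw [hx, avg_add, avg_add, hav, hav', hYav, mul_zero, zero_mul, add_zero, add_zero]
  have hxker : ∀ h, r h = 1 → x h = 0 := fun h hh => by
    have : r h⁻¹ = 1 := by simpa [hh] using r_mul_inv r h
    rw [hx, hker h hh, hh, this, one_mul, mul_one, add_self_mat, add_zero]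
  have hxg : x g₀ = 0 := by
    have h := hav g₀
    rw [avg] at h
    have e : r g₀ * Y * r g₀⁻¹ = r g₀ * r g₀ * c g₀ * r g₀ := by
      rw [hY, hinv]
      simp only [mul_assoc]
      rw [show r g₀ * (r g₀ * (r g₀ * r g₀)) = r g₀ * 1 from by rw [h3'], mul_one]
    rw [hx, e, hY, ← h]
    abel
  refine ⟨Y, hYtr, fun σ => ?_⟩
  suffices x σ = 0 by
    rw [hx, ← sub_mat, sub_eq_zero] at this
    exact this
  have key : ∀ u : GQ, r u = r g₀ ∨ r u = r g₀ * r g₀ → x u = 0 := by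
    intro u hu
    have hgg : x (g₀ * g₀) = 0 := by rw [hxc, hxg, mul_zero, zero_mul, add_zero]
    have aux : ∀ v, x v = 0 → r u = r v → x u = 0 := fun v hv huv => by
      have h1 : r (u * v⁻¹) = 1 := by rw [map_mul, huv, r_mul_inv]
      have h2 := hxc.mul_of_eq_one (σ := v) h1
      rw [inv_mul_cancel_right, hv, hxker _ h1, add_zero] at h2
      exact h2
    rcases hu with hu | hu
    · exact aux g₀ hxg hu
    · exact aux _ hgg (by rw [map_mul]; exact hu)
  have hu := key (σ * g₀ * σ⁻¹) (by rw [map_mul, map_mul]; exact hnorm σ)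
  rw [hxc.conj, hxg, mul_zero, zero_mul, zero_add, ← sub_mat, sub_eq_zero] at hu
  have hσg : ∀ v : GQ, (r v).trace ≠ 0 → x σ = r v * x σ * r v⁻¹ → x σ = 0 := fun v hv e => by
    have hs : IsScal (x σ) := isScal_of_commute (hx0 σ) hv (by
      show x σ * r v = r v * x σ
      conv_lhs => rw [e, mul_assoc, r_inv_mul, mul_one])
    exact (avg_of_isScal h3 hs).symm.trans (hxav σ)
  refine hσg _ ?_ hu
  rw [map_mul, map_mul, conj_trace, trace_eq_one hr hD hg₀ hg₁]
  exact one_ne_zero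

end Fermat.Agent.TwoAdic.Selmer
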