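import Fermat.Agent.TwoAdic.Selmer.Residual
import Fermat.Agent.Deform.Adjoint
import Fermat.Agent.GalCoh.GlobalLevels

/-!
# Adjoint cocycles and their local traces

Cocycles of the adjoint representation of the dihedral residual representation and the traces of
their values on decomposition groups.
-/

set_option autoImplicit false
set_option linter.unusedSectionVars false

noncomputable section

namespace Fermat.Agent.TwoAdic.Selmer

open GaloisRep Fermat.Agent.DefRing Fermat.Agent.TameInertia Matrix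

local notation "Ω" => AlgebraicClosure ℚ

variable {k : Type} [Field k] [CharP k 2] {D : ℕ} {r : MRep k}
  {c : GQ → Matrix (Fin 2) (Fin 2) k}

/-- A cocycle of the adjoint representation. -/
def IsCoc (r : MRep k) (c : GQ → Matrix (Fin 2) (Fin 2) k) : Prop :=
  ∀ g h, c (g * h) = r g * c h * r g⁻¹ + c g

theorem conj_trace (r : MRep k) (g : GQ) (X : Matrix (Fin 2) (Fin 2) k) :
    (r g * X * r g⁻¹).trace = X.trace := by
  rw [Matrix.trace_mul_cycle, r_inv_mul, one_mul]

theorem conj_mul (r : MRep k) (g : GQ) (X Y : Matrix (Fin 2) (Fin 2) k) :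
    r g * X * r g⁻¹ * (r g * Y * r g⁻¹) = r g * (X * Y) * r g⁻¹ := by
  simp only [mul_assoc]
  rw [← mul_assoc (r g⁻¹), r_inv_mul, one_mul]

theorem IsCoc.map_one (h : IsCoc r c) : c 1 = 0 := by
  have := h 1 1
  simpa using this

theorem IsCoc.conj (h : IsCoc r c) (g σ : GQ) :
    c (g * σ * g⁻¹) = r g * c σ * r g⁻¹ + c g + r (g * σ * g⁻¹) * c g * r (g * σ * g⁻¹)⁻¹ := by
  have h1 := h (g * σ * g⁻¹) g
  rw [inv_mul_cancel_right, h] at h1
  rw [h1, add_comm (r (g * σ * g⁻¹) * c g * r (g * σ * g⁻¹)⁻¹), add_assoc, add_self_mat, add_zero]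

theorem IsCoc.conj_of_eq_one (h : IsCoc r c) {g σ : GQ} (hσ : r σ = 1) :
    c (g * σ * g⁻¹) = r g * c σ * r g⁻¹ := by
  have e : r (g * σ * g⁻¹) = 1 := by
    rw [map_mul, map_mul, hσ, mul_one, r_mul_inv]
  have e' : r (g * σ * g⁻¹)⁻¹ = 1 := by
    have := r_mul_inv r (g * σ * g⁻¹)
    rwa [e, one_mul] at this
  rw [h.conj, e, e', one_mul, mul_one, add_assoc, add_self_mat, add_zero]

theorem IsCoc.mul_of_eq_one (h : IsCoc r c) {g σ : GQ} (hg : r g = 1) : c (g * σ) = c σ + c g := by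
  have e' : r g⁻¹ = 1 := by
    have := r_mul_inv r g
    rwa [hg, one_mul] at this
  rw [h, hg, e', one_mul, mul_one]

theorem isCoc_iff_adRep :
    IsCoc r c ↔ ∀ g h, c (g * h) = Fermat.Agent.Deform.adRep r g (c h) + c g := by
  simp only [IsCoc, Fermat.Agent.Deform.adRep_apply]

variable (hr : IsDihedralResidual D r)

/-- The image of the decomposition group at `P` is generated by one transposition. -/
def HasLocalTransp (r : MRep k) (P : ValuationSubring Ω) : Prop :=
  ∃ t ∈ P.decompositionSubgroup ℚ, IsTransp r t ∧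
    ∀ σ ∈ P.decompositionSubgroup ℚ, r σ = 1 ∨ r σ = r t

/-- The values on the decomposition group at `P` commute with the residual images. -/
def IsLocalAt (r : MRep k) (c : GQ → Matrix (Fin 2) (Fin 2) k) (P : ValuationSubring Ω) : Prop :=
  ∀ σ ∈ P.decompositionSubgroup ℚ, (c σ * r σ).trace = 0

theorem IsLocalAt.trace_mul (h : IsCoc r c) {P : ValuationSubring Ω}
    (hl : IsLocalAt r c P) {t : GQ} (ht : t ∈ P.decompositionSubgroup ℚ)
    {σ : GQ} (hσ : σ ∈ P.decompositionSubgroup ℚ) (hσt : r σ = 1 ∨ r σ = r t) :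
    (c σ * r t).trace = 0 := by
  rcases hσt with h1 | h1
  · have h2 := hl _ (mul_mem hσ ht)
    rw [h.mul_of_eq_one h1, map_mul, h1, one_mul, add_mul, trace_add, hl t ht, zero_add] at h2
    exact h2
  · rw [← h1]
    exact hl σ hσ

/-- Two local cocycles are orthogonal on a decomposition group. -/
theorem trace_cup_eq_zero {P : ValuationSubring Ω} (hP : HasLocalTransp r P)
    {x y : GQ → Matrix (Fin 2) (Fin 2) k} (hx : IsCoc r x) (hy : IsCoc r y)
    (hx0 : ∀ g, (x g).trace = 0) (hy0 : ∀ g, (y g).trace = 0) (hxl : IsLocalAt r x P)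
    (hyl : IsLocalAt r y P) (hdet : ∀ σ, (r σ).det = 1) {g h : GQ}
    (hg : g ∈ P.decompositionSubgroup ℚ) (hh : h ∈ P.decompositionSubgroup ℚ) :
    (x g * (r g * y h * r g⁻¹)).trace = 0 := by
  obtain ⟨t, ht, htT, himg⟩ := hP
  have hcomm : r g * r t * r g⁻¹ = r t := by
    rcases himg g hg with h1 | h1
    · have e : r g⁻¹ = 1 := by
        have := r_mul_inv r g
        rwa [h1, one_mul] at this
      rw [h1, e, one_mul, mul_one]
    · rw [← h1, mul_assoc, r_mul_inv, mul_one]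
  refine trace_mul_eq_zero htT.1 (hdet t) htT.2 (hx0 g) (by rw [conj_trace, hy0])
    (hxl.trace_mul hx ht hg (himg g hg)) ?_
  conv_lhs => rw [← hcomm]
  rw [conj_mul, conj_trace]
  exact hyl.trace_mul hy ht hh (himg h hh)

/-- A local cocycle only has to be checked on inertia and on one Frobenius element. -/
theorem isLocalAt_of_generators (hc : IsCoc r c) (hc0 : ∀ g, (c g).trace = 0) {q : ℕ}
    (hq : q.Prime) {P : ValuationSubring Ω} (hA : P.LiesOverPrime q) {φ : GQ}
    (hφ : P.IsFrobeniusAt φ q) {F : IntermediateField ℚ Ω} [FiniteDimensional ℚ F]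
    (hF : ∀ σ ∈ F.fixingSubgroup, r σ = 1 ∧ c σ = 0) {t : GQ}
    (himg : ∀ σ ∈ P.decompositionSubgroup ℚ, r σ = 1 ∨ r σ = r t)
    (h1 : (c φ * r t).trace = 0)
    (h2 : ∀ τ ∈ P.inertiaSubgroupIn ℚ, (c τ * r t).trace = 0) : IsLocalAt r c P := by
  have key : ∀ a b : GQ, a ∈ P.decompositionSubgroup ℚ → (c a * r t).trace = 0 →
      (c b * r t).trace = 0 → (c (a * b) * r t).trace = 0 := by
    intro a b ha ea eb
    have hcomm : r a * r t * r a⁻¹ = r t := by
      rcases himg a ha with h | h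
      · have e : r a⁻¹ = 1 := by
          have := r_mul_inv r a
          rwa [h, one_mul] at this
        rw [h, e, one_mul, mul_one]
      · rw [← h, mul_assoc, r_mul_inv, mul_one]
    rw [hc, add_mul, trace_add, ea, add_zero]
    conv_lhs => rw [← hcomm]
    rw [conj_mul, conj_trace]
    exact eb
  have hall : ∀ σ ∈ P.decompositionSubgroup ℚ, (c σ * r t).trace = 0 := by
    intro σ hσ
    obtain ⟨n, τ, hτ, hfix⟩ := exists_eq_frobenius_pow_mul hq hA hφ hσ F
    have hpow : ∀ m : ℕ, (c (φ ^ m) * r t).trace = 0 := fun m => by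
      induction m with
      | zero => rw [pow_zero, hc.map_one, zero_mul, trace_zero]
      | succ m ih => exact pow_succ φ m ▸ key _ _ (pow_mem hφ.mem_decompositionSubgroup m) ih h1
    have hn := hpow n
    have hmem : φ ^ n * τ ∈ P.decompositionSubgroup ℚ :=
      mul_mem (pow_mem hφ.mem_decompositionSubgroup n)
        ((Fermat.Agent.FreyReducible.mem_inertiaSubgroupIn_iff P τ).1 hτ).1
    have := key (φ ^ n * τ) _ hmem (key _ _ (pow_mem hφ.mem_decompositionSubgroup n) hn (h2 τ hτ))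
      (show (c ((φ ^ n * τ)⁻¹ * σ) * r t).trace = 0 by rw [(hF _ hfix).2, zero_mul, trace_zero])
    rwa [mul_inv_cancel_left] at this
  intro σ hσ
  rcases himg σ hσ with h | h
  · rw [h, mul_one, hc0]
  · rw [h]
    exact hall σ hσ

include hr in
theorem hasLocalTransp_two (hD8 : D % 8 = 3) (hcont : IsCont r) {P : ValuationSubring Ω}
    (hP : P.LiesOverPrime 2) : HasLocalTransp r P := by
  obtain ⟨φ, hφ⟩ := Fermat.Agent.Frobenius.exists_isFrobeniusAt_qbar Nat.prime_two hP
  have hT := frobenius_two_transp hr hD8 hP hφ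
  exact ⟨φ, hφ.mem_decompositionSubgroup, hT,
    unramified_image hr (by omega) hcont Nat.prime_two (by omega) hP hφ hT⟩

include hr in
theorem hasLocalTransp_dvd (hD8 : D % 8 = 3) (hsf : Squarefree D) {ℓ : ℕ} (hℓ : ℓ.Prime)
    (hℓD : ℓ ∣ D) {P : ValuationSubring Ω} (hP : P.LiesOverPrime ℓ) : HasLocalTransp r P := by
  have hodd : Odd D := Nat.odd_iff.mpr (by omega)
  have hℓ2 : (2 : ℕ) ≠ ℓ := fun h => by
    subst h
    omega
  obtain ⟨τ₀, hτ₀⟩ := exists_tameGenerator Nat.prime_two hℓ hℓ2 hP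
  obtain ⟨hT, -, himg⟩ := inertia_image hr hsf hodd hℓ hℓD hP hτ₀
  exact ⟨τ₀, ((Fermat.Agent.FreyReducible.mem_inertiaSubgroupIn_iff P τ₀).1 hτ₀.1).1, hT, himg⟩

include hr in
theorem hasLocalTransp_aux (hD8 : D % 8 = 3) (hcont : IsCont r) {q : ℕ} (hq : q.Prime)
    (hqD : ¬ q ∣ D) {P : ValuationSubring Ω} (hP : P.LiesOverPrime q)
    (hT : ∀ φ : GQ, P.IsFrobeniusAt φ q → IsTransp r φ) : HasLocalTransp r P := by
  obtain ⟨φ, hφ⟩ := Fermat.Agent.Frobenius.exists_isFrobeniusAt_qbar hq hP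
  exact ⟨φ, hφ.mem_decompositionSubgroup, hT φ hφ,
    unramified_image hr (by omega) hcont hq hqD hP hφ (hT φ hφ)⟩

theorem isScal_of_trace_mul {X Y t : Matrix (Fin 2) (Fin 2) k} (hX : X.trace = 0) (hY : Y.trace = 0)
    (ht : t.trace = 0) (hYt : (Y * t).trace = 0) (hXY : (X * Y).trace = 0)
    (hXt : (X * t).trace ≠ 0) : IsScal Y := by
  rw [trace_mul_trace_zero hY ht] at hYt
  rw [trace_mul_trace_zero hX hY] at hXY
  rw [trace_mul_trace_zero hX ht] at hXt
  have h0 : (2 : k) = 0 := CharTwo.two_eq_zero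
  have a : Y 0 1 = 0 := (mul_eq_zero.mp
    (show (X 0 1 * t 1 0 + X 1 0 * t 0 1) * Y 0 1 = 0 by
      linear_combination X 0 1 * hYt + t 0 1 * hXY - (X 0 1 * Y 1 0 * t 0 1) * h0)).resolve_left hXt
  have b : Y 1 0 = 0 := (mul_eq_zero.mp
    (show (X 0 1 * t 1 0 + X 1 0 * t 0 1) * Y 1 0 = 0 by
      linear_combination X 1 0 * hYt + t 1 0 * hXY - (X 1 0 * Y 0 1 * t 1 0) * h0)).resolve_left hXt
  refine ⟨Y 0 0, Matrix.ext fun i j => ?_⟩
  fin_cases i <;> fin_cases j <;> simp [a, b, apply_eq_of_trace_eq_zero hY]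

end Fermat.Agent.TwoAdic.Selmer
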