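import Fermat.Agent.TwoAdic.Selmer.CrysTwo
import Fermat.Agent.TwoAdic.Selmer.Cocycle

/-!
# The crystalline condition at 2 and its isotropy

The local condition at `2` of the crystalline problem and its isotropy.

A class is crystalline at `P ∣ 2` when on inertia it factors through the character of `√-1` with
values commuting with Frobenius; there is no condition on the value at Frobenius.  For two such
classes the cup product is a combination of `a ∪ a`, `χ ∪ a`, `a ∪ χ`, all coboundaries.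
-/

set_option autoImplicit false

noncomputable section

namespace Fermat.Agent.TwoAdic.Selmer

open GaloisRep Fermat.Agent.DefRing Fermat.Agent.TameInertia Matrix

local notation "Ω" => AlgebraicClosure ℚ

variable {k : Type} [Field k] [CharP k 2] {D : ℕ} {r : MRep k}

/-- The crystalline condition at a place over `2`. -/
def IsCrysAt (r : MRep k) (c : GQ → Matrix (Fin 2) (Fin 2) k) (P : ValuationSubring Ω) : Prop :=
  (∀ τ ∈ P.inertiaSubgroupIn ℚ, ∀ σ ∈ P.decompositionSubgroup ℚ, (c τ * r σ).trace = 0) ∧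
    ∀ τ ∈ P.inertiaSubgroupIn ℚ, ∀ i : Ω, i ^ 2 = -1 → τ i = i → c τ = 0

theorem conj_transp {t X : Matrix (Fin 2) (Fin 2) k} (ht : t.trace = 0) (hd : t.det = 1)
    (hX : X.trace = 0) : t * X * t = X + (X * t).trace • t := by
  have h := mul_add_mul_swap hX ht
  have h1 : t * X = (X * t).trace • (1 : Matrix (Fin 2) (Fin 2) k) + X * t := by
    rw [← sub_mat, eq_sub_iff_add_eq, add_comm]
    exact h
  rw [h1, add_mul, smul_mul_assoc, one_mul, mul_assoc, sq_eq_one_of_trace_eq_zero ht hd, mul_one,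
    add_comm]

/-- An additive function on a decomposition group is determined on inertia and Frobenius. -/
theorem eq_zero_on_decomp {M : Type*} [AddCommGroup M] {q : ℕ} (hq : q.Prime)
    {P : ValuationSubring Ω} (hP : P.LiesOverPrime q) {φ : GQ} (hφ : P.IsFrobeniusAt φ q)
    {b : GQ → M}
    (hb : ∀ g ∈ P.decompositionSubgroup ℚ, ∀ h ∈ P.decompositionSubgroup ℚ,
      b (g * h) = b g + b h)
    (hI : ∀ τ ∈ P.inertiaSubgroupIn ℚ, b τ = 0) (h1 : b φ = 0)
    {F : IntermediateField ℚ Ω} [FiniteDimensional ℚ F]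
    (hF : ∀ σ ∈ F.fixingSubgroup, σ ∈ P.decompositionSubgroup ℚ → b σ = 0) :
    ∀ σ ∈ P.decompositionSubgroup ℚ, b σ = 0 := by
  intro σ hσ
  obtain ⟨n, τ, hτ, hfix⟩ := exists_eq_frobenius_pow_mul hq hP hφ hσ F
  have hτD := ((Fermat.Agent.FreyReducible.mem_inertiaSubgroupIn_iff P τ).1 hτ).1
  have hD := hφ.mem_decompositionSubgroup
  have hpow : ∀ m : ℕ, b (φ ^ m) = 0 := fun m => by
    induction m with
    | zero =>
      have := hb 1 (one_mem _) 1 (one_mem _)
      rw [mul_one] at this
      rw [pow_zero]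
      exact left_eq_add.mp this
    | succ m ih => rw [pow_succ, hb _ (pow_mem hD m) _ hD, ih, h1, add_zero]
  have hm : (φ ^ n * τ)⁻¹ * σ ∈ P.decompositionSubgroup ℚ :=
    mul_mem (inv_mem (mul_mem (pow_mem hD n) hτD)) hσ
  rw [← mul_inv_cancel_left (φ ^ n * τ) σ, hb _ (mul_mem (pow_mem hD n) hτD) _ hm,
    hF _ hfix hm, hb _ (pow_mem hD n) _ hτD, hpow, hI τ hτ, add_zero, add_zero]

variable (k) in
/-- The bits in the field. -/
abbrev bitHom : ZMod 2 →+* k := ZMod.castHom dvd_rfl k

open Crys in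
/-- On a decomposition group over `2` the residual representation is read by the unramified
quadratic character. -/
theorem residual_decomp (hr : IsDihedralResidual D r) (hD8 : D % 8 = 3) (hcont : IsCont r)
    {P : ValuationSubring Ω} (hP : P.LiesOverPrime 2) {φ : GQ} (hφ : P.IsFrobeniusAt φ 2) :
    ∀ σ ∈ P.decompositionSubgroup ℚ, (loBit (dz σ) = 0 ∧ r σ = 1) ∨
      (loBit (dz σ) = 1 ∧ r σ = r φ) := by
  intro σ hσ
  obtain ⟨F, hF, hlev⟩ := exists_level hcont
  have : FiniteDimensional ℚ (F ⊔ rootField : IntermediateField ℚ Ω) :=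
    IntermediateField.finiteDimensional_sup F rootField
  obtain ⟨n, τ, hτ, hfix⟩ := exists_eq_frobenius_pow_mul Nat.prime_two hP hφ hσ (F ⊔ rootField)
  set u := (φ ^ n * τ)⁻¹ * σ
  have hu1 := hlev u (IntermediateField.fixingSubgroup_antitone le_sup_left hfix)
  have hu2 := (rootField_fix (IntermediateField.fixingSubgroup_antitone le_sup_right hfix)).1
  have hT := frobenius_two_transp hr hD8 hP hφ
  have hσe : σ = φ ^ n * τ * u := (mul_inv_cancel_left _ _).symm
  have hr' : r σ = r φ ^ n := by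
    rw [hσe, map_mul, hu1, mul_one, map_mul, map_pow,
      hr.unramified 2 Nat.prime_two (by omega) P hP τ hτ, mul_one]
  have hd : dz σ = n := by
    have hp : ∀ m : ℕ, dz (φ ^ m) = m := fun m => by
      induction m with
      | zero => rw [pow_zero, dz_one, Nat.cast_zero]
      | succ m ih => rw [pow_succ, dz_mul, ih, dz_frobenius hP hφ, Nat.cast_succ]
    rw [hσe, dz_mul, dz_mul, hp, hu2, dz_inertia hP hτ, add_zero, add_zero]
  have hlo : loBit (dz σ) = (n : ZMod 2) := by
    rw [hd, loBit, ZMod.val_natCast]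
    exact ((ZMod.natCast_eq_natCast_iff' _ _ _).mpr (Nat.mod_mod_of_dvd n (by norm_num : 2 ∣ 4)))
  rcases Nat.even_or_odd' n with ⟨m, rfl | rfl⟩
  · refine Or.inl ⟨?_, by rw [hr', pow_mul, pow_two, transp_sq hr hT, one_pow]⟩
    rw [hlo, Nat.cast_mul, show ((2 : ℕ) : ZMod 2) = 0 from rfl, zero_mul]
  · refine Or.inr ⟨?_, by rw [hr', pow_succ, pow_mul, pow_two, transp_sq hr hT, one_pow, one_mul]⟩
    rw [hlo, Nat.cast_succ, Nat.cast_mul, show ((2 : ℕ) : ZMod 2) = 0 from rfl, zero_mul, zero_add]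

open Crys in
/-- The normal form of a crystalline cocycle on the decomposition group. -/
theorem exists_crys_form (hr : IsDihedralResidual D r) (hD8 : D % 8 = 3) (hcont : IsCont r)
    {P : ValuationSubring Ω} (hP : P.LiesOverPrime 2) {φ : GQ} (hφ : P.IsFrobeniusAt φ 2)
    {x : GQ → Matrix (Fin 2) (Fin 2) k} (hx : IsCoc r x) (hx0 : ∀ g, (x g).trace = 0)
    (hxl : IsCrysAt r x P)
    (hlev : ∃ F : IntermediateField ℚ Ω, FiniteDimensional ℚ F ∧
      ∀ σ ∈ F.fixingSubgroup, x σ = 0) :
    ∃ (e : k) (M M₂ : Matrix (Fin 2) (Fin 2) k), M.trace = 0 ∧ (M * r φ).trace = 0 ∧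
      M₂.trace = 0 ∧ (M₂ * r φ).trace = e ∧
      (∀ g ∈ P.decompositionSubgroup ℚ, (x g * r φ).trace = e * bitHom k (loBit (dz g))) ∧
      ∀ g ∈ P.decompositionSubgroup ℚ, x g = (e * bitHom k (hiBit (dz g))) • r φ +
        bitHom k (chi g) • M + bitHom k (loBit (dz g)) • M₂ := by
  classical
  have hT := frobenius_two_transp hr hD8 hP hφ
  have hdec := residual_decomp hr hD8 hcont hP hφ
  have hφD := hφ.mem_decompositionSubgroup
  have htd := hr.det_one φ
  have htinv : r φ⁻¹ = r φ := by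
    calc r φ⁻¹ = r φ⁻¹ * (r φ * r φ) := by rw [transp_sq hr hT, mul_one]
      _ = r φ := by rw [← mul_assoc, r_inv_mul, one_mul]
  have hconj : ∀ g ∈ P.decompositionSubgroup ℚ, ∀ X : Matrix (Fin 2) (Fin 2) k, X.trace = 0 →
      r g * X * r g⁻¹ = X + (bitHom k (loBit (dz g)) * (X * r φ).trace) • r φ := by
    intro g hg X hX
    rcases hdec g hg with ⟨h1, h2⟩ | ⟨h1, h2⟩
    · have : r g⁻¹ = 1 := by simpa [h2] using r_mul_inv r g
      rw [h1, h2, this, map_zero, zero_mul, zero_smul, add_zero, one_mul, mul_one]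
    · have : r g⁻¹ = r φ := by
        calc r g⁻¹ = r g⁻¹ * (r g * r φ) := by rw [h2, transp_sq hr hT, mul_one]
          _ = r φ := by rw [← mul_assoc, r_inv_mul, one_mul]
      rw [h1, h2, this, map_one, one_mul]
      exact conj_transp hT.1 htd hX
  have htt : (r φ * r φ).trace = 0 := by
    rw [transp_sq hr hT, trace_one]
    simp [CharTwo.two_eq_zero]
  obtain ⟨F, hF, hlev⟩ := hlev
  have : FiniteDimensional ℚ (F ⊔ rootField : IntermediateField ℚ Ω) :=
    IntermediateField.finiteDimensional_sup F rootField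
  have hfix : ∀ σ ∈ (F ⊔ rootField : IntermediateField ℚ Ω).fixingSubgroup,
      x σ = 0 ∧ dz σ = 0 ∧ chi σ = 0 := fun σ hσ =>
    ⟨hlev σ (IntermediateField.fixingSubgroup_antitone le_sup_left hσ),
      (rootField_fix (IntermediateField.fixingSubgroup_antitone le_sup_right hσ)).1,
      (rootField_fix (IntermediateField.fixingSubgroup_antitone le_sup_right hσ)).2.1⟩
  set e := (x φ * r φ).trace with he
  have hlo1 : loBit (dz φ) = 1 := by rw [dz_frobenius hP hφ]; rfl
  have hξ : ∀ g ∈ P.decompositionSubgroup ℚ,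
      (x g * r φ).trace = e * bitHom k (loBit (dz g)) := by
    intro g hg
    have hz := eq_zero_on_decomp Nat.prime_two hP hφ
      (b := fun g => (x g * r φ).trace + e * bitHom k (loBit (dz g)))
      (fun g hg h _ => by
        rw [hx, hconj g hg _ (hx0 h), add_mul, add_mul, trace_add, trace_add, smul_mul_assoc,
          trace_smul, htt, smul_zero, add_zero, loBit_dz_mul, map_add]
        ring)
      (fun τ hτ => by
        rw [hxl.1 τ hτ φ hφD, dz_inertia hP hτ, show loBit (0 : ZMod 4) = 0 from rfl, map_zero,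
          mul_zero, add_zero])
      (by rw [hlo1, map_one, mul_one, ← he, CharTwo.add_self_eq_zero])
      (F := F ⊔ rootField) (fun σ hσ _ => by
        rw [(hfix σ hσ).1, (hfix σ hσ).2.1, show loBit (0 : ZMod 4) = 0 from rfl, map_zero,
          zero_mul, trace_zero, mul_zero, add_zero]) g hg
    exact CharTwo.add_eq_zero.mp hz
  have hval : ∀ z : ZMod 2, z = 0 ∨ z = 1 := by decide
  obtain ⟨M, hM0, hMt, hMI⟩ : ∃ M : Matrix (Fin 2) (Fin 2) k, M.trace = 0 ∧
      (M * r φ).trace = 0 ∧
      ∀ τ ∈ P.inertiaSubgroupIn ℚ, x τ = bitHom k (chi τ) • M := by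
    have hfixed : ∀ τ ∈ P.inertiaSubgroupIn ℚ, chi τ = 0 → x τ = 0 := fun τ hτ h =>
      hxl.2 τ hτ im im_sq ((chi_eq_zero_iff τ).mp h)
    by_cases hex : ∃ τ ∈ P.inertiaSubgroupIn ℚ, chi τ = 1
    · obtain ⟨τ₁, hτ₁, hc₁⟩ := hex
      refine ⟨x τ₁, hx0 _, hxl.1 τ₁ hτ₁ φ hφD, fun τ hτ => ?_⟩
      rcases hval (chi τ) with h | h
      · rw [hfixed τ hτ h, h, map_zero, zero_smul]
      · have h' : chi (τ * τ₁⁻¹) = 0 := by
          have := chi_mul (τ * τ₁⁻¹) τ₁
          rw [inv_mul_cancel_right, h, hc₁] at this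
          exact (by decide : ∀ z : ZMod 2, 1 = z + 1 → z = 0) _ this
        have h1 := hfixed _ (mul_mem hτ (inv_mem hτ₁)) h'
        have h2 := hx.mul_of_eq_one (σ := τ₁)
          (hr.unramified 2 Nat.prime_two (by omega) P hP _ (mul_mem hτ (inv_mem hτ₁)))
        rw [inv_mul_cancel_right, h1, add_zero] at h2
        rw [h2, h, map_one, one_smul]
    · push Not at hex
      exact ⟨0, trace_zero _ _, by simp, fun τ hτ => by
        rw [hfixed τ hτ ((hval _).resolve_right (hex τ hτ)), smul_zero]⟩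
  set M₂ := x φ + bitHom k (chi φ) • M with hM₂
  have hhi1 : hiBit (dz φ) = 0 := by rw [dz_frobenius hP hφ]; rfl
  have hmain : ∀ g ∈ P.decompositionSubgroup ℚ, x g + ((e * bitHom k (hiBit (dz g))) • r φ +
        bitHom k (chi g) • M + bitHom k (loBit (dz g)) • M₂) = 0 :=
    eq_zero_on_decomp Nat.prime_two hP hφ
      (b := fun g => x g + ((e * bitHom k (hiBit (dz g))) • r φ +
        bitHom k (chi g) • M + bitHom k (loBit (dz g)) • M₂))
      (fun g hg h hh => by
        rw [hx, hconj g hg _ (hx0 h), hξ h hh, hiBit_dz_mul, loBit_dz_mul, chi_mul, map_add,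
          map_add, map_add, map_add, map_mul]
        simp only [mul_add, add_smul]
        rw [show bitHom k (loBit (dz g)) * (e * bitHom k (loBit (dz h))) =
          e * (bitHom k (loBit (dz g)) * bitHom k (loBit (dz h))) by ring]
        set Z := (e * (bitHom k (loBit (dz g)) * bitHom k (loBit (dz h)))) • r φ
        calc _ = (Z + Z) + (x g + (((e * bitHom k (hiBit (dz g))) • r φ +
              bitHom k (chi g) • M + bitHom k (loBit (dz g)) • M₂)) +
              (x h + ((e * bitHom k (hiBit (dz h))) • r φ +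
              bitHom k (chi h) • M + bitHom k (loBit (dz h)) • M₂))) := by abel
          _ = _ := by rw [add_self_mat, zero_add])
      (fun τ hτ => by
        rw [hMI τ hτ, dz_inertia hP hτ, show loBit (0 : ZMod 4) = 0 from rfl,
          show hiBit (0 : ZMod 4) = 0 from rfl, map_zero, mul_zero, zero_smul, zero_smul, zero_add,
          add_zero, add_self_mat])
      (by
        rw [hlo1, hhi1, map_zero, map_one, mul_zero, zero_smul, zero_add, one_smul, hM₂]
        calc _ = (x φ + x φ) + (bitHom k (chi φ) • M + bitHom k (chi φ) • M) := by abel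
          _ = 0 := by rw [add_self_mat, add_self_mat, add_zero])
      (F := F ⊔ rootField) (fun σ hσ _ => by
        obtain ⟨h1, h2, h3⟩ := hfix σ hσ
        rw [h1, h2, h3, show loBit (0 : ZMod 4) = 0 from rfl,
          show hiBit (0 : ZMod 4) = 0 from rfl, map_zero, mul_zero, zero_smul, zero_smul, zero_smul,
          add_zero, add_zero, add_zero])
  refine ⟨e, M, M₂, hM0, hMt, ?_, ?_, hξ, fun g hg => ?_⟩
  · rw [hM₂, trace_add, hx0, trace_smul, hM0, smul_zero, add_zero]
  · rw [hM₂, add_mul, trace_add, smul_mul_assoc, trace_smul, hMt, smul_zero, add_zero]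
  · rw [← sub_eq_zero, sub_mat]
    exact hmain g hg

open Crys in
/-- **Isotropy at `2`**: the cup product of two crystalline classes is a coboundary. -/
theorem exists_cup_coboundary (hr : IsDihedralResidual D r) (hD8 : D % 8 = 3) (hcont : IsCont r)
    {P : ValuationSubring Ω} (hP : P.LiesOverPrime 2)
    {x y : GQ → Matrix (Fin 2) (Fin 2) k} (hx : IsCoc r x) (hy : IsCoc r y)
    (hx0 : ∀ g, (x g).trace = 0) (hy0 : ∀ g, (y g).trace = 0) (hxl : IsCrysAt r x P)
    (hyl : IsCrysAt r y P)
    (hxlev : ∃ F : IntermediateField ℚ Ω, FiniteDimensional ℚ F ∧ ∀ σ ∈ F.fixingSubgroup, x σ = 0)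
    (hylev : ∃ F : IntermediateField ℚ Ω, FiniteDimensional ℚ F ∧
      ∀ σ ∈ F.fixingSubgroup, y σ = 0) :
    ∃ Φ : GQ → k, (∀ g : GQ, ∀ u ∈ rootField.fixingSubgroup, Φ (g * u) = Φ g) ∧
      ∀ g ∈ P.decompositionSubgroup ℚ, ∀ h ∈ P.decompositionSubgroup ℚ,
        (x g * (r g * y h * r g⁻¹)).trace = Φ g + Φ h + Φ (g * h) := by
  obtain ⟨φ, hφ⟩ := Fermat.Agent.Frobenius.exists_isFrobeniusAt_qbar Nat.prime_two hP
  have hT := frobenius_two_transp hr hD8 hP hφ
  have hdec := residual_decomp hr hD8 hcont hP hφ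
  obtain ⟨e, M, M₂, hM0, hMt, hM₂0, hM₂t, -, hxf⟩ :=
    exists_crys_form hr hD8 hcont hP hφ hx hx0 hxl hxlev
  obtain ⟨e', M', M₂', hM0', hMt', hM₂0', hM₂t', hξ', hyf⟩ :=
    exists_crys_form hr hD8 hcont hP hφ hy hy0 hyl hylev
  set t := r φ with ht
  have hMM : (M * M').trace = 0 :=
    trace_mul_eq_zero hT.1 (hr.det_one φ) hT.2 hM0 hM0' hMt hMt'
  have htt : (t * t).trace = 0 := by
    rw [transp_sq hr hT, trace_one]
    simp [CharTwo.two_eq_zero]
  have h2 : (2 : k) = 0 := CharTwo.two_eq_zero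
  set c₂ := (M * M₂').trace with hc₂
  set c₃ := (M₂ * M').trace with hc₃
  set c₄ := (M₂ * M₂').trace with hc₄
  let A : GQ → k := fun g => bitHom k (loBit (dz g))
  let F : GQ → k := fun g => bitHom k (hiBit (dz g))
  let H : GQ → k := fun g => bitHom k (hiBit (my g))
  let X : GQ → k := fun g => bitHom k (chi g)
  refine ⟨fun g => c₂ * (H g + F g) + c₃ * (H g + F g + A g * X g) + c₄ * F g +
    e * e' * (F g * A g + F g), fun g u hu => ?_, fun g hg h hh => ?_⟩
  · obtain ⟨h1, h2, h3⟩ := rootField_fix hu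
    simp only [A, F, H, X, dz_mul, h1, add_zero, chi_mul, h2, my_mul, h3, mul_zero]
  have hA : A (g * h) = A g + A h := by simp only [A, loBit_dz_mul, map_add]
  have hF : F (g * h) = F g + F h + A g * A h := by
    simp only [A, F, hiBit_dz_mul, map_add, map_mul]
  have hX : X (g * h) = X g + X h := by simp only [X, chi_mul, map_add]
  have hH : H (g * h) = H g + H h + (A g + X g) * A h := by
    simp only [A, X, H, hiBit_my_mul, map_add, map_mul]
  have hAA : A g * A g = A g := by
    rcases (by decide : ∀ z : ZMod 2, z = 0 ∨ z = 1) (loBit (dz g)) with h' | h' <;> simp [A, h']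
  have hAA' : A h * A h = A h := by
    rcases (by decide : ∀ z : ZMod 2, z = 0 ∨ z = 1) (loBit (dz h)) with h' | h' <;> simp [A, h']
  have hconj : r g * y h * r g⁻¹ = y h + (A g * (e' * A h)) • t := by
    rcases hdec g hg with ⟨h1, h2'⟩ | ⟨h1, h2'⟩
    · have : r g⁻¹ = 1 := by simpa [h2'] using r_mul_inv r g
      simp [A, h1, h2', this]
    · have : r g⁻¹ = t := by
        calc r g⁻¹ = r g⁻¹ * (r g * t) := by rw [h2', transp_sq hr hT, mul_one]
          _ = t := by rw [← mul_assoc, r_inv_mul, one_mul]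
      rw [h2', this, conj_transp hT.1 (hr.det_one φ) (hy0 h), hξ' h hh]
      simp [A, h1, ht]
  rw [hconj, hxf g hg, hyf h hh]
  simp only [mul_add, add_mul, smul_mul_assoc, mul_smul_comm, trace_add, trace_smul, smul_eq_mul,
    trace_mul_comm t M', trace_mul_comm t M₂', htt, hMt, hMt', hMM, hM₂t, hM₂t', ← hc₂, ← hc₃,
    ← hc₄, mul_zero, zero_add, add_zero]
  simp only [hH, hF, hX, hA]
  simp only [A, F, H, X] at *
  generalize bitHom k (loBit (dz g)) = a at *
  generalize bitHom k (loBit (dz h)) = a' at *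
  generalize bitHom k (hiBit (dz g)) = f
  generalize bitHom k (hiBit (dz h)) = f'
  generalize bitHom k (hiBit (my g)) = m
  generalize bitHom k (hiBit (my h)) = m'
  generalize bitHom k (chi g) = χ
  generalize bitHom k (chi h) = χ'
  ring_nf
  simp only [pow_two, hAA, hAA']
  ring_nf
  simp only [h2, show (3 : k) = 1 by linear_combination h2, mul_zero, add_zero,
    mul_one]

end Fermat.Agent.TwoAdic.Selmer
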