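import Fermat.Agent.TwoAdic.Selmer.AuxPrimes
import Fermat.Agent.TwoAdic.Selmer.CrysCup

/-!
# Auxiliary primes of the crystalline problem

The auxiliary primes of the crystalline problem: same conditions as `auxSpace` away from `2`,
the crystalline condition (without condition at Frobenius) at `2`.
-/

set_option autoImplicit false

noncomputable section

namespace Fermat.Agent.TwoAdic.Selmer

open GaloisRep Fermat.Agent.DefRing Fermat.Agent.TameInertia Fermat.Agent.Deform
  Fermat.Agent.GalCoh ExtCitation Matrix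

local notation "Ω" => AlgebraicClosure ℚ

variable {k : Type} [Field k] [CharP k 2] {D : ℕ} {r : MRep k}

/-- The crystalline condition at all places over `2`. -/
def IsCrysTwo (r : MRep k) (c : GQ → Matrix (Fin 2) (Fin 2) k) : Prop :=
  ∀ P : ValuationSubring Ω, P.LiesOverPrime 2 → IsCrysAt r c P

/-- The classes with values in the projective summand, local at `D` and `A`, crystalline at `2`. -/
def crysSpace (D : ℕ) (r : MRep k) (g₀ : GQ) (A : Finset ℕ) :
    Set (GQ → Matrix (Fin 2) (Fin 2) k) :=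
  {c | IsCoc r c ∧ (levelsS (primesOf (bad D A))).IsCts₁ c ∧ (∀ g, (c g).trace = 0) ∧
    (∀ g, avg (r g₀) (c g) = 0) ∧
    (∀ p ∈ D.primeFactors ∪ A, ∀ P : ValuationSubring Ω, P.LiesOverPrime p → IsLocalAt r c P) ∧
    IsCrysTwo r c}

theorem exists_finite_level {c : GQ → Matrix (Fin 2) (Fin 2) k} (hc : IsCoc r c)
    {S : Finset Nat.Primes} (hcts : (levelsS S).IsCts₁ c) :
    ∃ F : IntermediateField ℚ Ω, FiniteDimensional ℚ F ∧ ∀ σ ∈ F.fixingSubgroup, c σ = 0 := by
  obtain ⟨U, ⟨F, hF, hFU⟩, hU⟩ := hcts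
  refine ⟨F, hF.1, fun σ hσ => ?_⟩
  have := hU 1 σ (hFU hσ)
  rwa [one_mul, hc.map_one] at this

theorem finite_crysSpace [Finite k] {g₀ : GQ} (A : Finset ℕ)
    (hlev : ∃ U, (levelsS (primesOf (bad D A))).mem U ∧ ∀ σ ∈ U, r σ = 1) :
    Finite (crysSpace D r g₀ A) := by
  have : Finite (DualNumber k) := inferInstanceAs (Finite (k × k))
  obtain ⟨U, hU, hN⟩ :=
    exists_level_forall_hom (primesOf (bad D A)) (Matrix (Fin 2) (Fin 2) (DualNumber k))
  have := (levelsS (primesOf (bad D A))).finiteIndex hU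
  have : Finite (GQ ⧸ U) := Subgroup.finite_quotient_of_finiteIndex
  refine Finite.of_injective (fun (c : crysSpace D r g₀ A) (x : GQ ⧸ U) => c.1 x.out) fun c c' h => ?_
  refine Subtype.ext (funext fun g => ?_)
  obtain ⟨u, hu⟩ := QuotientGroup.mk_out_eq_mul U g
  have key : ∀ d : crysSpace D r g₀ A, d.1 ((g : GQ ⧸ U).out) = d.1 g := fun d => by
    obtain ⟨hd, ⟨V, hV, hV'⟩, -⟩ := d.2
    obtain ⟨W, hW, hρW⟩ := hlev
    have hlift := hN (liftOf r d.1 (isCoc_iff_adRep.mp hd))
      ⟨V ⊓ W, (levelsS _).inf_mem hV hW, fun s hs => by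
        have h0 : d.1 s = 0 := by
          have := hV' 1 s hs.1
          rwa [one_mul, hd.map_one] at this
        show dualMat _ _ = 1
        rw [h0, hρW s hs.2, zero_mul, dualMat_one]⟩ u u.2
    rw [← dualMat_one] at hlift
    change dualMat _ _ = _ at hlift
    have h1 : r u = 1 := by simpa using congrArg (fun A => A.map TrivSqZeroExt.fst) hlift
    have h2 := congrArg (fun A => A.map TrivSqZeroExt.snd) hlift
    simp only [snd_dualMat, h1, mul_one] at h2
    rw [hu, hd, h2, mul_zero, zero_mul, zero_add]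
  rw [← key c, ← key c']
  exact congrFun h (g : GQ ⧸ U)

section

attribute [local instance] ZMod.algebra

variable (hr : IsDihedralResidual D r) (hcont : IsCont r) (hsf : Squarefree D) (hD8 : D % 8 = 3)

include hr hcont hsf hD8 in
/-- The local orthogonality of two classes with the crystalline conditions. -/
theorem cup_mem_B2 {A : Finset ℕ} (hA : IsAuxSet D r A) {S : Finset Nat.Primes}
    {x y : GQ → Matrix (Fin 2) (Fin 2) k} (hx : IsCoc r x) (hy : IsCoc r y)
    (hx0 : ∀ g, (x g).trace = 0) (hy0 : ∀ g, (y g).trace = 0)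
    (hxc : (levelsS S).IsCts₁ x) (hyc : (levelsS S).IsCts₁ y)
    {p : Nat.Primes} (hp : (p : ℕ) ∈ bad D A)
    (hloc : (p : ℕ) ≠ 2 → ∀ P : ValuationSubring Ω, P.LiesOverPrime (p : ℕ) →
      IsLocalAt r x P ∧ IsLocalAt r y P)
    (hx2 : IsCrysTwo r x) (hy2 : IsCrysTwo r y) (μ : k →ₗ[ZMod 2] ZMod 2) :
    (fun d : primeLocalGaloisGroup p × primeLocalGaloisGroup p =>
        cupFn r μ x y (primeLocalToGlobal p d.1, primeLocalToGlobal p d.2)) ∈
      B2 (localLevels (primeLocalToGlobal p)) ((muRep 2).comp (primeLocalToGlobal p)) := by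
  have : Fact (p : ℕ).Prime := ⟨p.2⟩
  have hP := Descent.padicPlace_liesOver (p : ℕ)
  have hmem : ∀ g, primeLocalToGlobal p g ∈ (padicPlace (p : ℕ)).decompositionSubgroup ℚ :=
    localGaloisToGlobal_mem_decompositionSubgroup (p : ℕ)
  generalize padicPlace (p : ℕ) = P at hP hmem
  by_cases hp2 : (p : ℕ) = 2
  · rw [hp2] at hP
    obtain ⟨Φ, hΦ, hΦe⟩ := exists_cup_coboundary hr hD8 hcont hP hx hy hx0 hy0 (hx2 P hP)
      (hy2 P hP) (exists_finite_level hx hxc) (exists_finite_level hy hyc)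
    refine mem_B2_iff.mpr ⟨fun g => μ (Φ (primeLocalToGlobal p g)), ?_, ?_⟩
    · refine ⟨Crys.rootField.fixingSubgroup.comap (primeLocalToGlobal p),
        ⟨_, ⟨Crys.rootField, inferInstance, le_rfl⟩, le_rfl⟩, fun g s hs => ?_⟩
      show μ (Φ (primeLocalToGlobal p (g * s))) = _
      rw [map_mul, hΦ _ _ hs]
    · funext ⟨g, h⟩
      show muRep 2 (primeLocalToGlobal p g) (μ (Φ (primeLocalToGlobal p h))) -
        μ (Φ (primeLocalToGlobal p (g * h))) + μ (Φ (primeLocalToGlobal p g)) = _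
      rw [muRep_two, CharTwo.sub_eq_add, map_mul, cupFn, hΦe _ (hmem g) _ (hmem h), map_add,
        map_add]
      abel
  · obtain ⟨hxl, hyl⟩ := hloc hp2 P hP
    convert Submodule.zero_mem _ using 1
    funext ⟨g, h⟩
    show μ _ = 0
    rw [trace_cup_eq_zero (hasLocalTransp_bad hr hcont hsf hD8 hA hp hP) hx hy hx0 hy0 hxl hyl
      hr.det_one (hmem g) (hmem h), map_zero]

variable {g₀ : GQ} (hg₀ : ¬ IsTransp r g₀) (hg₁ : r g₀ ≠ 1)

include hr hcont hsf hD8 hg₀ hg₁ in
/-- **Auxiliary primes** killing the crystalline classes with values in the projective summand. -/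
theorem exists_auxCrys [Finite k] (hrec : Reciprocity 2) (A₀ : Finset ℕ) (hA₀ : IsAuxSet D r A₀)
    (X : Finset ℕ) :
    ∃ A, A₀ ⊆ A ∧ IsAuxSet D r A ∧ (∀ q ∈ A, q ∉ A₀ → q ∉ X) ∧
      ∀ c ∈ crysSpace D r g₀ A, ∀ h, r h = 1 → c h = 0 := by
  classical
  have hD : 0 < D := by omega
  suffices h : ∀ n, ∀ A, A₀ ⊆ A → IsAuxSet D r A → (∀ q ∈ A, q ∉ A₀ → q ∉ X) →
      Nat.card (crysSpace D r g₀ A) = n → ∃ A, A₀ ⊆ A ∧ IsAuxSet D r A ∧
        (∀ q ∈ A, q ∉ A₀ → q ∉ X) ∧ ∀ c ∈ crysSpace D r g₀ A, ∀ h, r h = 1 → c h = 0 from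
    h _ A₀ subset_rfl hA₀ (fun q h1 h2 => absurd h1 h2) rfl
  intro n
  induction n using Nat.strong_induction_on with
  | _ n ih =>
    intro A hsub hA hX hn
    by_cases hall : ∀ c ∈ crysSpace D r g₀ A, ∀ h, r h = 1 → c h = 0
    · exact ⟨A, hsub, hA, hX, hall⟩
    push Not at hall
    obtain ⟨c, hc, h, hh, hne⟩ := hall
    obtain ⟨hcc, hccts, hc0, hcav, hcl, hc2⟩ := hc
    obtain ⟨σ, hσ, hσc⟩ := exists_detect hr hg₀ hg₁ hD hcc hc0 hcav hh hne
    have hbad : D.primeFactors ⊆ bad D A :=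
      (Finset.subset_union_left).trans (Finset.subset_insert _ _)
    have hlev := trivial_levelS hr hcont hbad hD.ne'
    obtain ⟨F, hF, hFlev⟩ :=
      (isLift_liftOf hcc (compat_levelsS _) hlev hccts).level'
    rw [cocOf_liftOf] at hFlev
    obtain ⟨q, hq, hqX, P, hP, φ, hφ, hag⟩ := Fermat.Agent.Chebotarev.exists_isFrobeniusAt_eqOn
      F σ (X ∪ bad D A)
    simp only [bad, Finset.mem_union, Finset.mem_insert, not_or] at hqX
    obtain ⟨hqX, hq2, hqD', hqA⟩ := hqX
    have hqD : ¬ q ∣ D := fun h => hqD' (Nat.mem_primeFactors.mpr ⟨hq, h, hD.ne'⟩)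
    have hs : σ⁻¹ * φ ∈ F.fixingSubgroup := by
      rw [IntermediateField.mem_fixingSubgroup_iff]
      intro z hz
      rw [AlgEquiv.mul_apply, hag z hz, ← AlgEquiv.mul_apply, inv_mul_cancel, AlgEquiv.one_apply]
    have hφσ : σ * (σ⁻¹ * φ) = φ := mul_inv_cancel_left σ φ
    have hrφ : r φ = r σ := by rw [← hφσ, map_mul, (hFlev _ hs).1, mul_one]
    have hcφ : c φ = c σ := by rw [← hφσ, hcc, (hFlev _ hs).2, mul_zero, zero_mul, zero_add]
    have hqS : (⟨q, hq⟩ : Nat.Primes) ∉ primesOf (bad D A) := by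
      intro h'
      have := mem_primesOf.mp h'
      change q ∈ bad D A at this
      simp only [bad, Finset.mem_insert, Finset.mem_union] at this
      tauto
    have hcI : ∀ Q : ValuationSubring Ω, Q.LiesOverPrime q →
        ∀ τ ∈ Q.inertiaSubgroupIn ℚ, c τ = 0 := fun Q hQ τ hτ => cts_inertia hcc hccts hqS hQ hτ
    have hall : ∀ Q : ValuationSubring Ω, Q.LiesOverPrime q → ∀ φ' : GQ, Q.IsFrobeniusAt φ' q →
        IsTransp r φ' ∧ (c φ' * r φ').trace ≠ 0 := by
      intro Q hQ φ' hφ'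
      obtain ⟨g, rfl⟩ := Fermat.Agent.Frobenius.exists_smul_eq_of_liesOverPrime_qbar hq hP hQ
      have hτ := Fermat.Agent.Frobenius.isFrobeniusAt_inv_mul_mem_inertia
        (Fermat.Agent.Frobenius.isFrobeniusAt_conj hφ g) hφ'
      obtain ⟨t, ht⟩ : ∃ t, t = g * φ * g⁻¹ := ⟨_, rfl⟩
      rw [← ht] at hτ
      have h1 := hr.unramified q hq hqD _ hQ _ hτ
      have h2 : r φ' = r t := by
        rw [← mul_inv_cancel_left t φ', map_mul, h1, mul_one]
      have h3 : c φ' = c t := by
        rw [← mul_inv_cancel_left t φ', hcc, hcI _ hQ _ hτ, mul_zero, zero_mul, zero_add]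
      have h4 : r t = r g * r σ * r g⁻¹ := by rw [ht, map_mul, map_mul, hrφ]
      rw [IsTransp, h2, h3]
      refine ⟨⟨by rw [h4, conj_trace, hσ.1], fun e => hσ.2 ?_⟩, ?_⟩
      · rw [h4] at e
        have := congrArg (fun Z => r g⁻¹ * Z * r g) e
        simpa [mul_assoc, r_inv_mul, ← mul_assoc (r g⁻¹) (r g)] using this
      · rw [ht, hcc.conj, ← ht, add_mul, add_mul, trace_add, trace_add, hcφ,
          show r t * c g * r t⁻¹ * r t = r t * c g by rw [mul_assoc _ (r t⁻¹), r_inv_mul, mul_one],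
          trace_mul_comm (r t) (c g), add_assoc, CharTwo.add_self_eq_zero, add_zero, h4, conj_mul,
          conj_trace]
        exact hσc
    have hA' : IsAuxSet D r (insert q A) := fun p hp => by
      rcases Finset.mem_insert.mp hp with rfl | hp
      · exact ⟨hq, hq2, hqD, fun Q hQ φ' hφ' => (hall Q hQ φ' hφ').1⟩
      · exact hA p hp
    have hbad' : D.primeFactors ⊆ bad D (insert q A) :=
      (Finset.subset_union_left).trans (Finset.subset_insert _ _)
    have hlev' := trivial_levelS hr hcont hbad' hD.ne'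
    have hmono : primesOf (bad D A) ⊆ primesOf (bad D (insert q A)) := fun p hp => by
      simp only [mem_primesOf, bad, Finset.mem_insert, Finset.mem_union] at hp ⊢
      tauto
    have hxc' : (levelsS (primesOf (bad D (insert q A)))).IsCts₁ c := by
      obtain ⟨U, hU, hU'⟩ := hccts
      exact ⟨U, by simpa using compat_levelsS_mono hmono hU, hU'⟩
    have hsubset : crysSpace D r g₀ (insert q A) ⊆ crysSpace D r g₀ A := by
      rintro y ⟨hyc, hycts, hy0, hyav, hyl, hy2⟩
      have hq' : q ∈ bad D (insert q A) := by simp [bad]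
      have hyI : ∀ Q : ValuationSubring Ω, Q.LiesOverPrime q →
          ∀ τ ∈ Q.inertiaSubgroupIn ℚ, y τ = 0 := by
        intro Q hQ τ hτ
        have hscal := isScal_of_swap_of (S := primesOf (bad D (insert q A))) hrec hr hD
          (mem_primesOf.mpr (Finset.mem_insert_self _ _)) hlev' ⟨q, hq⟩ (mem_primesOf.mpr hq')
          hq2 hqD hcc hyc hc0 hy0 hxc' hycts
          (fun p hp hpq μ => cup_mem_B2 hr hcont hsf hD8 hA' hcc hyc hc0 hy0 hxc' hycts
            (mem_primesOf.mp hp)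
            (fun hp2 Q' hQ' => by
              have hpA : (p : ℕ) ∈ D.primeFactors ∪ A := by
                have : (p : ℕ) ≠ q := fun e => hpq (Subtype.ext e)
                simp only [bad, mem_primesOf, Finset.mem_insert, Finset.mem_union] at hp ⊢
                tauto
              have hpA' : (p : ℕ) ∈ D.primeFactors ∪ insert q A := by
                simp only [Finset.mem_union, Finset.mem_insert] at hpA ⊢
                tauto
              exact ⟨hcl _ hpA Q' hQ', hyl _ hpA' Q' hQ'⟩)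
            hc2 hy2 μ)
          hcI hall (fun Q' hQ' => hyl q (by simp) Q' hQ') hQ hτ
        exact (avg_of_isScal (cube_eq_one hr hD hg₀) hscal).symm.trans (hyav τ)
      refine ⟨hyc, cts_of_inertia hr hyc hycts hlev' (fun p hp hpD => hp (mem_primesOf.mpr
        (hbad (Nat.mem_primeFactors.mpr ⟨p.2, hpD, hD.ne'⟩)))) (fun p hp hp' Q hQ τ hτ => ?_),
        hy0, hyav, fun p hp => hyl p (by
          simp only [Finset.mem_insert, Finset.mem_union] at hp ⊢
          tauto), hy2⟩
      have hpq : (p : ℕ) = q := by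
        simp only [mem_primesOf, bad, Finset.mem_insert, Finset.mem_union] at hp hp'
        tauto
      exact hyI Q (hpq ▸ hQ) τ hτ
    have hnotin : c ∉ crysSpace D r g₀ (insert q A) := fun hc' => by
      obtain ⟨φ', hφ'⟩ := Fermat.Agent.Frobenius.exists_isFrobeniusAt_qbar hq hP
      exact (hall P hP φ' hφ').2 (hc'.2.2.2.2.1 q (by simp) P hP φ' hφ'.mem_decompositionSubgroup)
    have hfin := finite_crysSpace (g₀ := g₀) A hlev
    have hlt : Nat.card (crysSpace D r g₀ (insert q A)) < n := by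
      rw [← hn, Nat.card_coe_set_eq, Nat.card_coe_set_eq]
      exact Set.ncard_lt_ncard (ssubset_iff_subset_ne.mpr
        ⟨hsubset, fun e => hnotin (e.symm ▸ ⟨hcc, hccts, hc0, hcav, hcl, hc2⟩)⟩) (Set.toFinite _)
    exact ih _ hlt (insert q A) (hsub.trans (Finset.subset_insert _ _)) hA'
      (fun p hp hpA₀ => by
        rcases Finset.mem_insert.mp hp with rfl | hp
        · exact hqX
        · exact hX p hp hpA₀) rfl


end

end Fermat.Agent.TwoAdic.Selmer
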