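import Fermat.Agent.TwoAdic.Selmer.CrysTangent

/-!
# The second order argument of the key lemma

The second order argument of the key lemma.

`exists_secondOrder`: when `t ^ 2 ∉ J + (t ^ 3)` the quotient by `J + (t ^ 3)` contains the dual
numbers, with `ε ↦ t ^ 2`.  `secondOrder_false`: a crystalline deformation over the dual numbers
becoming ordinary there with unit root `1 + t` would give a crystalline class with trace `1` at
Frobenius.
-/

set_option autoImplicit false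

noncomputable section

open IsLocalRing GaloisRep Fermat.Agent.DefRing Fermat.Agent.TameInertia Fermat.Agent.Deform
  Fermat.Agent.GalCoh Matrix

namespace Fermat.Agent.TwoAdic.Selmer

attribute [local instance 10000] dualAlgebra

local notation "Ω" => AlgebraicClosure ℚ

variable {𝒪 : Type} [CommRing 𝒪] [IsLocalRing 𝒪]

/-- The square of the ideal generated by `I` and `t`. -/
theorem mul_self_le_sup {R : Type} [CommRing R] (I : Ideal R) (t : R) :
    (I ⊔ Ideal.span {t}) * (I ⊔ Ideal.span {t}) ≤ I ⊔ Ideal.span {t ^ 2} := by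
  refine Ideal.mul_le.mpr fun a ha b hb => ?_
  obtain ⟨i, hi, x, hx, rfl⟩ := Submodule.mem_sup.mp ha
  obtain ⟨j, hj, y, hy, rfl⟩ := Submodule.mem_sup.mp hb
  obtain ⟨u, rfl⟩ := Ideal.mem_span_singleton'.mp hx
  obtain ⟨v, rfl⟩ := Ideal.mem_span_singleton'.mp hy
  rw [show (i + u * t) * (j + v * t) = ((j + v * t) * i + u * t * j) + u * v * t ^ 2 by ring]
  exact add_mem (Ideal.mem_sup_left (add_mem (I.mul_mem_left _ hi) (I.mul_mem_left _ hj)))
    (Ideal.mem_sup_right (Ideal.mem_span_singleton'.mpr ⟨u * v, rfl⟩))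

/-- If `t ^ 2` is in `I + (t ^ 3)` it is in `I`. -/
theorem sq_mem_of_mem_sup_cube {R : Type} [CommRing R] [IsLocalRing R] (I : Ideal R) {t : R}
    (ht : t ∈ maximalIdeal R) (h : t ^ 2 ∈ I ⊔ Ideal.span {t ^ 3}) : t ^ 2 ∈ I := by
  obtain ⟨j, hj, w, hw, hjw⟩ := Submodule.mem_sup.mp h
  obtain ⟨u, rfl⟩ := Ideal.mem_span_singleton'.mp hw
  have hu : IsUnit (1 - u * t) := by
    rcases IsLocalRing.isUnit_or_isUnit_one_sub_self (u * t) with h' | h'
    · exact absurd h' (Ideal.mul_mem_left _ u ht)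
    · exact h'
  obtain ⟨v, hv⟩ := hu.exists_left_inv
  rw [show t ^ 2 = v * j by linear_combination (-(t ^ 2)) * hv + (-v) * hjw]
  exact I.mul_mem_left v hj

/-- Cayley–Hamilton: the ordinary equation at Frobenius on a matrix of determinant one. -/
theorem root_eq_of_ordinary {B : Type} [CommRing B] {M : Matrix (Fin 2) (Fin 2) B} {α : B}
    (hd : M.det = 1) (h : (α • M - 1) * (M - α • 1) = 0) : α * M.trace = α ^ 2 + 1 := by
  rw [det_fin_two] at hd
  have e := fun i j => congrFun (congrFun h i) j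
  have e00 := e 0 0
  have e01 := e 0 1
  simp only [mul_apply, Fin.sum_univ_two, Matrix.sub_apply, Matrix.smul_apply, smul_eq_mul,
    Matrix.zero_apply, one_apply_eq, one_apply_ne (show (0 : Fin 2) ≠ 1 by decide),
    one_apply_ne (show (1 : Fin 2) ≠ 0 by decide)] at e00 e01
  rw [trace_fin_two]
  linear_combination M 1 1 * e00 - M 1 0 * e01
    - (α * (M 0 0 + M 1 1) - α ^ 2 - 1) * hd + α * M 1 1 * hd

variable [Finite (ResidueField 𝒪)] [CharP (ResidueField 𝒪) 2]

omit [Finite (ResidueField 𝒪)] in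
/-- The dual numbers inside the quotient by `J + (t ^ 3)`. -/
theorem exists_secondOrder {R : Type} [CommRing R] [IsLocalRing R] [IsNoetherianRing R]
    [Algebra 𝒪 R] (hl : IsLocalHom (algebraMap 𝒪 R))
    (hs : Function.Surjective (residue R ∘ algebraMap 𝒪 R)) (J : Ideal R) (t : R)
    (hJ : (maximalIdeal 𝒪).map (algebraMap 𝒪 R) ≤ J) (hJle : J ≤ maximalIdeal R)
    (htm : t ∈ maximalIdeal R) (hsup : maximalIdeal R ≤ J ⊔ Ideal.span {t})
    (h3 : t ^ 2 ∉ J ⊔ Ideal.span {t ^ 3}) :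
    ∃ (B : Type) (_ : CommRing B) (_ : IsLocalRing B) (_ : Algebra 𝒪 B) (q : R →ₐ[𝒪] B)
      (ι : DualNumber (ResidueField 𝒪) →ₐ[𝒪] B), IsArtinianTestAlgebra 𝒪 B ∧ IsLocalHom (q : R →+* B) ∧
      Function.Injective ι ∧ (2 : B) = 0 ∧
      ι (TrivSqZeroExt.inr (1 : (ResidueField 𝒪))) = q t * q t ∧ ι (TrivSqZeroExt.inr (1 : (ResidueField 𝒪))) * q t = 0 ∧
      ∀ z ∈ J ⊔ Ideal.span {t ^ 2}, ∃ w, ι w = q z := by
  set I := J ⊔ Ideal.span {t ^ 3} with hI
  have hIle : I ≤ maximalIdeal R :=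
    sup_le hJle ((Ideal.span_singleton_le_iff_mem _).mpr (Ideal.pow_mem_of_mem _ htm 3 (by omega)))
  have : Nontrivial (R ⧸ I) := Ideal.Quotient.nontrivial_iff.mpr fun h' =>
    (maximalIdeal.isMaximal R).ne_top (top_le_iff.mp (h' ▸ hIle))
  have hloc : IsLocalRing (R ⧸ I) :=
    IsLocalRing.of_surjective' (Ideal.Quotient.mk I) Ideal.Quotient.mk_surjective
  have hmk : IsLocalHom (Ideal.Quotient.mk I) :=
    isLocalHom_of_surjective' _ Ideal.Quotient.mk_surjective
  let q : R →ₐ[𝒪] R ⧸ I := Ideal.Quotient.mkₐ 𝒪 I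
  have hq0 : ∀ z ∈ I, q z = 0 := fun z hz => Ideal.Quotient.eq_zero_iff_mem.mpr hz
  have hB : IsArtinianTestAlgebra 𝒪 (R ⧸ I) := by
    refine ⟨RingHom.isLocalHom_comp (Ideal.Quotient.mk I) (algebraMap 𝒪 R), fun z => ?_, ?_⟩
    · obtain ⟨c, rfl⟩ := IsLocalRing.residue_surjective z
      obtain ⟨c, rfl⟩ := Ideal.Quotient.mk_surjective c
      obtain ⟨u, hu⟩ := hs (residue R c)
      exact ⟨u, congrArg (ResidueField.map (Ideal.Quotient.mk I)) hu⟩
    · rw [isArtinianRing_iff_isNilpotent_maximalIdeal]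
      refine ⟨3, ?_⟩
      have hmap : (maximalIdeal R).map (Ideal.Quotient.mk I) = maximalIdeal (R ⧸ I) := by
        simpa using DefRing.map_maximalIdeal_of_surjective (Ideal.Quotient.mk I)
          Ideal.Quotient.mk_surjective 1
      rw [← hmap, ← Ideal.map_pow, Ideal.zero_eq_bot, Ideal.map_eq_bot_iff_le_ker, Ideal.mk_ker,
        pow_succ, pow_two]
      refine (Ideal.mul_mono ((Ideal.mul_mono hsup hsup).trans (mul_self_le_sup J t)) hsup).trans ?_
      refine Ideal.mul_le.mpr fun a ha b hb => ?_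
      obtain ⟨i, hi, x, hx, rfl⟩ := Submodule.mem_sup.mp ha
      obtain ⟨j, hj, y, hy, rfl⟩ := Submodule.mem_sup.mp hb
      obtain ⟨u, rfl⟩ := Ideal.mem_span_singleton'.mp hx
      obtain ⟨v, rfl⟩ := Ideal.mem_span_singleton'.mp hy
      rw [show (i + u * t ^ 2) * (j + v * t) = ((j + v * t) * i + u * t ^ 2 * j) + u * v * t ^ 3 by
        ring]
      exact add_mem (Ideal.mem_sup_left (add_mem (J.mul_mem_left _ hi) (J.mul_mem_left _ hj)))
        (Ideal.mem_sup_right (Ideal.mem_span_singleton'.mpr ⟨u * v, rfl⟩))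
  have h2 : (2 : R ⧸ I) = 0 := by
    rw [← map_ofNat q 2]
    refine hq0 _ (Ideal.mem_sup_left (hJ ?_))
    rw [← map_ofNat (algebraMap 𝒪 R) 2]
    refine Ideal.mem_map_of_mem _ ?_
    rw [← residue_eq_zero_iff, map_ofNat]
    exact CharTwo.two_eq_zero
  have hTt : q (t ^ 2) * q t = 0 := by
    rw [← map_mul]
    exact hq0 _ (Ideal.mem_sup_right (Ideal.mem_span_singleton.mpr (by rw [← pow_succ])))
  have hTT : q (t ^ 2) * q (t ^ 2) = 0 := by
    rw [show q (t ^ 2) * q (t ^ 2) = q (t ^ 2) * q t * q t by rw [map_pow]; ring, hTt, zero_mul]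
  let ι₀ : (ResidueField 𝒪) →+* R ⧸ I :=
    Ideal.Quotient.lift (maximalIdeal 𝒪) (algebraMap 𝒪 (R ⧸ I)) fun o ho =>
      Ideal.Quotient.eq_zero_iff_mem.mpr (Ideal.mem_sup_left (hJ (Ideal.mem_map_of_mem _ ho)))
  have hι₀ : ∀ o, ι₀ (residue 𝒪 o) = algebraMap 𝒪 (R ⧸ I) o := fun o => rfl
  let ι : DualNumber (ResidueField 𝒪) →ₐ[𝒪] R ⧸ I :=
    { toFun := fun z => ι₀ z.fst + ι₀ z.snd * q (t ^ 2)
      map_one' := by simp
      map_zero' := by simp
      map_add' := fun a b => by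
        simp only [TrivSqZeroExt.fst_add, TrivSqZeroExt.snd_add, map_add]
        ring
      map_mul' := fun a b => by
        simp only [TrivSqZeroExt.fst_mul, DualNumber.snd_mul, map_add, map_mul]
        linear_combination (-(ι₀ a.snd * ι₀ b.snd)) * hTT
      commutes' := fun o => by simp [dual_algebraMap, hι₀] }
  have hι : ∀ z, ι z = ι₀ z.fst + ι₀ z.snd * q (t ^ 2) := fun z => rfl
  have hι1 : ι (TrivSqZeroExt.inr (1 : (ResidueField 𝒪))) = q (t ^ 2) := by
    rw [hι, TrivSqZeroExt.fst_inr, TrivSqZeroExt.snd_inr, map_zero, map_one, one_mul, zero_add]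
  have hιinj : Function.Injective ι := by
    rw [injective_iff_map_eq_zero]
    intro z hz
    rw [hι] at hz
    have h1 : z.fst = 0 := by
      by_contra hne
      have := (TrivSqZeroExt.isUnit_iff_isUnit_fst.mpr (isUnit_iff_ne_zero.mpr hne) :
        IsUnit (z : DualNumber (ResidueField 𝒪))).map ι
      rw [hι, hz] at this
      exact not_isUnit_zero this
    rw [h1, map_zero, zero_add] at hz
    refine TrivSqZeroExt.ext h1 ?_
    by_contra hne
    exact h3 (Ideal.Quotient.eq_zero_iff_mem.mp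
      (((isUnit_iff_ne_zero.mpr hne).map ι₀).mul_right_eq_zero.mp hz))
  refine ⟨R ⧸ I, inferInstance, hloc, inferInstance, q, ι, hB, hmk, hιinj, h2, ?_, ?_,
    fun z hz => ?_⟩
  · rw [hι1, map_pow, pow_two]
  · rw [hι1, hTt]
  · obtain ⟨j, hj, w, hw, rfl⟩ := Submodule.mem_sup.mp hz
    obtain ⟨c, rfl⟩ := Ideal.mem_span_singleton'.mp hw
    obtain ⟨o, ho⟩ := exists_algebraMap_add_mem hs c
    refine ⟨TrivSqZeroExt.inr (residue 𝒪 o), ?_⟩
    rw [hι, TrivSqZeroExt.fst_inr, map_zero, zero_add, TrivSqZeroExt.snd_inr, hι₀,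
      ← AlgHom.commutes q, ← map_mul, ← sub_eq_zero, ← map_sub]
    refine hq0 _ ?_
    obtain ⟨a, ha, d, hd, had⟩ := Submodule.mem_sup.mp (hsup ho)
    obtain ⟨v, rfl⟩ := Ideal.mem_span_singleton'.mp hd
    rw [show algebraMap 𝒪 R o * t ^ 2 - (j + c * t ^ 2) = -(j + a * t ^ 2) - v * t ^ 3 by
      linear_combination t ^ 2 * had]
    exact sub_mem (Ideal.mem_sup_left (J.neg_mem (add_mem hj (J.mul_mem_right _ ha))))
      (Ideal.mem_sup_right (Ideal.mem_span_singleton'.mpr ⟨v, rfl⟩))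

variable (D : NormalData 𝒪) {E : LiftData} (hr : IsDihedralResidual E.D D.rbar)
  (hc : IsCont D.rbar) {g₀ : GQ} (hg₀ : ¬ IsTransp D.rbar g₀) (hg₁ : D.rbar g₀ ≠ 1) {A : Finset ℕ}
  (hA : IsAuxSet E.D D.rbar A) (hA' : ∀ q ∈ A, q.Prime ∧ q ≠ 2 ∧ ¬ q ∣ E.D) {f : ℕ → ℕ}
  (hf : IsTWPattern D E f) (K : Pair.KummerPair)
  (hker : ∀ c ∈ crysSpace E.D D.rbar g₀ A, ∀ h, D.rbar h = 1 → c h = 0)

include hr hc hg₀ hg₁ hA hf hker in
/-- No deformation over the dual numbers becomes ordinary with unit root `1 + t`. -/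
theorem secondOrder_false
    (N : TangentSet D ((E.withAux A hA').pairCond ((E.D.primeFactors.erase E.ℓ₀).image f)
      {(K.s, K.t)} 𝒪))
    {B : Type} [CommRing B] [Algebra 𝒪 B] (ι : DualNumber (ResidueField 𝒪) →ₐ[𝒪] B) (hι : Function.Injective ι)
    (h2 : (2 : B) = 0) {α tb : B} (hα : α = 1 + tb)
    (hsq : ι (TrivSqZeroExt.inr (1 : (ResidueField 𝒪))) = tb * tb)
    (hcube : ι (TrivSqZeroExt.inr (1 : (ResidueField 𝒪))) * tb = 0)
    (hord : Pair.IsOrdinaryMat (fun σ => (N.1 σ).map (ι : DualNumber (ResidueField 𝒪) →+* B)) α) : False := by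
  have hD8 := E.mod_eight
  obtain ⟨hlift, hdet, hs2, hZ, hA2⟩ := tangent_facts D hr hc hg₀ hg₁ hA hA' hf K N
  set T := ι (TrivSqZeroExt.inr (1 : (ResidueField 𝒪))) with hT
  let ι₀ : (ResidueField 𝒪) →+* B := (ι : DualNumber (ResidueField 𝒪) →+* B).comp (TrivSqZeroExt.inlHom (ResidueField 𝒪) (ResidueField 𝒪))
  have hsplit : ∀ z : DualNumber (ResidueField 𝒪), ι z = ι₀ z.fst + ι₀ z.snd * T := fun z => by
    conv_lhs => rw [← TrivSqZeroExt.inl_fst_add_inr_snd_eq z]
    rw [map_add, hT]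
    congr 1
    show ι _ = ι (TrivSqZeroExt.inl z.snd) * _
    rw [← map_mul, TrivSqZeroExt.inl_mul_inr, smul_eq_mul, mul_one]
  have hι₀T : ∀ c, ι₀ c * T = 0 → c = 0 := fun c hc0 => by
    have h1 : ι (TrivSqZeroExt.inr c) = 0 := by
      rw [hsplit, TrivSqZeroExt.fst_inr, map_zero, zero_add, TrivSqZeroExt.snd_inr, hc0]
    have h' := hι (h1.trans (map_zero ι).symm)
    simpa using congrArg TrivSqZeroExt.snd h'
  have hTT : T * T = 0 := by
    rw [show T * T = T * tb * tb by rw [mul_assoc, ← hsq], hcube, zero_mul]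
  have hdetB : ∀ σ, ((N.1 σ).map (ι : DualNumber (ResidueField 𝒪) →+* B)).det = 1 := by
    intro σ
    have h1 := RingHom.map_det (ι : DualNumber (ResidueField 𝒪) →+* B) (N.1 σ)
    rw [hdet, map_one] at h1
    exact h1.symm
  have hcom : ∀ P : ValuationSubring Ω, P.LiesOverPrime 2 → ∀ φ : GQ, P.IsFrobeniusAt φ 2 →
      ∀ τ ∈ P.inertiaSubgroupIn ℚ, (D.rbar φ - 1) * cocOf D.rbar N.1 τ = 0 := by
    intro P hP φ hφ τ hτ
    have h := hord P hP φ hφ 0 1 τ hτ 1 (one_mem _)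
    simp only [pow_one, mul_one, pow_zero, one_mul, one_smul, hdetB] at h
    set X := cocOf D.rbar N.1 τ with hX
    have e1 : (N.1 τ).map (ι : DualNumber (ResidueField 𝒪) →+* B) - 1 = T • X.map ι₀ := by
      ext i j
      rw [Matrix.sub_apply, Matrix.map_apply, Matrix.smul_apply, Matrix.map_apply,
        hlift.eq_dualMat τ, hr.unramified 2 Nat.prime_two (by omega) P hP τ hτ, mul_one,
        smul_eq_mul]
      show ι _ - _ = _
      rw [hsplit]
      by_cases hij : i = j <;> simp [dualMat, Matrix.one_apply, hij, hX, mul_comm T]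
    have e2 : T • (α • (N.1 φ).map (ι : DualNumber (ResidueField 𝒪) →+* B) - 1) =
        T • (D.rbar φ - 1).map ι₀ := by
      ext i j
      rw [Matrix.smul_apply, Matrix.sub_apply, Matrix.smul_apply, Matrix.map_apply,
        Matrix.smul_apply, Matrix.map_apply, Matrix.sub_apply, smul_eq_mul, smul_eq_mul,
        smul_eq_mul, map_sub]
      show T * (α * ι (N.1 φ i j) - _) = _
      rw [hsplit, show (N.1 φ i j).fst = D.rbar φ i j from congrFun (congrFun (hlift.fst φ) i) j, hα,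
        Matrix.one_apply, Matrix.one_apply, apply_ite ι₀, map_one, map_zero]
      linear_combination (ι₀ (D.rbar φ i j) + ι₀ (N.1 φ i j).snd * T) * hcube +
        ι₀ (N.1 φ i j).snd * hTT
    rw [e1, mul_smul_comm, ← smul_mul_assoc, e2, smul_mul_assoc, ← Matrix.map_mul] at h
    refine Matrix.ext fun i j => hι₀T _ ?_
    have h' := congrFun (congrFun h i) j
    rw [Matrix.smul_apply, Matrix.map_apply, smul_eq_mul, mul_comm] at h'
    exact h'
  obtain ⟨F, hF, hlev2⟩ := hlift.level'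
  obtain ⟨hcrys, -⟩ := isCrysTwo_of hr hD8 hc K hlift.coc hA2.trace
    ⟨F, hF, fun σ hσ => (hlev2 σ hσ).2⟩ hs2 hcom
  obtain ⟨P, hP⟩ := Fermat.Agent.Frobenius.exists_liesOverPrime Ω Nat.prime_two
  obtain ⟨φ, hφ⟩ := Fermat.Agent.Frobenius.exists_isFrobeniusAt_qbar Nat.prime_two hP
  have htr0 : (N.1 φ).trace = 0 := by
    have h0 := trace_frobenius_two_eq_zero hr hc E.squarefree hD8 hg₀ hg₁ hA hker hlift.coc
      (mem_Z1_iff.mp hZ).2 hA2 hcrys hP hφ
    refine TrivSqZeroExt.ext ?_ ?_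
    · have h1 := congrArg Matrix.trace (hlift.fst φ)
      rw [(frobenius_two_transp hr hD8 hP hφ).1] at h1
      rw [TrivSqZeroExt.fst_zero, ← h1]
      simp [trace_fin_two]
    · rw [TrivSqZeroExt.snd_zero, ← h0, ← snd_eq_cocOf_mul]
      simp [trace_fin_two]
  have h := hord P hP φ hφ 1 1 1 (one_mem _) 1 (one_mem _)
  simp only [pow_one, mul_one, one_smul, hdetB] at h
  have h4 := root_eq_of_ordinary (hdetB φ) h
  have htrB : ((N.1 φ).map (ι : DualNumber (ResidueField 𝒪) →+* B)).trace = 0 := by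
    rw [trace_fin_two, Matrix.map_apply, Matrix.map_apply, ← map_add, ← trace_fin_two, htr0,
      map_zero]
  rw [htrB, mul_zero, hα] at h4
  have hT0 : T = 0 := by
    rw [hsq]
    linear_combination -h4 - (1 + tb) * h2
  exact one_ne_zero (hι₀T 1 (by rw [hT0, mul_zero]))

end Fermat.Agent.TwoAdic.Selmer
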