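import Fermat.Agent.TwoAdic.Selmer.CrysAux
import Fermat.Agent.TwoAdic.Pair.Shape

/-!
# First order crystalline classes at 2

First order classes at `2` of the crystalline problem: a class killed by `s` whose values on
inertia are killed by `r φ - 1` factors through the character of `√-1` on inertia.
-/

set_option autoImplicit false

noncomputable section

namespace Fermat.Agent.TwoAdic.Selmer

open scoped Pointwise
open GaloisRep Fermat.Agent.DefRing Fermat.Agent.TameInertia Fermat.Agent.Deform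
  Fermat.Agent.GalCoh Matrix

local notation "Ω" => AlgebraicClosure ℚ

/-- An additive Frobenius invariant function on inertia killed by `s` vanishes on the elements
fixing `√-1`. -/
theorem eq_zero_of_invariant (K : Pair.KummerPair) {R : Type} [CommRing R] [Finite R]
    (h2 : (2 : R) = 0) (b : GQ → R) {φ : GQ} (hφ : K.P.IsFrobeniusAt φ 2)
    (hlev : ∃ F : IntermediateField ℚ Ω, FiniteDimensional ℚ F ∧
      ∀ σ ∈ F.fixingSubgroup, b σ = 0)
    (hadd : ∀ σ ∈ K.P.inertiaSubgroupIn ℚ, ∀ τ ∈ K.P.inertiaSubgroupIn ℚ, b (σ * τ) = b σ + b τ)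
    (hinv : ∀ τ ∈ K.P.inertiaSubgroupIn ℚ, b (φ * τ * φ⁻¹) = b τ) (hs : b K.s = 0)
    {i : Ω} (hi : i ^ 2 = -1) {τ : GQ} (hτ : τ ∈ K.P.inertiaSubgroupIn ℚ) (hτi : τ i = i) :
    b τ = 0 := by
  by_contra hne
  have : NeZero (Monoid.exponent (Multiplicative R) : Ω) :=
    ⟨Nat.cast_ne_zero.mpr Monoid.exponent_ne_zero_of_finite⟩
  obtain ⟨χ, hχ⟩ := CommGroup.exists_apply_ne_one_of_hasEnoughRootsOfUnity
    (Multiplicative R) Ω (a := Multiplicative.ofAdd (b τ))
    (fun h1 => hne (ofAdd_eq_one.mp h1))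
  let X : R → Ω := fun u => ((χ (Multiplicative.ofAdd u) : Ωˣ) : Ω)
  have hXadd : ∀ u v, X (u + v) = X u * X v := fun u v => by simp [X, ofAdd_add, map_mul]
  refine hχ (Units.ext ?_)
  show X (b τ) = 1
  refine K.eq_one_of_fixes_sqrt_neg_one hφ (fun σ => X (b σ)) (fun σ => ?_) ?_
    (fun σ hσ τ hτ => by rw [hadd σ hσ τ hτ, hXadd])
    (fun τ hτ => by rw [hinv τ hτ]) ?_ hi τ hτ hτi
  · rw [pow_two, ← hXadd, ← two_mul, h2, zero_mul]
    simp [X]
  · obtain ⟨F, hF, hF1⟩ := hlev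
    exact ⟨F, hF, fun σ hσ τ hτ hτF => by rw [hadd σ hσ τ hτ, hF1 τ hτF, add_zero]⟩
  · show X (b K.s) = 1
    simp [hs, X]

variable {k : Type} [Field k] [CharP k 2] [Finite k] {D : ℕ} {r : MRep k}

/-- **The shape at `2` of a first order class.** -/
theorem isCrysTwo_of (hr : IsDihedralResidual D r) (hD8 : D % 8 = 3) (hcont : IsCont r)
    (K : Pair.KummerPair) {c : GQ → Matrix (Fin 2) (Fin 2) k} (hc : IsCoc r c)
    (hc0 : ∀ g, (c g).trace = 0)
    (hlev : ∃ F : IntermediateField ℚ Ω, FiniteDimensional ℚ F ∧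
      ∀ σ ∈ F.fixingSubgroup, c σ = 0)
    (hs : c K.s = 0)
    (hcom : ∀ P : ValuationSubring Ω, P.LiesOverPrime 2 → ∀ φ : GQ, P.IsFrobeniusAt φ 2 →
      ∀ τ ∈ P.inertiaSubgroupIn ℚ, (r φ - 1) * c τ = 0) :
    IsCrysTwo r c ∧ ∀ P : ValuationSubring Ω, P.LiesOverPrime 2 →
      ∀ τ ∈ P.inertiaSubgroupIn ℚ, ∀ σ ∈ P.decompositionSubgroup ℚ, (r σ - 1) * c τ = 0 := by
  have hI : ∀ P : ValuationSubring Ω, P.LiesOverPrime 2 → ∀ τ ∈ P.inertiaSubgroupIn ℚ,
      r τ = 1 := hr.unramified 2 Nat.prime_two (by omega)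
  have hmul : ∀ P : ValuationSubring Ω, P.LiesOverPrime 2 →
      ∀ τ ∈ P.inertiaSubgroupIn ℚ, ∀ σ ∈ P.decompositionSubgroup ℚ, (r σ - 1) * c τ = 0 := by
    intro P hP τ hτ σ hσ
    obtain ⟨φ, hφ⟩ := Fermat.Agent.Frobenius.exists_isFrobeniusAt_qbar Nat.prime_two hP
    rcases unramified_image hr (by omega) hcont Nat.prime_two (by omega) hP hφ
      (frobenius_two_transp hr hD8 hP hφ) σ hσ with h | h
    · rw [h, sub_self, zero_mul]
    · rw [h]; exact hcom P hP φ hφ τ hτ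
  refine ⟨fun P hP => ⟨fun τ hτ σ hσ => ?_, fun τ hτ i hi hτi => ?_⟩, hmul⟩
  · have h := hmul P hP τ hτ σ hσ
    rw [sub_mul, one_mul, sub_eq_zero] at h
    rw [trace_mul_comm, h, hc0]
  · obtain ⟨g, rfl⟩ :=
      Fermat.Agent.Frobenius.exists_smul_eq_of_liesOverPrime_qbar Nat.prime_two K.over_two hP
    have h1 := GalCoh.conj_mem_inertiaSubgroupIn hτ g⁻¹
    rw [inv_smul_smul, inv_inv] at h1
    obtain ⟨φ, hφ⟩ := Fermat.Agent.Frobenius.exists_isFrobeniusAt_qbar Nat.prime_two K.over_two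
    have hfix : (g⁻¹ * τ * g) i = i := by
      have hgi : g i = i ∨ g i = -i :=
        sq_eq_sq_iff_eq_or_eq_neg.mp (by rw [← map_pow, hi, map_neg, map_one])
      rw [AlgEquiv.mul_apply, AlgEquiv.mul_apply, AlgEquiv.aut_inv, AlgEquiv.symm_apply_eq]
      rcases hgi with h | h <;> simp [h, hτi]
    have h0 : c (g⁻¹ * τ * g) = 0 := by
      refine Matrix.ext fun a b => ?_
      refine eq_zero_of_invariant K (CharTwo.two_eq_zero (R := k)) (fun σ => c σ a b) hφ ?_
        (fun σ hσ ν hν => ?_) (fun ν hν => ?_) ?_ hi h1 hfix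
      · obtain ⟨F, hF, hF0⟩ := hlev
        exact ⟨F, hF, fun σ hσ => by rw [hF0 σ hσ]; rfl⟩
      · rw [hc.mul_of_eq_one (hI _ K.over_two σ hσ), Matrix.add_apply, add_comm]
      · have h := hcom K.P K.over_two φ hφ ν hν
        rw [sub_mul, one_mul, sub_eq_zero] at h
        have hcm : Commute (c ν) (r φ) :=
          (commute_iff_trace_mul (hc0 ν) (frobenius_two_transp hr hD8 K.over_two hφ).1).mpr
            (by rw [trace_mul_comm, h, hc0])
        rw [hc.conj_of_eq_one (hI _ K.over_two ν hν), ← hcm.eq, mul_assoc, r_mul_inv, mul_one]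
      · rw [hs]; rfl
    have h2 := hc.conj_of_eq_one (g := g) (hI _ K.over_two _ h1)
    rw [show g * (g⁻¹ * τ * g) * g⁻¹ = τ by group, h0, mul_zero, zero_mul] at h2
    exact h2

end Fermat.Agent.TwoAdic.Selmer
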