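import Fermat.Agent.TwoAdic.Selmer.CrysShape
import Fermat.Agent.TwoAdic.Selmer.Scalar
import Fermat.Agent.Deform.Finite
import Fermat.Agent.Deform.TangentBound
import Fermat.Agent.GalCoh.GlobalLevels

/-!
# First order deformations of the crystalline problem

First order deformations of the crystalline problem: the conditions away from `2`, the projection
to the projective summand, and the bound on the classes of tangent pairs.
-/

set_option autoImplicit false
set_option linter.unusedSectionVars false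

noncomputable section

open GaloisRep Fermat.Agent.DefRing Fermat.Agent.TameInertia Fermat.Agent.Deform
  Fermat.Agent.GalCoh Matrix
open IsLocalRing (ResidueField)

namespace Fermat.Agent.TwoAdic.Selmer

attribute [local instance 10000] dualAlgebra

local notation "Ω" => AlgebraicClosure ℚ

section Classes

variable {k : Type} [Field k] [CharP k 2] {D ℓ₀ : ℕ} {r : MRep k} {g₀ : GQ} {A Q : Finset ℕ}

/-- The classes crystalline at `2`, as a subspace. -/
def crysSub (r : MRep k) : Submodule k (GQ → Matrix (Fin 2) (Fin 2) k) where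
  carrier := {c | IsCrysTwo r c}
  zero_mem' := fun P hP => ⟨fun τ hτ σ hσ => by simp, fun τ hτ i hi hτi => rfl⟩
  add_mem' := by
    intro c c' a b P hP
    refine ⟨fun τ hτ σ hσ => ?_, fun τ hτ i hi hτi => ?_⟩
    · simp [add_mul, (a P hP).1 τ hτ σ hσ, (b P hP).1 τ hτ σ hσ]
    · simp [(a P hP).2 τ hτ i hi hτi, (b P hP).2 τ hτ i hi hτi]
  smul_mem' := by
    intro m c a P hP
    refine ⟨fun τ hτ σ hσ => ?_, fun τ hτ i hi hτi => ?_⟩
    · simp [(a P hP).1 τ hτ σ hσ]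
    · simp [(a P hP).2 τ hτ i hi hτi]

/-- The conditions away from `2`. -/
structure IsAwayTwo (D ℓ₀ : ℕ) (r : MRep k) (g₀ : GQ) (A : Finset ℕ)
    (c : GQ → Matrix (Fin 2) (Fin 2) k) : Prop where
  trace : ∀ g, (c g).trace = 0
  loc : ∀ p ∈ D.primeFactors ∪ A, ∀ P : ValuationSubring Ω, P.LiesOverPrime p → IsLocalAt r c P
  scal : ∀ p : ℕ, p.Prime → p ∉ bad D A → ∀ P : ValuationSubring Ω, P.LiesOverPrime p →
    ∀ τ ∈ P.inertiaSubgroupIn ℚ, avg (r g₀) (c τ) = c τ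
  new : ∀ p ∈ A, ∀ P : ValuationSubring Ω, P.LiesOverPrime p →
    ∀ τ ∈ P.inertiaSubgroupIn ℚ, ∀ σ ∈ P.decompositionSubgroup ℚ, (r σ - 1) * c τ = 0
  steinberg : ∀ ℓ ∈ D.primeFactors, ℓ ≠ ℓ₀ → ∀ P : ValuationSubring Ω, P.LiesOverPrime ℓ →
    ∀ φ : GQ, P.IsFrobeniusAt φ ℓ → r φ = 1 → ∀ τ ∈ P.inertiaSubgroupIn ℚ,
      c φ * (r τ - 1) = 0

variable (hr : IsDihedralResidual D r) (hcont : IsCont r) (hsf : Squarefree D) (hD8 : D % 8 = 3)
  (hg₀ : ¬ IsTransp r g₀) (hg₁ : r g₀ ≠ 1) (hA : IsAuxSet D r A)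

include hr hcont hsf hD8 hg₀ hg₁ hA in
/-- With no crystalline class in the projective summand, the trace at Frobenius over `2` of a
crystalline class vanishes. -/
theorem trace_frobenius_two_eq_zero
    (hker : ∀ c ∈ crysSpace D r g₀ A, ∀ h, r h = 1 → c h = 0)
    {c : GQ → Matrix (Fin 2) (Fin 2) k} (hc : IsCoc r c)
    (hcts : (levelsS (ramSet D A Q)).IsCts₁ c) (h : IsAwayTwo D ℓ₀ r g₀ A c)
    (h2 : IsCrysTwo r c) {P : ValuationSubring Ω} (hP : P.LiesOverPrime 2) {φ : GQ}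
    (hφ : P.IsFrobeniusAt φ 2) : (c φ * r φ).trace = 0 := by
  have hD : 0 < D := by omega
  have h3 := cube_eq_one hr hD hg₀
  have htr := trace_eq_one hr hD hg₀ hg₁
  have hscal : ∀ σ, IsScal (avg (r g₀) (c σ)) := fun σ =>
    isScal_avg h3 (by rw [htr]; exact one_ne_zero) (h.trace σ)
  have hfix : ∀ σ, ∀ X : Matrix (Fin 2) (Fin 2) k, IsScal X → r σ * X * r σ⁻¹ = X := by
    rintro σ _ ⟨z, rfl⟩
    rw [Matrix.mul_smul, mul_one, Matrix.smul_mul, r_mul_inv]
  have hzt : ∀ (X : Matrix (Fin 2) (Fin 2) k), IsScal X → ∀ t : Matrix (Fin 2) (Fin 2) k,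
      t.trace = 0 → (X * t).trace = 0 := by
    rintro _ ⟨z, rfl⟩ t ht
    rw [Matrix.smul_mul, one_mul, trace_smul, ht, smul_zero]
  obtain ⟨x, hx⟩ : ∃ x : GQ → Matrix (Fin 2) (Fin 2) k, ∀ σ, x σ = c σ + avg (r g₀) (c σ) :=
    ⟨_, fun σ => rfl⟩
  have hxc : IsCoc r x := fun σ τ => by
    rw [hx, hx, hx, hc, avg_add, avg_conj (r_mul_inv r σ) (r_inv_mul r σ) h3
      (conj_order_three hr hD hg₀ hg₁ σ), hfix σ _ (hscal τ), mul_add, add_mul,
      hfix σ _ (hscal τ)]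
    abel
  have hx0 : ∀ σ, (x σ).trace = 0 := fun σ => by
    rw [hx, trace_add, h.trace, (hscal σ).trace_eq_zero, add_zero]
  have hxav : ∀ σ, avg (r g₀) (x σ) = 0 := fun σ => by
    rw [hx, avg_add, avg_of_isScal h3 (hscal σ), add_self_mat]
  have havg0 : avg (r g₀) (0 : Matrix (Fin 2) (Fin 2) k) = 0 := by simp [avg]
  have hxcts : (levelsS (ramSet D A Q)).IsCts₁ x := by
    obtain ⟨U, hU, hU'⟩ := hcts
    exact ⟨U, hU, fun g s hs => by rw [hx, hx, hU' g s hs]⟩
  have hsub : D.primeFactors ⊆ bad D A := Finset.subset_union_left.trans (Finset.subset_insert _ _)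
  have hmem : x ∈ crysSpace D r g₀ A := by
    refine ⟨hxc, cts_of_inertia hr hxc hxcts (trivial_levelS hr hcont
      (hsub.trans Finset.subset_union_left) hD.ne') (fun q hq hqD => hq (mem_primesOf.mpr
        (hsub (Nat.mem_primeFactors.mpr ⟨q.2, hqD, hD.ne'⟩)))) (fun q _ hq P' hP' τ hτ => ?_),
      hx0, hxav, fun p hp P' hP' σ hσ => ?_, fun P' hP' => ⟨fun τ hτ σ hσ => ?_,
        fun τ hτ i hi hτi => ?_⟩⟩
    · rw [hx, h.scal q q.2 (fun h' => hq (mem_primesOf.mpr h')) P' hP' τ hτ, add_self_mat]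
    · have hpb : p ∈ bad D A := Finset.mem_insert_of_mem hp
      obtain ⟨t, -, hT, himg⟩ := hasLocalTransp_bad hr hcont hsf hD8 hA hpb hP'
      rw [hx, add_mul, trace_add, h.loc p hp P' hP' σ hσ, zero_add]
      rcases himg σ hσ with e | e <;> rw [e]
      · rw [mul_one, (hscal σ).trace_eq_zero]
      · exact hzt _ (hscal σ) _ hT.1
    · rw [hx, add_mul, trace_add, (h2 P' hP').1 τ hτ σ hσ, zero_add]
      obtain ⟨t, -, hT, himg⟩ := hasLocalTransp_two hr hD8 hcont hP'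
      rcases himg σ hσ with e | e <;> rw [e]
      · rw [mul_one, (hscal τ).trace_eq_zero]
      · exact hzt _ (hscal τ) _ hT.1
    · rw [hx, (h2 P' hP').2 τ hτ i hi hτi, havg0, add_zero]
  obtain ⟨Y, -, hY⟩ := eq_coboundary hr hg₀ hg₁ hD hxc hx0 hxav (hker x hmem)
  have hT := frobenius_two_transp hr hD8 hP hφ
  have e : c φ = r φ * Y * r φ⁻¹ + Y + avg (r g₀) (c φ) := by
    rw [← hY, hx, add_assoc, add_self_mat, add_zero]
  rw [e, add_mul, add_mul, trace_add, trace_add, hzt _ (hscal φ) _ hT.1, add_zero,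
    mul_assoc _ (r φ⁻¹) (r φ), r_inv_mul, mul_one, trace_mul_comm (r φ) Y,
    CharTwo.add_self_eq_zero]

end Classes

variable {𝒪 : Type} [CommRing 𝒪] [IsLocalRing 𝒪] [Finite (ResidueField 𝒪)]
  [CharP (ResidueField 𝒪) 2] (D : NormalData 𝒪)

/-- An ordinary first order Frobenius with trivial determinant is an involution. -/
theorem mul_self_of_ordinary {α : DualNumber (ResidueField 𝒪)} (hα : α ^ 2 = 1)
    {M : Matrix (Fin 2) (Fin 2) (DualNumber (ResidueField 𝒪))}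
    (h : (α • M - 1) * (M - α • 1) = 0) : M * M = 1 := by
  have e : M + M = 0 := by rw [← sub_eq_add_dual, sub_self]
  rw [sub_eq_add_dual, sub_eq_add_dual, add_mul, mul_add, smul_mul_assoc, smul_mul_assoc,
    mul_smul_comm, mul_one, one_mul, smul_smul, show α * α = 1 by rw [← pow_two, hα], one_smul] at h
  have h1 : α • (M * M + 1) = 0 := by
    rw [← h, smul_add]
    calc _ = α • (M * M) + α • 1 + (M + M) := by rw [e, add_zero]
      _ = _ := by abel
  have h2 := congrArg (fun Z => α • Z) h1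
  simp only [smul_smul, show α * α = 1 by rw [← pow_two, hα], one_smul, smul_zero] at h2
  rwa [← sub_eq_zero, sub_eq_add_dual]

open scoped NumberTheorySymbols in
/-- The Taylor–Wiles primes attached to the primes of `D`. -/
def IsTWPattern (E : LiftData) (f : ℕ → ℕ) : Prop :=
  ∀ i ∈ E.D.primeFactors.erase E.ℓ₀, (f i).Prime ∧ f i % 4 = 1 ∧
    (∀ ℓ ∈ E.D.primeFactors, J((ℓ : ℤ) | f i) = if ℓ = i ∨ ℓ = E.ℓ₀ then -1 else 1) ∧
    ∀ P : ValuationSubring Ω, P.LiesOverPrime (f i) → ∀ φ : GQ,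
      P.IsFrobeniusAt φ (f i) → (D.rbar φ).trace = 1

variable {E : LiftData} (hr : IsDihedralResidual E.D D.rbar) (hc : IsCont D.rbar) {g₀ : GQ}
  (hg₀ : ¬ IsTransp D.rbar g₀) (hg₁ : D.rbar g₀ ≠ 1) {A : Finset ℕ}
  (hA : IsAuxSet E.D D.rbar A) (hA' : ∀ q ∈ A, q.Prime ∧ q ≠ 2 ∧ ¬ q ∣ E.D) {f : ℕ → ℕ}
  (hf : IsTWPattern D E f) (K : Pair.KummerPair)

/-- The lifts of the crystalline problem. -/
local notation "Tan" => TangentSet D
  (LiftData.pairCond (LiftData.withAux E A hA') (Finset.image f (E.D.primeFactors.erase E.ℓ₀))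
    {(K.s, K.t)} 𝒪)

include hr hc hg₀ hg₁ hA hf in
/-- A first order deformation of the crystalline type. -/
theorem tangent_facts : ∀ N : Tan,
    IsLift D.rbar N.1 ∧ (∀ σ, (N.1 σ).det = 1) ∧ cocOf D.rbar N.1 K.s = 0 ∧
      cocOf D.rbar N.1 ∈ Z1 (levelsS (ramSet E.D A ((E.D.primeFactors.erase E.ℓ₀).image f)))
        (adRep D.rbar) ∧
      IsAwayTwo E.D E.ℓ₀ D.rbar g₀ A (cocOf D.rbar N.1) := by
  classical
  have hsf := E.squarefree
  have hD8 := E.mod_eight
  have hD : 0 < E.D := by omega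
  have hodd : Odd E.D := Nat.odd_iff.mpr (by omega)
  set Q := (E.D.primeFactors.erase E.ℓ₀).image f with hQ
  set S := ramSet E.D A Q with hS
  intro N
  have hart := (isArtinianTestAlgebra_dual (𝒪 := 𝒪)).isArtinian
  have hZ : cocOf D.rbar N.1 ∈ Z1 (levelsS S) (adRep D.rbar) := by
    refine cocOf_mem_Z1_levelS (fun B _ _ _ ρ hρ q hq => ?_) N
    have hq' : (q : ℕ) ∉ bad E.D A ∪ Q := fun h => hq (mem_primesOf.mpr h)
    simp only [bad, Finset.mem_union, Finset.mem_insert, Nat.mem_primeFactors, not_or] at hq'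
    exact hρ.2.2.2.2 q q.2 hq'.1.1 (fun h => hq'.1.2.1 ⟨q.2, h, hD.ne'⟩) hq'.1.2.2 hq'.2
  obtain ⟨hdet, hcr, hℓ₀, hnew, -⟩ := N.2.type
  have hfst : ∀ g, (N.1 g).map TrivSqZeroExt.fst = D.rbar g := fun g =>
    Matrix.ext fun a b => by
      have hT := isArtinianTestAlgebra_dual (𝒪 := 𝒪)
      have h1 := congrFun (congrFun (DFunLike.congr_fun N.2.reduces g) a) b
      rw [← h1, Matrix.map_apply]
      obtain ⟨o, ho⟩ := exists_algebraMap_add_mem hT.residue_surjective (N.1 g a b)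
      have h2 := (toResidue_eq_zero_iff hT.isLocalHom hT.residue_surjective).mpr ho
      rw [map_sub, sub_eq_zero, AlgHom.commutes] at h2
      show _ = toResidue hT.isLocalHom hT.residue_surjective (N.1 g a b)
      rw [h2]
      by_contra hne
      exact ho (TrivSqZeroExt.isUnit_iff_isUnit_fst.mpr (isUnit_iff_ne_zero.mpr (by
        rw [TrivSqZeroExt.fst_sub, dual_algebraMap, TrivSqZeroExt.fst_inl, sub_ne_zero]
        exact hne)))
  obtain ⟨L, hL, hL1⟩ := N.2.cont.finite_level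
  have hlift : IsLift D.rbar N.1 := ⟨hfst, L, hL, fun σ hσ =>
    hL1 σ fun x hx => (IntermediateField.mem_fixingSubgroup_iff L σ).mp hσ x hx⟩
  have htr : ∀ σ, (toAdic N.1 N.2.cont).trace σ = (N.1 σ).trace := fun σ =>
    Matrix.trace_toLin'_eq _
  have hd : ∀ σ, (N.1 σ).det = 1 := by
    intro σ
    have h := hdet.2 1 σ 1 fun μ hμ => by
      rw [pow_one] at hμ ⊢
      rcases sq_eq_sq_iff_eq_or_eq_neg.1 (hμ.trans (one_pow 2).symm) with rfl | rfl <;> simp
    rw [pow_one, Nat.cast_ofNat, dual_two, Ideal.span_singleton_zero, Ideal.mem_bot,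
      sub_eq_zero, Nat.cast_one] at h
    exact (LinearMap.det_toLin' (N.1 σ)).symm.trans h
  have hs : cocOf D.rbar N.1 K.s = 0 := by
    have h1 := (Pair.isCrystalline_toAdic_iff N.2.cont K).mp hcr
    rw [dual_two, zero_smul, add_zero,
      show (3 : DualNumber (ResidueField 𝒪)) = 2 + 1 by norm_num, dual_two, zero_add,
      one_smul] at h1
    rw [cocOf, h1, ← dualMat_one, snd_dualMat, zero_mul]
  have hmat : ∀ a b, ((toAdic N.1 N.2.cont).ρ a - 1) * ((toAdic N.1 N.2.cont).ρ b - 1) = 0 →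
      (N.1 a - 1) * (N.1 b - 1) = 0 := fun a b h =>
    (Matrix.toLinAlgEquiv' (R := DualNumber (ResidueField 𝒪)) (n := Fin 2)).injective (by
      rw [map_mul, map_sub, map_sub, map_one, map_zero]
      exact h)
  have hsgn : ∀ q, ((E.sgn q : ℤ) : DualNumber (ResidueField 𝒪)) = 1 := fun q =>
    dual_sign (E.sgn_spec q)
  have hnew' : ∀ q : ℕ, ((q ∣ E.D ∧ q ≠ E.ℓ₀) ∨ q ∈ A) → q.Prime →
      ∀ P : ValuationSubring Ω, P.LiesOverPrime q → ∀ φ : GQ, P.IsFrobeniusAt φ q →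
        (N.1 φ).trace = 0 ∧ ∀ τ ∈ P.inertiaSubgroupIn ℚ, (N.1 τ).trace = 0 ∧
          (N.1 φ - 1) * (N.1 τ - 1) = 0 ∧ (N.1 τ - 1) * (N.1 φ - 1) = 0 := by
    intro q hq hqp P hP φ hφ
    have hq2 : ¬ 2 ∣ q := by
      intro h2
      obtain rfl := (Nat.prime_dvd_prime_iff_eq Nat.prime_two hqp).mp h2
      rcases hq with h | h
      · exact Nat.not_even_iff_odd.mpr hodd (even_iff_two_dvd.mpr h.1)
      · exact (hA 2 h).2.1 rfl
    obtain ⟨e1, e2⟩ := hnew q hqp hq P hP φ hφ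
    rw [htr] at e1
    refine ⟨?_, fun τ hτ => ?_⟩
    · rw [e1]
      change ((E.sgn q : ℤ) : DualNumber (ResidueField 𝒪)) *
        ((q : DualNumber (ResidueField 𝒪)) + 1) = 0
      rw [hsgn, dual_odd hq2, one_mul, one_add_one_eq_two, dual_two]
    · obtain ⟨f1, f2, f3⟩ := e2 τ hτ
      rw [htr] at f1
      change ((toAdic N.1 N.2.cont).ρ φ -
        (((E.sgn q : ℤ) : DualNumber (ResidueField 𝒪)) * (q : DualNumber (ResidueField 𝒪))) • 1) *
        _ = 0 at f2
      change _ * ((toAdic N.1 N.2.cont).ρ φ -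
        ((E.sgn q : ℤ) : DualNumber (ResidueField 𝒪)) • 1) = 0 at f3
      rw [hsgn, dual_odd hq2, one_mul, one_smul] at f2
      rw [hsgn, one_smul] at f3
      exact ⟨f1.trans dual_two, hmat _ _ f2, hmat _ _ f3⟩
  have htrI : ∀ ℓ ∈ E.D.primeFactors, ∀ P : ValuationSubring Ω, P.LiesOverPrime ℓ →
      ∀ τ ∈ P.inertiaSubgroupIn ℚ, (N.1 τ).trace = 0 := by
    intro ℓ hℓ P hP τ hτ
    by_cases h : ℓ = E.ℓ₀
    · subst h
      have h1 := hℓ₀ P hP τ hτ
      change LinearMap.charpoly (Matrix.toLin' (N.1 τ)) = _ at h1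
      rw [← LinearMap.charpoly_toMatrix _ (Pi.basisFun (DualNumber (ResidueField 𝒪)) (Fin 2)),
        show LinearMap.toMatrix (Pi.basisFun (DualNumber (ResidueField 𝒪)) (Fin 2))
          (Pi.basisFun (DualNumber (ResidueField 𝒪)) (Fin 2)) (Matrix.toLin' (N.1 τ)) = N.1 τ
          from LinearMap.toMatrix'_toLin' _,
        Matrix.charpoly_fin_two, hd] at h1
      have h2 := congrArg (Polynomial.eval (1 : DualNumber (ResidueField 𝒪))) h1
      simp at h2
      linear_combination -h2 + dual_two (k := ResidueField 𝒪)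
    · obtain ⟨φ, hφ⟩ := Fermat.Agent.Frobenius.exists_isFrobeniusAt_qbar
        (Nat.prime_of_mem_primeFactors hℓ) hP
      exact ((hnew' ℓ (Or.inl ⟨Nat.dvd_of_mem_primeFactors hℓ, h⟩)
        (Nat.prime_of_mem_primeFactors hℓ) P hP φ hφ).2 τ hτ).1
  refine ⟨hlift, hd, hs, hZ, hlift.trace_coc hd hr.det_one, fun p hp P hP => ?_,
    fun p hp hpb P hP τ hτ => ?_, fun p hp P hP τ hτ σ hσ => ?_,
    fun ℓ hℓ hℓne P hP φ hφ h1 τ hτ => ?_⟩
  · rcases Finset.mem_union.mp hp with hp | hp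
    · exact (hlift.isLocalAt_dvd hr hsf hodd hd (Nat.prime_of_mem_primeFactors hp)
        (Nat.dvd_of_mem_primeFactors hp) hP (htrI p hp P hP)).1
    · obtain ⟨hqp, -, hqD, hT⟩ := hA p hp
      obtain ⟨φ, hφ⟩ := Fermat.Agent.Frobenius.exists_isFrobeniusAt_qbar hqp hP
      obtain ⟨e1, e2⟩ := hnew' p (Or.inr hp) hqp P hP φ hφ
      exact hlift.isLocalAt_aux hr hD hc hd hqp hqD hP hφ (hT P hP φ hφ) e1
        fun τ hτ => (e2 τ hτ).2.2
  · have h3 := cube_eq_one hr hD hg₀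
    by_cases hpQ : p ∈ Q
    · obtain ⟨i, hi, rfl⟩ := Finset.mem_image.mp hpQ
      obtain ⟨φ, hφ⟩ := Fermat.Agent.Frobenius.exists_isFrobeniusAt_qbar hp hP
      have hp2 : f i ≠ 2 := fun h => hpb (by simp [bad, h])
      have hpD : ¬ f i ∣ E.D := fun h => hpb (by
        simp [bad, Nat.mem_primeFactors, hp, h, hD.ne'])
      have hcm := hlift.commute_frobenius hp hp2 hP (hr.unramified _ hp hpD P hP) hφ hτ
      exact avg_of_isScal h3 (isScal_of_commute (hlift.trace_coc hd hr.det_one τ)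
        (by rw [(hf i hi).2.2.2 P hP φ hφ]; exact one_ne_zero) hcm)
    · have hnot : (⟨p, hp⟩ : Nat.Primes) ∉ S := fun h => by
        have h' := mem_primesOf.mp h
        change p ∈ bad E.D A ∪ Q at h'
        exact (Finset.mem_union.mp h').elim hpb hpQ
      rw [cts_inertia hlift.coc (mem_Z1_iff.mp hZ).2 hnot hP hτ]
      exact avg_of_isScal h3 isScal_zero
  · obtain ⟨hqp, -, hqD, hT⟩ := hA p hp
    obtain ⟨φ, hφ⟩ := Fermat.Agent.Frobenius.exists_isFrobeniusAt_qbar hqp hP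
    have hrτ := hr.unramified p hqp hqD P hP τ hτ
    rcases unramified_image hr hD hc hqp hqD hP hφ (hT P hP φ hφ) σ hσ with h | h
    · rw [h, sub_self, zero_mul]
    · rw [h]
      exact hlift.mul_coc_eq_zero hrτ ((hnew' p (Or.inr hp) hqp P hP φ hφ).2 τ hτ).2.1
  · have h := ((hnew' ℓ (Or.inl ⟨Nat.dvd_of_mem_primeFactors hℓ, hℓne⟩)
      (Nat.prime_of_mem_primeFactors hℓ) P hP φ hφ).2 τ hτ).2.1
    rw [hlift.sub_one, hlift.sub_one, dualMat_mul] at h
    have h' := congrArg (fun Z => Z.map TrivSqZeroExt.snd) h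
    simp only [snd_dualMat, h1, sub_self, zero_mul, zero_add, mul_one] at h'
    simpa using h'

include hr hc hg₀ hg₁ hA hf in
/-- The class of a tangent pair. -/
theorem tangentPair_mem (N : Tan)
    (hN : Pair.IsTangentPair D (E.withAux A hA') ((E.D.primeFactors.erase E.ℓ₀).image f)
      {(K.s, K.t)} N) :
    cocOf D.rbar N.1 ∈ Z1 (levelsS (ramSet E.D A ((E.D.primeFactors.erase E.ℓ₀).image f)))
        (adRep D.rbar) ⊓ (selmerCond E.D E.ℓ₀ D.rbar g₀ A ⊓ crysSub D.rbar) := by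
  have hD8 := E.mod_eight
  obtain ⟨hlift, hd, hs, hZ, hA2⟩ := tangent_facts D hr hc hg₀ hg₁ hA hA' hf K N
  obtain ⟨a, ha⟩ := hN
  obtain ⟨F, hF, hlev⟩ := hlift.level'
  set α : DualNumber (ResidueField 𝒪) := TrivSqZeroExt.inl 1 + TrivSqZeroExt.inr a with hαdef
  have hα : α ^ 2 = 1 := by
    refine TrivSqZeroExt.ext ?_ ?_
    · simp [hαdef]
    · simp [hαdef, pow_two, CharTwo.add_self_eq_zero]
  have hcom : ∀ P : ValuationSubring Ω, P.LiesOverPrime 2 → ∀ φ : GQ, P.IsFrobeniusAt φ 2 →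
      ∀ τ ∈ P.inertiaSubgroupIn ℚ, (D.rbar φ - 1) * cocOf D.rbar N.1 τ = 0 := by
    intro P hP φ hφ τ hτ
    have h := ha P hP φ hφ 0 1 τ hτ 1 (one_mem _)
    rw [pow_one, pow_one, mul_one, pow_zero, pow_zero, one_mul, hd, one_smul] at h
    have h' := congrArg (fun Z => Z.map TrivSqZeroExt.snd) h
    simp only [snd_map_mul, hlift.sub_one τ, fst_dualMat, snd_dualMat,
      hr.unramified 2 Nat.prime_two (by omega) P hP τ hτ, sub_self, mul_one, mul_zero,
      add_zero] at h'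
    have e : (α • N.1 φ - 1).map TrivSqZeroExt.fst = D.rbar φ - 1 := by
      rw [← hlift.fst φ]
      ext i j
      by_cases hij : i = j <;> simp [hαdef, Matrix.smul_apply, hij]
    rw [e] at h'
    simpa using h'
  obtain ⟨hcrys, hmul⟩ := isCrysTwo_of hr hD8 hc K hlift.coc (hlift.trace_coc hd hr.det_one)
    ⟨F, hF, fun σ hσ => (hlev σ hσ).2⟩ hs hcom
  refine ⟨hZ, ⟨hA2.trace, fun p hp P hP => ?_, hA2.scal, fun p hp P hP τ hτ σ hσ => ?_,
    hA2.steinberg⟩, hcrys⟩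
  · rcases Finset.mem_insert.mp hp with rfl | hp
    · obtain ⟨φ, hφ⟩ := Fermat.Agent.Frobenius.exists_isFrobeniusAt_qbar Nat.prime_two hP
      have hT := frobenius_two_transp hr hD8 hP hφ
      refine isLocalAt_of_generators hlift.coc hA2.trace Nat.prime_two hP hφ hlev (t := φ)
        (unramified_image hr (by omega) hc Nat.prime_two (by omega) hP hφ hT) ?_
        fun τ hτ => (hcrys P hP).1 τ hτ φ hφ.mem_decompositionSubgroup
      have h := ha P hP φ hφ 1 1 1 (one_mem _) 1 (one_mem _)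
      rw [pow_one, pow_one, mul_one, hd, one_smul] at h
      have hsq := mul_self_of_ordinary hα h
      exact (hlift.trace_eq φ (trace_of_mul_self hsq (hd φ))).2
    · exact hA2.loc p hp P hP
  · rcases Finset.mem_insert.mp hp with rfl | hp
    · exact hmul P hP τ hτ σ hσ
    · exact hA2.new p hp P hP τ hτ σ hσ

include hr hc hg₀ hg₁ hA hf in
/-- The classes of tangent pairs: at most as many dimensions as Taylor–Wiles primes. -/
theorem finrank_crys_le (hker : ∀ c ∈ crysSpace E.D D.rbar g₀ A, ∀ h, D.rbar h = 1 → c h = 0)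
    [FiniteDimensional (ResidueField 𝒪) ↥(Submodule.comap
      (Z1 (levelsS (ramSet E.D A ((E.D.primeFactors.erase E.ℓ₀).image f))) (adRep D.rbar)).subtype
      (selmerCond E.D E.ℓ₀ D.rbar g₀ A ⊓ crysSub D.rbar))] :
    Module.finrank (ResidueField 𝒪) ↥(Submodule.map
      (H1mk (levelsS (ramSet E.D A ((E.D.primeFactors.erase E.ℓ₀).image f))) (adRep D.rbar))
      (Submodule.comap
        (Z1 (levelsS (ramSet E.D A ((E.D.primeFactors.erase E.ℓ₀).image f))) (adRep D.rbar)).subtype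
        (selmerCond E.D E.ℓ₀ D.rbar g₀ A ⊓ crysSub D.rbar)))
      ≤ (E.D.primeFactors.erase E.ℓ₀).card := by
  have hD8 := E.mod_eight
  refine finrank_classes_le_of hr hc E.squarefree hD8 hg₀ hg₁ hA _ inf_le_left
    (fun c hcW _ x hx hzero => hker x ?_)
    (Nat.mem_primeFactors.mpr ⟨E.prime_ℓ₀, E.dvd_ℓ₀, by omega⟩) f rfl
    fun i hi => ⟨(hf i hi).1, (hf i hi).2.1, (hf i hi).2.2.1⟩
  obtain ⟨hxc, hxcts, hx0, hxav, hxl⟩ := hx
  refine ⟨hxc, hxcts, hx0, hxav, fun p hp => hxl p (Finset.mem_insert_of_mem hp),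
    fun P hP => ⟨fun τ hτ σ hσ => ?_, fun τ hτ i hi hτi => hzero τ ((hcW.2 P hP).2 τ hτ i hi hτi)⟩⟩
  obtain ⟨t, ht, hT, himg⟩ := hasLocalTransp_two hr hD8 hc hP
  have hτD := ((Fermat.Agent.FreyReducible.mem_inertiaSubgroupIn_iff P τ).1 hτ).1
  rcases himg σ hσ with e | e <;> rw [e]
  · rw [mul_one, hx0]
  · exact (hxl 2 (Finset.mem_insert_self _ _) P hP).trace_mul hxc ht hτD
      (Or.inl (hr.unramified 2 Nat.prime_two (by omega) P hP τ hτ))

end Fermat.Agent.TwoAdic.Selmer
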