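import Fermat.Agent.TwoAdic.Selmer.Residual

/-!
# Quadratic characters at 2

The quadratic characters used at `2`: the unramified character through the fifth roots of unity,
the character of `√-1`, and the Kummer map of the fourth root of `5`.

`dz` is the discrete logarithm on the fifth roots of unity, `my` the exponent on `y` with
`y ^ 4 = 5`; their high bits bound the cup products `a ∪ a` and `(a + χ) ∪ a`.
-/

set_option autoImplicit false

noncomputable section

namespace Fermat.Agent.TwoAdic.Selmer.Crys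

open GaloisRep Fermat.Agent.DefRing Fermat.Agent.TameInertia

local notation "Ω" => AlgebraicClosure ℚ

/-- The low bit. -/
def loBit (u : ZMod 4) : ZMod 2 := (u.val : ZMod 2)

/-- The high bit. -/
def hiBit (u : ZMod 4) : ZMod 2 := ((u.val / 2 : ℕ) : ZMod 2)

theorem exists_zeta : ∃ ζ : Ω, IsPrimitiveRoot ζ 5 := by
  have : NeZero ((5 : ℕ) : Ω) := ⟨Nat.cast_ne_zero.mpr (by norm_num)⟩
  exact HasEnoughRootsOfUnity.exists_primitiveRoot Ω 5

/-- A primitive fifth root of unity. -/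
def ζ₅ : Ω := exists_zeta.choose

theorem ζ₅_spec : IsPrimitiveRoot ζ₅ 5 := exists_zeta.choose_spec

/-- A square root of `-1`. -/
def im : Ω := (IsAlgClosed.exists_pow_nat_eq (-1 : Ω) two_pos).choose

theorem im_sq : im ^ 2 = -1 := (IsAlgClosed.exists_pow_nat_eq (-1 : Ω) two_pos).choose_spec

theorem im_primitive : IsPrimitiveRoot im 4 := by
  refine IsPrimitiveRoot.mk_of_lt im (by norm_num) ?_ fun l h0 h4 h => ?_
  · rw [show im ^ 4 = (im ^ 2) ^ 2 by ring, im_sq]; norm_num
  · interval_cases l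
    · rw [pow_one] at h
      have := im_sq
      rw [h] at this
      norm_num at this
    · rw [im_sq] at h
      norm_num at h
    · rw [show im ^ 3 = im ^ 2 * im by ring, im_sq] at h
      have h1 : im = -1 := by linear_combination -h
      have := im_sq
      rw [h1] at this
      norm_num at this

theorem im_ne_neg : im ≠ -im := fun h => by
  have h2 := im_sq
  have h0 : im = 0 := by linear_combination (1 / 2 : Ω) * h
  rw [h0] at h2
  norm_num at h2

/-- The Gauss sum. -/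
def sqrtFive : Ω := ζ₅ + ζ₅ ^ 4 - ζ₅ ^ 2 - ζ₅ ^ 3

theorem sqrtFive_sq : sqrtFive ^ 2 = 5 := by
  have h := ζ₅_spec.geom_sum_eq_zero (by norm_num)
  simp only [Finset.sum_range_succ, Finset.sum_range_zero, zero_add, pow_zero, pow_one] at h
  have h5 := ζ₅_spec.pow_eq_one
  rw [sqrtFive]
  linear_combination (ζ₅ ^ 3 - 2 * ζ₅ ^ 2 - ζ₅ + 4) * h5 - h

theorem sqrtFive_ne_zero : sqrtFive ≠ 0 := fun h => by
  have h2 := sqrtFive_sq
  rw [h] at h2
  norm_num at h2

/-- A fourth root of `5`. -/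
def yRoot : Ω := (IsAlgClosed.exists_pow_nat_eq sqrtFive two_pos).choose

theorem yRoot_sq : yRoot ^ 2 = sqrtFive :=
  (IsAlgClosed.exists_pow_nat_eq sqrtFive two_pos).choose_spec

theorem yRoot_ne_zero : yRoot ≠ 0 := fun h => by
  have h2 := yRoot_sq
  rw [h, zero_pow two_ne_zero] at h2
  exact sqrtFive_ne_zero h2.symm

open Classical in
/-- The character of `√-1`. -/
def chi (σ : GQ) : ZMod 2 := if σ im = im then 0 else 1

theorem apply_im (σ : GQ) : σ im = if chi σ = 0 then im else -im := by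
  have h : σ im = im ∨ σ im = -im :=
    sq_eq_sq_iff_eq_or_eq_neg.mp (by rw [← map_pow, im_sq, map_neg, map_one])
  rcases h with h | h <;> simp [chi, h, im_ne_neg.symm]

theorem chi_eq_zero_iff (σ : GQ) : chi σ = 0 ↔ σ im = im := by
  simp [chi]

theorem chi_mul (σ τ : GQ) : chi (σ * τ) = chi σ + chi τ := by
  have key : ∀ u : ZMod 2, u = 0 ∨ u = 1 := by decide
  have h1 := apply_im σ
  have h2 := apply_im τ
  rcases key (chi σ) with e1 | e1 <;> rcases key (chi τ) with e2 | e2 <;>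
    simp only [e1, e2, if_true, one_ne_zero, if_false] at h1 h2 ⊢ <;>
    simp [chi, AlgEquiv.mul_apply, h1, h2, im_ne_neg.symm, CharTwo.add_self_eq_zero]

theorem exists_dz (σ : GQ) : ∃ u : ZMod 4, σ ζ₅ = ζ₅ ^ (2 ^ u.val) := by
  obtain ⟨j, hj, h⟩ := ζ₅_spec.eq_pow_of_pow_eq_one (ξ := σ ζ₅)
    (by rw [← map_pow, ζ₅_spec.pow_eq_one, map_one])
  interval_cases j
  · rw [pow_zero, eq_comm, ← map_one σ, σ.injective.eq_iff] at h
    exact absurd h (ζ₅_spec.ne_one (by norm_num))
  · exact ⟨0, h.symm⟩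
  · exact ⟨1, h.symm⟩
  · refine ⟨3, h.symm.trans ?_⟩
    rw [show (3 : ZMod 4).val = 3 from rfl, pow_eq_pow_mod (2 ^ 3) ζ₅_spec.pow_eq_one]
    norm_num
  · exact ⟨2, h.symm⟩

/-- The discrete logarithm to the base `2` of the action on the fifth roots of unity. -/
def dz (σ : GQ) : ZMod 4 := (exists_dz σ).choose

theorem dz_spec (σ : GQ) : σ ζ₅ = ζ₅ ^ (2 ^ (dz σ).val) := (exists_dz σ).choose_spec

theorem eq_dz {σ : GQ} {u : ZMod 4} (h : σ ζ₅ = ζ₅ ^ (2 ^ u.val)) : dz σ = u := by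
  have h1 := (dz_spec σ).symm.trans h
  rw [pow_eq_pow_mod _ ζ₅_spec.pow_eq_one, pow_eq_pow_mod (2 ^ u.val) ζ₅_spec.pow_eq_one] at h1
  have h2 := ζ₅_spec.pow_inj (Nat.mod_lt _ (by norm_num)) (Nat.mod_lt _ (by norm_num)) h1
  exact (by decide : ∀ a b : ZMod 4, 2 ^ a.val % 5 = 2 ^ b.val % 5 → a = b) _ _ h2

theorem dz_mul (σ τ : GQ) : dz (σ * τ) = dz σ + dz τ := by
  refine eq_dz ?_
  rw [AlgEquiv.mul_apply, dz_spec τ, map_pow, dz_spec σ, ← pow_mul,
    pow_eq_pow_mod _ ζ₅_spec.pow_eq_one,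
    pow_eq_pow_mod (2 ^ (dz σ + dz τ).val) ζ₅_spec.pow_eq_one]
  congr 1
  generalize dz σ = u
  generalize dz τ = v
  revert u v
  decide

theorem dz_one : dz 1 = 0 := eq_dz (by simp)

theorem apply_sqrtFive (σ : GQ) :
    σ sqrtFive = if loBit (dz σ) = 0 then sqrtFive else -sqrtFive := by
  have key : ∀ u : ZMod 4, u = 0 ∨ u = 1 ∨ u = 2 ∨ u = 3 := by decide
  have h := dz_spec σ
  have e : ∀ n : ℕ, ζ₅ ^ n = ζ₅ ^ (n % 5) := fun n => pow_eq_pow_mod n ζ₅_spec.pow_eq_one
  rw [sqrtFive, map_sub, map_sub, map_add, map_pow, map_pow, map_pow, h]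
  rcases key (dz σ) with hu | hu | hu | hu <;> rw [hu]
  · rw [show loBit (0 : ZMod 4) = 0 from rfl, show (0 : ZMod 4).val = 0 from rfl]
    simp
  · rw [show loBit (1 : ZMod 4) = 1 from rfl, show (1 : ZMod 4).val = 1 from rfl]
    simp only [← pow_mul, one_ne_zero, if_false]
    rw [e (2 ^ 1 * 4), e (2 ^ 1 * 3)]
    norm_num
    ring
  · rw [show loBit (2 : ZMod 4) = 0 from rfl, show (2 : ZMod 4).val = 2 from rfl]
    simp only [← pow_mul, if_true]
    rw [e (2 ^ 2 * 4), e (2 ^ 2 * 2), e (2 ^ 2 * 3)]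
    norm_num
    ring
  · rw [show loBit (3 : ZMod 4) = 1 from rfl, show (3 : ZMod 4).val = 3 from rfl]
    simp only [← pow_mul, one_ne_zero, if_false]
    rw [e (2 ^ 3), e (2 ^ 3 * 4), e (2 ^ 3 * 2), e (2 ^ 3 * 3)]
    norm_num
    ring

theorem exists_my (σ : GQ) : ∃ u : ZMod 4, σ yRoot = im ^ u.val * yRoot := by
  have h5 : σ sqrtFive = sqrtFive ∨ σ sqrtFive = -sqrtFive := by
    rw [apply_sqrtFive]
    split_ifs <;> simp
  have hy : σ yRoot ^ 2 = σ sqrtFive := by rw [← map_pow, yRoot_sq]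
  rcases h5 with h | h <;> rw [h] at hy
  · rcases sq_eq_sq_iff_eq_or_eq_neg.mp (hy.trans yRoot_sq.symm) with h1 | h1
    · exact ⟨0, by simpa using h1⟩
    · exact ⟨2, by rw [show (2 : ZMod 4).val = 2 from rfl, im_sq, h1, neg_one_mul]⟩
  · have : σ yRoot ^ 2 = (im * yRoot) ^ 2 := by
      rw [hy, mul_pow, im_sq, yRoot_sq, neg_one_mul]
    rcases sq_eq_sq_iff_eq_or_eq_neg.mp this with h1 | h1
    · exact ⟨1, by rw [show (1 : ZMod 4).val = 1 from rfl, pow_one]; exact h1⟩
    · refine ⟨3, ?_⟩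
      rw [show (3 : ZMod 4).val = 3 from rfl, h1, pow_succ, im_sq]
      ring

/-- The exponent on the fourth root of `5`. -/
def my (σ : GQ) : ZMod 4 := (exists_my σ).choose

theorem my_spec (σ : GQ) : σ yRoot = im ^ (my σ).val * yRoot := (exists_my σ).choose_spec

theorem eq_my {σ : GQ} {u : ZMod 4} (h : σ yRoot = im ^ u.val * yRoot) : my σ = u :=
  ZMod.val_injective 4 (im_primitive.pow_inj (ZMod.val_lt _) (ZMod.val_lt _)
    (mul_right_cancel₀ yRoot_ne_zero ((my_spec σ).symm.trans h)))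

theorem my_mul (σ τ : GQ) :
    my (σ * τ) = my σ + (if chi σ = 0 then 1 else -1) * my τ := by
  refine eq_my ?_
  have him : σ im = im ^ (if chi σ = 0 then 1 else 3) := by
    rw [apply_im]
    split_ifs
    · rw [pow_one]
    · rw [show im ^ 3 = im ^ 2 * im by ring, im_sq, neg_one_mul]
  rw [AlgEquiv.mul_apply, my_spec τ, map_mul, map_pow, him, my_spec σ, ← pow_mul, ← mul_assoc,
    ← pow_add, pow_eq_pow_mod _ im_primitive.pow_eq_one,
    pow_eq_pow_mod ((my σ + _).val) im_primitive.pow_eq_one]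
  congr 2
  generalize chi σ = c
  generalize my σ = u
  generalize my τ = v
  revert c u v
  decide

/-- The low bits agree. -/
theorem loBit_my (σ : GQ) : loBit (my σ) = loBit (dz σ) := by
  have key : ∀ u : ZMod 4, u = 0 ∨ u = 1 ∨ u = 2 ∨ u = 3 := by decide
  have key2 : ∀ u : ZMod 2, u = 0 ∨ u = 1 := by decide
  have hne : sqrtFive ≠ -sqrtFive := fun h => sqrtFive_ne_zero (by linear_combination (1/2 : Ω) * h)
  have h1 := apply_sqrtFive σ
  conv_lhs at h1 => rw [← yRoot_sq, map_pow, my_spec, mul_pow, ← pow_mul, yRoot_sq, mul_comm _ 2,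
    pow_mul, im_sq]
  rcases key (my σ) with hu | hu | hu | hu <;> rcases key2 (loBit (dz σ)) with hv | hv <;>
    rw [hu, hv] at h1 ⊢ <;>
    first
      | rfl
      | (simp [show (0 : ZMod 4).val = 0 from rfl, show (1 : ZMod 4).val = 1 from rfl,
          show (2 : ZMod 4).val = 2 from rfl, show (3 : ZMod 4).val = 3 from rfl,
          pow_succ, hne, hne.symm] at h1)

/-- `a ∪ a` is the coboundary of the high bit of `dz`. -/
theorem hiBit_dz_mul (σ τ : GQ) :
    hiBit (dz (σ * τ)) = hiBit (dz σ) + hiBit (dz τ) + loBit (dz σ) * loBit (dz τ) := by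
  rw [dz_mul]
  generalize dz σ = u
  generalize dz τ = v
  revert u v
  decide

theorem loBit_dz_mul (σ τ : GQ) : loBit (dz (σ * τ)) = loBit (dz σ) + loBit (dz τ) := by
  rw [dz_mul]
  generalize dz σ = u
  generalize dz τ = v
  revert u v
  decide

/-- `(a + χ) ∪ a` is the coboundary of the high bit of `my`. -/
theorem hiBit_my_mul (σ τ : GQ) :
    hiBit (my (σ * τ)) = hiBit (my σ) + hiBit (my τ) +
      (loBit (dz σ) + chi σ) * loBit (dz τ) := by
  rw [my_mul, ← loBit_my, ← loBit_my]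
  generalize chi σ = c
  generalize my σ = u
  generalize my τ = v
  revert c u v
  decide

/-- A finite level for the three functions. -/
def rootField : IntermediateField ℚ Ω := IntermediateField.adjoin ℚ {ζ₅, im, yRoot}

instance : FiniteDimensional ℚ rootField := by
  have : Algebra.IsAlgebraic ℚ Ω := AlgebraicClosure.isAlgebraic ℚ
  exact IntermediateField.finiteDimensional_adjoin fun z _ => Algebra.IsIntegral.isIntegral z

theorem rootField_fix {u : GQ} (hu : u ∈ rootField.fixingSubgroup) :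
    dz u = 0 ∧ chi u = 0 ∧ my u = 0 := by
  have h := fun z hz => (IntermediateField.mem_fixingSubgroup_iff _ u).mp hu z
    (IntermediateField.subset_adjoin ℚ _ hz)
  exact ⟨eq_dz (by simpa using h ζ₅ (by simp)), (chi_eq_zero_iff u).mpr (h im (by simp)),
    eq_my (by simpa using h yRoot (by simp))⟩

/-- Inertia at `2` fixes the fifth roots of unity. -/
theorem dz_inertia {P : ValuationSubring Ω} (hP : P.LiesOverPrime 2) {τ : GQ}
    (hτ : τ ∈ P.inertiaSubgroupIn ℚ) : dz τ = 0 :=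
  eq_dz (by
    simpa using Fermat.Agent.EllLocal.inertia_rootOfUnity Nat.prime_two hP (d := 5) (by norm_num)
      hτ ζ₅_spec.pow_eq_one)

/-- Frobenius at `2` squares them. -/
theorem dz_frobenius {P : ValuationSubring Ω} (hP : P.LiesOverPrime 2) {φ : GQ}
    (hφ : P.IsFrobeniusAt φ 2) : dz φ = 1 :=
  eq_dz (by
    rw [show (1 : ZMod 4).val = 1 from rfl, pow_one]
    exact Fermat.Agent.TameInertia.frobenius_root_of_unity Nat.prime_two hP hφ
      (N := 5) (by norm_num) ζ₅_spec.pow_eq_one)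

end Fermat.Agent.TwoAdic.Selmer.Crys
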