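import Fermat.Agent.TwoAdic.Selmer.CrysSecond
import Fermat.Agent.TwoAdic.Blueprint.Selmer
import Fermat.Agent.TwoAdic.Pair.EntryIdeal
import Fermat.Agent.TwoAdic.PatchingDouble
import Fermat.Agent.CFT.Inputs

/-!
# The key lemma of the crystalline patching at 2

For the auxiliary set `A` killing the crystalline classes with values in the projective summand and
any Taylor–Wiles primes, the universal ring of pairs is a quotient of `O⟦x', t⟧` with `t ↦ α - 1`,
`J = (ϖ, x')` is the entry ideal, and `(α - 1) ^ 2 ∈ J`: otherwise the part of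
order `t ^ 2` is a crystalline class with trace `1` at Frobenius.
-/

set_option autoImplicit false

noncomputable section

open IsLocalRing GaloisRep Fermat.Agent.DefRing Fermat.Agent.TameInertia Fermat.Agent.Deform
  Fermat.Agent.GalCoh Matrix

namespace Fermat.Agent.TwoAdic.Selmer

attribute [local instance 10000] dualAlgebra

local notation "Ω" => AlgebraicClosure ℚ

variable {𝒪 : Type} [CommRing 𝒪] [IsLocalRing 𝒪] [Finite (ResidueField 𝒪)] (D : NormalData 𝒪)

omit [Finite (ResidueField 𝒪)] in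
/-- The reduction of a first order deformation. -/
theorem fst_of_isDef {𝒟 : ∀ ⦃A : Type⦄ [CommRing A] [IsLocalRing A] [Algebra 𝒪 A],
    GaloisRepAdic A → Prop} {hl : IsLocalHom (algebraMap 𝒪 (DualNumber (ResidueField 𝒪)))}
    {hs : Function.Surjective
      (residue (DualNumber (ResidueField 𝒪)) ∘ algebraMap 𝒪 (DualNumber (ResidueField 𝒪)))}
    {N : MRep (DualNumber (ResidueField 𝒪))} (hN : IsDef D 𝒟 hl hs N) (g : GQ) :
    (N g).map TrivSqZeroExt.fst = D.rbar g :=
  Matrix.ext fun a b => by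
    have h1 := congrFun (congrFun (DFunLike.congr_fun hN.reduces g) a) b
    rw [← h1, Matrix.map_apply]
    obtain ⟨o, ho⟩ := exists_algebraMap_add_mem hs (N g a b)
    have h2 := (toResidue_eq_zero_iff hl hs).mpr ho
    rw [map_sub, sub_eq_zero, AlgHom.commutes] at h2
    show _ = toResidue hl hs (N g a b)
    rw [h2]
    by_contra hne
    exact ho (TrivSqZeroExt.isUnit_iff_isUnit_fst.mpr (isUnit_iff_ne_zero.mpr (by
      rw [TrivSqZeroExt.fst_sub, dual_algebraMap, TrivSqZeroExt.fst_inl, sub_ne_zero]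
      exact hne)))

omit [Finite (ResidueField 𝒪)] in
/-- The universal representation gives a deformation over every test algebra it maps to. -/
theorem isDef_map_universal {E : LiftData} {Q : Finset ℕ} {C : Set (GQ × GQ)}
    {h : Pair.IsResidualPair D E Q C} (U : (Pair.pairFunctor h).UniversalPoint) {B : Type}
    [CommRing B] [IsLocalRing B] [Algebra 𝒪 B] (hB : IsArtinianTestAlgebra 𝒪 B)
    (ψ : U.R →ₐ[𝒪] B) (hψ : IsLocalHom (ψ : U.R →+* B)) :
    IsDef D (E.pairCond Q C 𝒪) hB.isLocalHom hB.residue_surjective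
      (mapRep (ψ : U.R →+* B) (Pair.uRep U)) := by
  obtain ⟨⟨⟨⟨-, N, hN, hn, hc, hD⟩, -⟩, -⟩, -⟩ := U.mem_map hB ψ hψ
  obtain rfl : N = mapRep (ψ : U.R →+* B) (Pair.uRep U) :=
    MonoidHom.ext fun σ => Matrix.ext fun a b => by
      refine (congrFun hN (σ, a, b)).trans ?_
      show ψ (U.point _) = ψ (Pair.uRep U σ a b)
      rw [← Pair.coords_universal U]
      rfl
  exact ⟨hn, (Pair.isPair_universal U).isDef.reduces.map ψ hψ, hc, hD⟩

section Bound

variable [CharP (ResidueField 𝒪) 2]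

/-- Finitely many entries separate the normalised cocycles of a space of bounded classes. -/
theorem exists_separating_entries {S : Finset Nat.Primes}
    (W : Submodule (ResidueField 𝒪) (GQ → Matrix (Fin 2) (Fin 2) (ResidueField 𝒪)))
    (hlev : ∃ U, (levelsS S).mem U ∧ ∀ s ∈ U, D.rbar s = 1) {n : ℕ}
    (hle : ∀ [FiniteDimensional (ResidueField 𝒪)
        ↥(Submodule.comap (Z1 (levelsS S) (adRep D.rbar)).subtype W)],
      Module.finrank (ResidueField 𝒪) ↥(Submodule.map (H1mk (levelsS S) (adRep D.rbar))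
        (Submodule.comap (Z1 (levelsS S) (adRep D.rbar)).subtype W)) ≤ n) :
    ∃ s : Finset (GQ × Fin 2 × Fin 2), s.card ≤ n ∧
      ∀ c ∈ (Z1 (levelsS S) (adRep D.rbar) ⊓ W) ⊓ normalCocycles D,
        (∀ p ∈ s, (c p.1 * D.rbar p.1) p.2.1 p.2.2 = 0) → ∀ σ, c σ = 0 := by
  classical
  have := finite_Z1_levelS S hlev
  let Zs := Submodule.comap (Z1 (levelsS S) (adRep D.rbar)).subtype W
  have : FiniteDimensional (ResidueField 𝒪) Zs := Module.Finite.of_finite
  set T := (Z1 (levelsS S) (adRep D.rbar) ⊓ W) ⊓ normalCocycles D with hT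
  have : Finite T := Finite.of_injective
    (fun c : T => (⟨c.1, c.2.1.1⟩ : Z1 (levelsS S) (adRep D.rbar)))
    fun c c' h => Subtype.ext (congrArg Subtype.val h :)
  have : FiniteDimensional (ResidueField 𝒪) T := Module.Finite.of_finite
  let Ψ : (GQ → Matrix (Fin 2) (Fin 2) (ResidueField 𝒪)) →ₗ[ResidueField 𝒪]
      (GQ × Fin 2 × Fin 2 → ResidueField 𝒪) :=
    { toFun := fun c => coordsOf fun σ => c σ * D.rbar σ
      map_add' := fun c c' => funext fun p => by simp [coordsOf, add_mul]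
      map_smul' := fun m c => funext fun p => by simp [coordsOf] }
  have : FiniteDimensional (ResidueField 𝒪) (T.map Ψ) := Module.Finite.map T Ψ
  obtain ⟨s, hs, hsep⟩ := exists_separating_coords (T.map Ψ)
  refine ⟨s, hs.trans ((Submodule.finrank_map_le Ψ T).trans ?_), fun c hc h0 σ => ?_⟩
  · let Φ : T →ₗ[ResidueField 𝒪] ↥(Submodule.map (H1mk (levelsS S) (adRep D.rbar)) Zs) :=
      LinearMap.codRestrict _ ((H1mk (levelsS S) (adRep D.rbar)).comp
        (LinearMap.codRestrict (Z1 (levelsS S) (adRep D.rbar)) T.subtype fun c => c.2.1.1))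
        fun c => ⟨⟨c.1, c.2.1.1⟩, c.2.1.2, rfl⟩
    have : FiniteDimensional (ResidueField 𝒪)
        ↥(Submodule.map (H1mk (levelsS S) (adRep D.rbar)) Zs) := Module.Finite.map Zs _
    refine (LinearMap.finrank_le_finrank_of_injective (f := Φ) ?_).trans hle
    rw [← LinearMap.ker_eq_bot, LinearMap.ker_eq_bot']
    intro c hc
    have h1 := congrArg Subtype.val hc
    exact Subtype.ext (eq_zero_of_mem_normalCocycles_of_mem_B1 c.2.2
      (H1mk_eq_zero_iff.mp h1))
  · have h1 := hsep (Ψ c) ⟨c, hc, rfl⟩ fun p hp => h0 p hp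
    have h2 : c σ * D.rbar σ = 0 := Matrix.ext fun a b => congrFun h1 (σ, a, b)
    calc c σ = c σ * D.rbar σ * D.rbar σ⁻¹ := by rw [mul_assoc, r_mul_inv, mul_one]
      _ = 0 := by rw [h2, zero_mul]

end Bound

variable [CharP (ResidueField 𝒪) 2] [IsNoetherianRing 𝒪] [IsAdicComplete (maximalIdeal 𝒪) 𝒪]

variable {E : LiftData} (hr : IsDihedralResidual E.D D.rbar) (hc : IsCont D.rbar) {g₀ : GQ}
  (hg₀ : ¬ IsTransp D.rbar g₀) (hg₁ : D.rbar g₀ ≠ 1) {A : Finset ℕ}
  (hA : IsAuxSet E.D D.rbar A) (hA' : ∀ q ∈ A, q.Prime ∧ q ≠ 2 ∧ ¬ q ∣ E.D) {f : ℕ → ℕ}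
  (hf : IsTWPattern D E f) (K : Pair.KummerPair)
  (hker : ∀ c ∈ crysSpace E.D D.rbar g₀ A, ∀ h, D.rbar h = 1 → c h = 0)

local notation "Rg" =>
  LiftData.pairCond (LiftData.withAux E A hA') (Finset.image f (E.D.primeFactors.erase E.ℓ₀))
    {(K.s, K.t)} 𝒪

include hr hc hg₀ hg₁ hA hf in
omit [IsNoetherianRing 𝒪] [IsAdicComplete (maximalIdeal 𝒪) 𝒪] in
/-- The entries of the universal representation have differentials in the span of the separating
ones. -/
theorem entry_mem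
    {h : Pair.IsResidualPair D (E.withAux A hA') ((E.D.primeFactors.erase E.ℓ₀).image f)
      {(K.s, K.t)}} (U : (Pair.pairFunctor h).UniversalPoint) (J : Ideal U.R)
    (hJ : (maximalIdeal 𝒪).map (algebraMap 𝒪 U.R) ≤ J) (hJle : J ≤ maximalIdeal U.R)
    (oc : GQ × Fin 2 × Fin 2 → 𝒪)
    (hoc : ∀ p : GQ × Fin 2 × Fin 2,
      Pair.uRep U p.1 p.2.1 p.2.2 - algebraMap 𝒪 U.R (oc p) ∈ maximalIdeal U.R)
    (s : Finset (GQ × Fin 2 × Fin 2))
    (hsJ : ∀ p ∈ s, Pair.uRep U p.1 p.2.1 p.2.2 - algebraMap 𝒪 U.R (oc p) ∈ J)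
    (hsep : ∀ c ∈ (Z1 (levelsS (ramSet E.D A ((E.D.primeFactors.erase E.ℓ₀).image f)))
        (adRep D.rbar) ⊓ (selmerCond E.D E.ℓ₀ D.rbar g₀ A ⊓ crysSub D.rbar)) ⊓ normalCocycles D,
      (∀ p ∈ s, (c p.1 * D.rbar p.1) p.2.1 p.2.2 = 0) → ∀ σ, c σ = 0)
    (p : GQ × Fin 2 × Fin 2) :
    Pair.uRep U p.1 p.2.1 p.2.2 - algebraMap 𝒪 U.R (oc p) ∈ J ⊔ maximalIdeal U.R ^ 2 := by
  have hl : IsLocalHom (algebraMap 𝒪 U.R) := U.instIsLocalHom
  have hsR := U.residue_surjective
  have hp := Pair.isPair_universal U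
  set t := Pair.uRoot U - 1 with ht
  have htm : t ∈ maximalIdeal U.R := by
    rw [← toResidue_eq_zero_iff U.instIsLocalHom hsR, ht, map_sub, map_one, hp.residue_eq, sub_self]
  let coord : GQ × Fin 2 × Fin 2 → U.R := fun p => Pair.uRep U p.1 p.2.1 p.2.2
  by_contra hK
  have : Nontrivial (U.R ⧸ J) := Ideal.Quotient.nontrivial_iff.mpr fun h' =>
    (maximalIdeal.isMaximal U.R).ne_top (top_le_iff.mp (h' ▸ hJle))
  have : IsLocalRing (U.R ⧸ J) :=
    IsLocalRing.of_surjective' (Ideal.Quotient.mk J) Ideal.Quotient.mk_surjective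
  have hq : IsLocalHom (Ideal.Quotient.mk J) :=
    isLocalHom_of_surjective' _ Ideal.Quotient.mk_surjective
  have hlQ : IsLocalHom (algebraMap 𝒪 (U.R ⧸ J)) :=
    RingHom.isLocalHom_comp (Ideal.Quotient.mk J) (algebraMap 𝒪 U.R)
  have hsQ : Function.Surjective (residue (U.R ⧸ J) ∘ algebraMap 𝒪 (U.R ⧸ J)) := fun z => by
    obtain ⟨c, rfl⟩ := IsLocalRing.residue_surjective z
    obtain ⟨c, rfl⟩ := Ideal.Quotient.mk_surjective c
    obtain ⟨u, hu⟩ := hsR (residue U.R c)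
    exact ⟨u, congrArg (ResidueField.map (Ideal.Quotient.mk J)) hu⟩
  have hmap : (maximalIdeal U.R).map (Ideal.Quotient.mk J) = maximalIdeal (U.R ⧸ J) := by
    simpa using DefRing.map_maximalIdeal_of_surjective (Ideal.Quotient.mk J)
      Ideal.Quotient.mk_surjective 1
  have hπ : (maximalIdeal 𝒪).map (algebraMap 𝒪 (U.R ⧸ J)) = ⊥ := by
    rw [Ideal.map_eq_bot_iff_le_ker]
    intro z hz
    rw [RingHom.mem_ker]
    exact Ideal.Quotient.eq_zero_iff_mem.mpr (hJ (Ideal.mem_map_of_mem _ hz))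
  obtain ⟨φ, hφ⟩ := exists_algHom_dual_snd_ne_zero hlQ hsQ
    (y := Ideal.Quotient.mk J (coord p - algebraMap 𝒪 U.R (oc p)))
    (hmap ▸ Ideal.mem_map_of_mem _ (hoc p)) (by
      rw [hπ, sup_bot_eq, ← hmap, ← Ideal.map_pow, ← Ideal.mem_comap,
        Ideal.comap_map_of_surjective _ Ideal.Quotient.mk_surjective]
      rw [show Ideal.comap (Ideal.Quotient.mk J) ⊥ = J from Ideal.mk_ker, sup_comm]
      exact hK)
  let ψ : U.R →ₐ[𝒪] DualNumber (ResidueField 𝒪) := φ.comp (Ideal.Quotient.mkₐ 𝒪 J)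
  have hψl := isLocalHom_toDual ψ
  have hψJ : ∀ z ∈ J, ψ z = 0 := fun z hz => by
    show φ (Ideal.Quotient.mk J z) = 0
    rw [Ideal.Quotient.eq_zero_iff_mem.mpr hz, map_zero]
  have hsnd : ∀ q, (ψ (coord q - algebraMap 𝒪 U.R (oc q))).snd = (ψ (coord q)).snd := fun q => by
    rw [map_sub, AlgHom.commutes, TrivSqZeroExt.snd_sub, dual_algebraMap, TrivSqZeroExt.snd_inl,
      sub_zero]
  have hdual := isArtinianTestAlgebra_dual (𝒪 := 𝒪)
  let N : TangentSet D Rg :=
    ⟨mapRep (ψ : U.R →+* _) (Pair.uRep U), isDef_map_universal D U hdual ψ hψl⟩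
  have hfst := fst_of_isDef D N.2
  have hN : Pair.IsTangentPair D (E.withAux A hA') ((E.D.primeFactors.erase E.ℓ₀).image f) {(K.s, K.t)} N := by
    refine ⟨(ψ (Pair.uRoot U)).snd, ?_⟩
    have h1 : (ψ (Pair.uRoot U)).fst = 1 := by
      by_contra hne
      have hu : IsUnit ((ψ : U.R →+* DualNumber (ResidueField 𝒪)) t) :=
        TrivSqZeroExt.isUnit_iff_isUnit_fst.mpr (isUnit_iff_ne_zero.mpr (by
          rw [ht, map_sub, map_one, TrivSqZeroExt.fst_sub, TrivSqZeroExt.fst_one, sub_ne_zero]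
          exact hne))
      exact htm (hψl.map_nonunit _ hu)
    have h2 := hp.ordinary.map (ψ : U.R →+* DualNumber (ResidueField 𝒪))
    rw [show (TrivSqZeroExt.inl 1 + TrivSqZeroExt.inr (ψ (Pair.uRoot U)).snd :
        DualNumber (ResidueField 𝒪)) = ψ (Pair.uRoot U) by
      rw [← h1]; exact TrivSqZeroExt.inl_fst_add_inr_snd_eq _]
    exact h2
  have hmem := tangentPair_mem D hr hc hg₀ hg₁ hA hA' hf K N hN
  have hzero := hsep (cocOf D.rbar N.1)
    ⟨hmem, cocOf_mul hfst, (liftOf_cocOf hfst).symm ▸ N.2.normal⟩ fun q hq => by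
      rw [← snd_eq_cocOf_mul]
      show (ψ (coord q)).snd = 0
      have h0 := hψJ _ (hsJ q hq)
      rw [← hsnd, h0]
      rfl
  refine hφ ?_
  show (ψ (coord p - algebraMap 𝒪 U.R (oc p))).snd = 0
  rw [hsnd]
  have h2 := congrFun (congrFun (snd_eq_cocOf_mul (ρ := D.rbar) (N := N.1) p.1) p.2.1) p.2.2
  rw [hzero, zero_mul] at h2
  exact h2

omit [Finite (ResidueField 𝒪)] [CharP (ResidueField 𝒪) 2] [IsNoetherianRing 𝒪] [IsAdicComplete (maximalIdeal 𝒪) 𝒪] in
/-- `J` and `α - 1` generate the maximal ideal. -/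
theorem maximalIdeal_le
    {E : LiftData} {Q : Finset ℕ} {C : Set (GQ × GQ)}
    {h : Pair.IsResidualPair D E Q C} (U : (Pair.pairFunctor h).UniversalPoint) (J : Ideal U.R)
    (hJ : (maximalIdeal 𝒪).map (algebraMap 𝒪 U.R) ≤ J) (hJle : J ≤ maximalIdeal U.R)
    (htm : Pair.uRoot U - 1 ∈ maximalIdeal U.R) (oc : GQ × Fin 2 × Fin 2 → 𝒪)
    (hent : ∀ p : GQ × Fin 2 × Fin 2,
      Pair.uRep U p.1 p.2.1 p.2.2 - algebraMap 𝒪 U.R (oc p) ∈ J ⊔ maximalIdeal U.R ^ 2) :
    maximalIdeal U.R ≤ J ⊔ Ideal.span {Pair.uRoot U - 1} := by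
  set t := Pair.uRoot U - 1 with ht
  have h2 : maximalIdeal U.R ≤ (J ⊔ Ideal.span {t}) ⊔ maximalIdeal U.R ^ 2 := by
    intro z hz
    obtain ⟨u, hu, hzu⟩ := Pair.universal_topGen U z 2
    have hconst : ∃ o : 𝒪, u - algebraMap 𝒪 U.R o ∈
        (J ⊔ Ideal.span {t}) ⊔ maximalIdeal U.R ^ 2 := by
      clear hzu
      induction hu using Algebra.adjoin_induction with
      | mem w hw =>
        rcases hw with rfl | ⟨p, rfl⟩
        · exact ⟨1, Ideal.mem_sup_left (Ideal.mem_sup_right (by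
            rw [map_one]; exact Ideal.mem_span_singleton_self t))⟩
        · exact ⟨oc p, (sup_le_sup_right le_sup_left _ : J ⊔ _ ≤ _) (hent p)⟩
      | algebraMap o => exact ⟨o, by rw [sub_self]; exact zero_mem _⟩
      | add w w' _ _ h h' =>
        obtain ⟨o, ho⟩ := h
        obtain ⟨o', ho'⟩ := h'
        exact ⟨o + o', by rw [map_add, add_sub_add_comm]; exact add_mem ho ho'⟩
      | mul w w' _ _ h h' =>
        obtain ⟨o, ho⟩ := h
        obtain ⟨o', ho'⟩ := h'
        refine ⟨o * o', ?_⟩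
        rw [map_mul, show w * w' - algebraMap 𝒪 U.R o * algebraMap 𝒪 U.R o' =
          (w - algebraMap 𝒪 U.R o) * w' + algebraMap 𝒪 U.R o * (w' - algebraMap 𝒪 U.R o') by
          ring]
        exact add_mem (Ideal.mul_mem_right _ _ ho) (Ideal.mul_mem_left _ _ ho')
    obtain ⟨o, ho⟩ := hconst
    have h1 : z - algebraMap 𝒪 U.R o ∈ (J ⊔ Ideal.span {t}) ⊔ maximalIdeal U.R ^ 2 := by
      rw [show z - algebraMap 𝒪 U.R o = (z - u) + (u - algebraMap 𝒪 U.R o) by ring]
      exact add_mem (Ideal.mem_sup_right hzu) ho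
    have hle : (J ⊔ Ideal.span {t}) ⊔ maximalIdeal U.R ^ 2 ≤ maximalIdeal U.R :=
      sup_le (sup_le hJle ((Ideal.span_singleton_le_iff_mem _).mpr htm))
        (Ideal.pow_le_self two_ne_zero)
    have ho' : algebraMap 𝒪 U.R o ∈ maximalIdeal U.R := by
      simpa using sub_mem hz (hle h1)
    have ho'' : o ∈ maximalIdeal 𝒪 := fun hu' => ho' (hu'.map _)
    simpa using add_mem h1 (Ideal.mem_sup_left (Ideal.mem_sup_left
      (hJ (Ideal.mem_map_of_mem (algebraMap 𝒪 U.R) ho''))))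
  refine Submodule.le_of_le_smul_of_le_jacobson_bot (I := maximalIdeal U.R)
    (IsNoetherian.noetherian _) (IsLocalRing.maximalIdeal_le_jacobson _) ?_
  rwa [smul_eq_mul, ← pow_two]

include hr hc hg₀ hg₁ hA hf hker in
omit [IsNoetherianRing 𝒪] [IsAdicComplete (maximalIdeal 𝒪) 𝒪] in
/-- The square of `α - 1` lies in `J`. -/
theorem root_sq_mem
    {h : Pair.IsResidualPair D (E.withAux A hA') ((E.D.primeFactors.erase E.ℓ₀).image f)
      {(K.s, K.t)}} (U : (Pair.pairFunctor h).UniversalPoint) (J : Ideal U.R)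
    (hJ : (maximalIdeal 𝒪).map (algebraMap 𝒪 U.R) ≤ J) (hJle : J ≤ maximalIdeal U.R)
    (htm : Pair.uRoot U - 1 ∈ maximalIdeal U.R)
    (hsup : maximalIdeal U.R ≤ J ⊔ Ideal.span {Pair.uRoot U - 1})
    (oc : GQ × Fin 2 × Fin 2 → 𝒪)
    (hent2 : ∀ p : GQ × Fin 2 × Fin 2, Pair.uRep U p.1 p.2.1 p.2.2 - algebraMap 𝒪 U.R (oc p) ∈
      J ⊔ Ideal.span {(Pair.uRoot U - 1) ^ 2}) :
    (Pair.uRoot U - 1) ^ 2 ∈ J := by
  refine sq_mem_of_mem_sup_cube J htm (Classical.byContradiction fun h3 => ?_)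
  obtain ⟨B, _, _, _, q, ι, hB, hql, hιinj, h2B, hsq, hcube, hlift⟩ :=
    exists_secondOrder U.instIsLocalHom U.residue_surjective J _ hJ hJle htm hsup h3
  have hlift2 : ∀ p : GQ × Fin 2 × Fin 2, ∃ z, ι z = q (Pair.uRep U p.1 p.2.1 p.2.2) := fun p => by
    obtain ⟨w, hw⟩ := hlift _ (hent2 p)
    refine ⟨algebraMap 𝒪 _ (oc p) + w, ?_⟩
    rw [map_add, AlgHom.commutes, hw, map_sub, AlgHom.commutes, add_sub_cancel]
  choose zf hzf using hlift2
  let N₂ : MRep (DualNumber (ResidueField 𝒪)) :=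
    { toFun := fun σ => Matrix.of fun a b => zf (σ, a, b)
      map_one' := Matrix.ext fun a b => hιinj (by
        rw [Matrix.of_apply, hzf]
        show q (Pair.uRep U 1 a b) = _
        rw [map_one, Matrix.one_apply, Matrix.one_apply]
        split_ifs <;> simp)
      map_mul' := fun σ τ => Matrix.ext fun a b => hιinj (by
        rw [Matrix.of_apply, hzf]
        show q (Pair.uRep U (σ * τ) a b) = _
        simp only [map_mul, Matrix.mul_apply, Fin.sum_univ_two, map_add, Matrix.of_apply, hzf]) }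
  have hN₂ : mapRep (ι : DualNumber (ResidueField 𝒪) →+* B) N₂ =
      mapRep (q : U.R →+* B) (Pair.uRep U) :=
    MonoidHom.ext fun σ => Matrix.ext fun a b => hzf (σ, a, b)
  have hdef2 : IsDef D Rg (isArtinianTestAlgebra_dual (𝒪 := 𝒪)).isLocalHom
      (isArtinianTestAlgebra_dual (𝒪 := 𝒪)).residue_surjective N₂ :=
    IsDef.descend (hlB := hB.isLocalHom) (hsB := hB.residue_surjective)
      (Pair.isDeformationCondition_pairCond (E.withAux A hA') _ {(K.s, K.t)})
      (isArtinianTestAlgebra_dual (𝒪 := 𝒪)) hB ι hιinj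
      (by rw [hN₂]; exact isDef_map_universal D U hB q hql)
  refine secondOrder_false D hr hc hg₀ hg₁ hA hA' hf K hker ⟨N₂, hdef2⟩ ι hιinj h2B
    (α := (q : U.R →+* B) (Pair.uRoot U)) (tb := q (Pair.uRoot U - 1)) ?_ hsq hcube ?_
  · rw [map_sub, map_one]
    show q _ = _
    ring
  · intro P hP φ hφ n n' τ hτ τ' hτ'
    have h := ((Pair.isPair_universal U).ordinary.map (q : U.R →+* B)) P hP φ hφ n n' τ hτ τ' hτ'
    have e : ∀ σ, (N₂ σ).map (ι : DualNumber (ResidueField 𝒪) →+* B) =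
        (Pair.uRep U σ).map (q : U.R →+* B) := fun σ => DFunLike.congr_fun hN₂ σ
    simp only [e]
    exact h

include hr hc hg₀ hg₁ hA hf hker in
/-- **Key lemma**, for an auxiliary set killing the crystalline classes. -/
theorem keyLemma_of
    {h : Pair.IsResidualPair D (E.withAux A hA') ((E.D.primeFactors.erase E.ℓ₀).image f)
      {(K.s, K.t)}} (U : (Pair.pairFunctor h).UniversalPoint) :
    ∃ φ : MvPowerSeries (Fin ((E.D.primeFactors.erase E.ℓ₀).card + 1)) 𝒪 →ₐ[𝒪] U.R,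
      Function.Surjective φ ∧ φ (MvPowerSeries.X (Fin.last _)) = Pair.uRoot U - 1 ∧
      (xIdeal 𝒪 (E.D.primeFactors.erase E.ℓ₀).card).map φ = Pair.entryIdeal U ∧
      (Pair.uRoot U - 1) ^ 2 ∈ Pair.entryIdeal U := by
  classical
  have hD8 := E.mod_eight
  set r := (E.D.primeFactors.erase E.ℓ₀).card with hrcard
  set Q := (E.D.primeFactors.erase E.ℓ₀).image f with hQ
  set S := ramSet E.D A Q with hS
  set W := selmerCond E.D E.ℓ₀ D.rbar g₀ A ⊓ crysSub D.rbar with hW
  have hl : IsLocalHom (algebraMap 𝒪 U.R) := U.instIsLocalHom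
  have hsR := U.residue_surjective
  have hp := Pair.isPair_universal U
  set t := Pair.uRoot U - 1 with ht
  have htm : t ∈ maximalIdeal U.R := by
    rw [← toResidue_eq_zero_iff U.instIsLocalHom hsR, ht, map_sub, map_one, hp.residue_eq, sub_self]
  have hlev : ∃ U', (levelsS S).mem U' ∧ ∀ s ∈ U', D.rbar s = 1 :=
    trivial_levelS hr hc ((Finset.subset_union_left.trans (Finset.subset_insert _ _)).trans
      Finset.subset_union_left) (by omega)
  obtain ⟨s, hscard, hsep⟩ := exists_separating_entries D W hlev (n := r)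
    (finrank_crys_le D hr hc hg₀ hg₁ hA hf hker)
  obtain ⟨e⟩ : Nonempty (s ↪ Fin r) :=
    Function.Embedding.nonempty_of_card_le (by simpa using hscard)
  let coord : GQ × Fin 2 × Fin 2 → U.R := fun p => Pair.uRep U p.1 p.2.1 p.2.2
  choose oc hoc using fun p => exists_algebraMap_add_mem hsR (coord p)
  let x : Fin r → U.R := fun l =>
    if h : ∃ i : s, e i = l then coord h.choose - algebraMap 𝒪 U.R (oc h.choose) else 0
  have hx : ∀ l, x l ∈ maximalIdeal U.R := fun l => by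
    by_cases h : ∃ i : s, e i = l
    · simp only [x, dif_pos h]; exact hoc _
    · simp only [x, dif_neg h]; exact zero_mem _
  set J := (maximalIdeal 𝒪).map (algebraMap 𝒪 U.R) ⊔ Ideal.span (Set.range x) with hJ
  have hJle : J ≤ maximalIdeal U.R := sup_le
    (Ideal.map_le_iff_le_comap.mpr fun o ho hu => ho (hl.map_nonunit o hu))
    (Ideal.span_le.mpr (by rintro _ ⟨l, rfl⟩; exact hx l))
  have hJ0 : (maximalIdeal 𝒪).map (algebraMap 𝒪 U.R) ≤ J := le_sup_left
  have hent := entry_mem D hr hc hg₀ hg₁ hA hA' hf K U J hJ0 hJle oc hoc s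
    (fun q hq => by
      have hex : ∃ j : s, e j = e ⟨q, hq⟩ := ⟨⟨q, hq⟩, rfl⟩
      have hsame : (hex.choose : GQ × Fin 2 × Fin 2) = q :=
        congrArg Subtype.val (e.injective hex.choose_spec)
      have h0 : x (e ⟨q, hq⟩) ∈ J := Ideal.mem_sup_right (Ideal.subset_span ⟨_, rfl⟩)
      simp only [x, dif_pos hex, hsame] at h0
      exact h0) hsep
  have hsup := maximalIdeal_le D U J hJ0 hJle htm oc hent
  have hsq : maximalIdeal U.R ^ 2 ≤ J ⊔ Ideal.span {t ^ 2} := by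
    rw [pow_two (maximalIdeal U.R)]
    exact (Ideal.mul_mono hsup hsup).trans (mul_self_le_sup J t)
  have hent2 : ∀ p, coord p - algebraMap 𝒪 U.R (oc p) ∈ J ⊔ Ideal.span {t ^ 2} := fun p =>
    sup_le le_sup_left hsq (hent p)
  have hocres : ∀ p, residue 𝒪 (oc p) = D.rbar p.1 p.2.1 p.2.2 := fun p => by
    have h1 := (toResidue_eq_zero_iff U.instIsLocalHom hsR).mpr (hoc p)
    rw [map_sub, sub_eq_zero, AlgHom.commutes] at h1
    have h2 := congrFun (congrFun (DFunLike.congr_fun hp.isDef.reduces p.1) p.2.1) p.2.2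
    exact h1.symm.trans h2
  have htsq : t ^ 2 ∈ J :=
    root_sq_mem D hr hc hg₀ hg₁ hA hA' hf K hker U J hJ0 hJle htm hsup oc hent2
  -- the map from the power series
  have : IsLocalHom (algebraMap 𝒪 U.R) := hl
  have hsnoc : ∀ i, Fin.snoc (α := fun _ => U.R) x t i ∈ maximalIdeal U.R := fun i => by
    refine Fin.lastCases ?_ (fun j => ?_) i
    · rw [Fin.snoc_last]; exact htm
    · rw [Fin.snoc_castSucc]; exact hx j
  obtain ⟨φ, hφl, hφX⟩ := exists_algHom_powerSeries (B := 𝒪) (σ := Fin (r + 1))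
    (Fin.snoc (α := fun _ => U.R) x t) hsnoc
  have hJX : J ≤ (xIdeal 𝒪 r).map φ := by
    refine sup_le (Ideal.map_le_iff_le_comap.mpr fun o ho => ?_) (Ideal.span_le.mpr ?_)
    · rw [Ideal.mem_comap, ← AlgHom.commutes (φ.comp (baseHom 𝒪 r)) o, AlgHom.comp_apply]
      refine Ideal.mem_map_of_mem _ (Ideal.mem_map_of_mem _ ?_)
      rw [mem_maximalIdeal_iff_constantCoeff, MvPowerSeries.algebraMap_apply,
        MvPowerSeries.constantCoeff_C]
      simpa using ho
    · rintro _ ⟨l, rfl⟩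
      have h1 : φ (baseHom 𝒪 r (MvPowerSeries.X l)) = x l := by
        rw [baseHom, MvPowerSeries.rename_X, hφX, Fin.snoc_castSucc]
      rw [SetLike.mem_coe, ← h1]
      exact Ideal.mem_map_of_mem _ (Ideal.mem_map_of_mem _ (X_mem_maximalIdeal l))
  have hXJ : (xIdeal 𝒪 r).map φ ≤ J := by
    rw [xIdeal, Ideal.map_le_iff_le_comap, Ideal.map_le_iff_le_comap]
    intro f hf
    rw [Ideal.mem_comap, Ideal.mem_comap, ← sub_add_cancel f
      (MvPowerSeries.C (MvPowerSeries.constantCoeff f)), map_add, map_add]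
    refine add_mem ?_ (Ideal.mem_sup_left ?_)
    · have h1 : Ideal.span (Set.range (MvPowerSeries.X : Fin r → MvPowerSeries (Fin r) 𝒪)) ≤
          Ideal.comap (baseHom 𝒪 r) (Ideal.comap φ J) := by
        rw [Ideal.span_le]
        rintro _ ⟨l, rfl⟩
        rw [SetLike.mem_coe, Ideal.mem_comap, Ideal.mem_comap, baseHom, MvPowerSeries.rename_X, hφX,
          Fin.snoc_castSucc]
        exact Ideal.mem_sup_right (Ideal.subset_span ⟨l, rfl⟩)
      refine h1 ?_
      have h2 := DefRing.sub_truncTotal_mem_span_pow f 1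
      rw [pow_one] at h2
      convert h2 using 2
      ext e
      rw [MvPolynomial.coeff_coe, MvPowerSeries.coeff_truncTotal_eq_ite, MvPowerSeries.coeff_C]
      rcases eq_or_ne e 0 with rfl | he
      · simp
      · rw [if_neg he, if_neg]
        have : Finsupp.degree e ≠ 0 := by simpa [Finsupp.degree_eq_zero_iff] using he
        omega
    · rw [show MvPowerSeries.C (MvPowerSeries.constantCoeff f) =
          algebraMap 𝒪 (MvPowerSeries (Fin r) 𝒪) (MvPowerSeries.constantCoeff f) from rfl,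
        AlgHom.commutes, AlgHom.commutes]
      exact Ideal.mem_map_of_mem _ ((mem_maximalIdeal_iff_constantCoeff f).mp hf)
  have hJE : J = Pair.entryIdeal U := by
    refine le_antisymm (sup_le le_sup_left (Ideal.span_le.mpr ?_)) (sup_le le_sup_left
      (Ideal.span_le.mpr ?_))
    · rintro _ ⟨l, rfl⟩
      by_cases h : ∃ i : s, e i = l
      · simp only [x, dif_pos h]
        exact Pair.sub_mem_entryIdealOf _ _ (hocres _)
      · simp only [x, dif_neg h]
        exact zero_mem _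
    · rintro _ ⟨σ, a, b, o, ho, rfl⟩
      have h1 : J ⊔ Ideal.span {t ^ 2} ≤ J :=
        sup_le le_rfl ((Ideal.span_singleton_le_iff_mem _).mpr htsq)
      have h2 : o - oc (σ, a, b) ∈ maximalIdeal 𝒪 := by
        rw [← residue_eq_zero_iff, map_sub, ho, hocres, sub_self]
      rw [SetLike.mem_coe, show Pair.uRep U σ a b - algebraMap 𝒪 U.R o =
        (coord (σ, a, b) - algebraMap 𝒪 U.R (oc (σ, a, b))) -
          algebraMap 𝒪 U.R (o - oc (σ, a, b)) by rw [map_sub]; ring]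
      exact sub_mem (h1 (hent2 _)) (Ideal.mem_sup_left (Ideal.mem_map_of_mem _ h2))
  have hXl : φ (MvPowerSeries.X (Fin.last r)) = t := by rw [hφX, Fin.snoc_last]
  have : IsAdicComplete (maximalIdeal (MvPowerSeries (Fin (r + 1)) 𝒪))
      (MvPowerSeries (Fin (r + 1)) 𝒪) := isAdicComplete_mvPowerSeries
  refine ⟨φ, surjective_of_cotangent (φ : MvPowerSeries (Fin (r + 1)) 𝒪 →+* U.R) (fun z => ?_) ?_,
    hXl, (le_antisymm hXJ hJX).trans hJE, hJE ▸ htsq⟩
  · obtain ⟨u, hu⟩ := hsR z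
    refine ⟨algebraMap 𝒪 _ u, ?_⟩
    show residue U.R (φ (algebraMap 𝒪 _ u)) = z
    rw [φ.commutes]
    exact hu
  · refine le_trans hsup (le_trans (sup_le (hJX.trans (Ideal.map_mono xIdeal_le)) ?_) le_sup_left)
    have h1 := Ideal.mem_map_of_mem φ (X_mem_maximalIdeal (O := 𝒪) (Fin.last r))
    rw [hXl] at h1
    exact (Ideal.span_singleton_le_iff_mem _).mpr h1

include hr hc in
/-- **Selmer bound and key lemma.** -/
theorem exists_aux_keyLemma
    (hA₀ : ∀ q ∈ E.aux, ∀ P : ValuationSubring Ω, P.LiesOverPrime q → ∀ φ : GQ,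
      P.IsFrobeniusAt φ q → (D.rbar φ).trace = 0 ∧ D.rbar φ ≠ 1) (X : Finset ℕ) :
    ∃ (A : Finset ℕ) (hA : ∀ q ∈ A, q.Prime ∧ q ≠ 2 ∧ ¬ q ∣ E.D),
      E.aux ⊆ A ∧ (∀ q ∈ A, q ∉ E.aux → q ∉ X) ∧ IsAuxSet E.D D.rbar A ∧
      ∀ f : ℕ → ℕ,
        (∀ i ∈ E.D.primeFactors.erase E.ℓ₀,
          HasPattern D (f i) E.D.primeFactors (twPattern E i)) →
        ∀ (K : Pair.KummerPair)
          (h : Pair.IsResidualPair D (E.withAux A hA) ((E.D.primeFactors.erase E.ℓ₀).image f)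
            {(K.s, K.t)}) (U : (Pair.pairFunctor h).UniversalPoint),
          ∃ φ : MvPowerSeries (Fin ((E.D.primeFactors.erase E.ℓ₀).card + 1)) 𝒪 →ₐ[𝒪] U.R,
            Function.Surjective φ ∧ φ (MvPowerSeries.X (Fin.last _)) = Pair.uRoot U - 1 ∧
            (xIdeal 𝒪 (E.D.primeFactors.erase E.ℓ₀).card).map φ = Pair.entryIdeal U ∧
            (Pair.uRoot U - 1) ^ 2 ∈ Pair.entryIdeal U := by
  have hD : 0 < E.D := by have := E.mod_eight; omega
  obtain ⟨g, hg, hg'⟩ := exists_order_three hr hD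
  have : Fact (Nat.Prime 2) := ⟨Nat.prime_two⟩
  obtain ⟨A, hsub, hA, hX, hker⟩ := exists_auxCrys hr hc E.squarefree E.mod_eight hg hg'
    (CFT.cftInputs 2).reciprocity E.aux
    (fun q hq => ⟨(E.aux_spec q hq).1, (E.aux_spec q hq).2.1, (E.aux_spec q hq).2.2, hA₀ q hq⟩) X
  exact ⟨A, fun q hq => ⟨(hA q hq).1, (hA q hq).2.1, (hA q hq).2.2.1⟩, hsub, hX, hA,
    fun f hf K h U => keyLemma_of D hr hc hg hg' hA _
      (fun i hi => ⟨(hf i hi).1, (hf i hi).2.1, (hf i hi).2.2.1, (hf i hi).2.2.2⟩) K hker U⟩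

end Fermat.Agent.TwoAdic.Selmer
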