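import Fermat.Agent.TwoAdic.Selmer.Tangent
import Fermat.Agent.GalCoh.CFTInputs
import Fermat.Agent.GalCoh.Descent.LocalImage

/-!
# Reciprocity of cup products moves a local condition

A sum over the places of the cup product of two classes vanishes, which trades a local condition
at one prime for one at another.
-/

set_option autoImplicit false

noncomputable section

namespace Fermat.Agent.TwoAdic.Selmer

open GaloisRep Fermat.Agent.DefRing Fermat.Agent.TameInertia Fermat.Agent.Deform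
  Fermat.Agent.GalCoh ExtCitation Matrix

local notation "Ω" => AlgebraicClosure ℚ

variable {k : Type} [Field k] [CharP k 2] {D : ℕ} {r : MRep k}

theorem isLift_liftOf {c : GQ → Matrix (Fin 2) (Fin 2) k} (hc : IsCoc r c)
    {L : Levels GQ} (hL : L.Compat fullLevels (MonoidHom.id GQ))
    (hr : ∃ U, L.mem U ∧ ∀ s ∈ U, r s = 1) (hcts : L.IsCts₁ c) :
    IsLift r (liftOf r c (isCoc_iff_adRep.mp hc)) := by
  refine ⟨fun g => fst_dualMat _ _, ?_⟩
  obtain ⟨U, hU, hU'⟩ := hr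
  obtain ⟨V, hV, hV'⟩ := hcts
  obtain ⟨F, hF, hFle⟩ : fullLevels.mem (U ⊓ V) := by
    simpa using hL (L.inf_mem hU hV)
  refine ⟨F, hF, fun σ hσ => ?_⟩
  have h0 : c σ = 0 := by
    have := hV' 1 σ (hFle hσ).2
    rwa [one_mul, hc.map_one] at this
  show dualMat _ _ = 1
  rw [h0, zero_mul, hU' σ (hFle hσ).1, dualMat_one]

section Cup

attribute [local instance] ZMod.algebra

variable (r) in
/-- The cup product of two adjoint cochains, through a functional. -/
def cupFn (μ : k →ₗ[ZMod 2] ZMod 2) (x y : GQ → Matrix (Fin 2) (Fin 2) k) : GQ × GQ → ZMod 2 :=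
  fun p => μ ((x p.1 * (r p.1 * y p.2 * r p.1⁻¹)).trace)

theorem muRep_two (σ : GQ) (v : ZMod 2) : muRep 2 σ v = v := by
  have : Subsingleton (ZMod 2)ˣ := ⟨by decide⟩
  rw [muRep_apply, Subsingleton.elim (cycloChar 2 σ) 1, Units.val_one, one_mul]

variable (μ : k →ₗ[ZMod 2] ZMod 2) {x y : GQ → Matrix (Fin 2) (Fin 2) k}

theorem cupFn_mem_Z2 {L : Levels GQ} (hr : ∃ U, L.mem U ∧ ∀ s ∈ U, r s = 1) (hx : IsCoc r x)
    (hy : IsCoc r y) (hxc : L.IsCts₁ x) (hyc : L.IsCts₁ y) :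
    cupFn r μ x y ∈ Z2 L (muRep 2) := by
  refine mem_Z2_iff.mpr ⟨fun g h j => ?_, ?_⟩
  · rw [muRep_two]
    simp only [cupFn]
    rw [← map_add, ← map_add]
    congr 1
    have e : ∀ Z, r (g * h) * Z * r (g * h)⁻¹ = r g * (r h * Z * r h⁻¹) * r g⁻¹ := fun Z => by
      simp only [map_mul, _root_.mul_inv_rev, mul_assoc]
    rw [hx g h, hy h j, e, add_mul, trace_add, conj_mul, conj_trace, mul_add (r g), add_mul (r g * _),
      mul_add (x g), trace_add]
    abel
  · obtain ⟨U, hU, hU'⟩ := hr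
    have hrc : L.IsCts₁ fun g => (r g, r g⁻¹) := ⟨U, hU, fun g s hs => by
      simp only [map_mul, _root_.mul_inv_rev, hU' s hs, hU' s⁻¹ (U.inv_mem hs), mul_one, one_mul]⟩
    exact ((hxc.comp_fst.map₂ (hrc.comp_fst.map₂ hyc.comp_snd fun R Y => R.1 * Y * R.2)
      fun X Y => μ ((X * Y).trace)))

/-- **Swap**, with the orthogonality at the other places as a hypothesis. -/
theorem isScal_of_swap_of [Finite k] (hrec : Reciprocity 2) (hr : IsDihedralResidual D r) (hD : 0 < D)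
    {S : Finset Nat.Primes} (h2 : pPrime 2 ∈ S) (hrS : ∃ U, (levelsS S).mem U ∧ ∀ s ∈ U, r s = 1)
    (q : Nat.Primes) (hqS : q ∈ S) (hq2 : (q : ℕ) ≠ 2) (hqD : ¬ (q : ℕ) ∣ D)
    (hx : IsCoc r x) (hy : IsCoc r y) (hx0 : ∀ g, (x g).trace = 0) (hy0 : ∀ g, (y g).trace = 0)
    (hxc : (levelsS S).IsCts₁ x) (hyc : (levelsS S).IsCts₁ y)
    (hcup : ∀ p ∈ S, p ≠ q → ∀ μ' : k →ₗ[ZMod 2] ZMod 2,
      (fun d : primeLocalGaloisGroup p × primeLocalGaloisGroup p =>
        cupFn r μ' x y (primeLocalToGlobal p d.1, primeLocalToGlobal p d.2)) ∈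
        B2 (localLevels (primeLocalToGlobal p)) ((muRep 2).comp (primeLocalToGlobal p)))
    (hxI : ∀ P : ValuationSubring Ω, P.LiesOverPrime (q : ℕ) →
      ∀ τ ∈ P.inertiaSubgroupIn ℚ, x τ = 0)
    (hxT : ∀ P : ValuationSubring Ω, P.LiesOverPrime (q : ℕ) → ∀ φ : GQ,
      P.IsFrobeniusAt φ (q : ℕ) → IsTransp r φ ∧ (x φ * r φ).trace ≠ 0)
    (hyl : ∀ P : ValuationSubring Ω, P.LiesOverPrime (q : ℕ) → IsLocalAt r y P)
    {P : ValuationSubring Ω} (hP : P.LiesOverPrime (q : ℕ)) {τ : GQ}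
    (hτ : τ ∈ P.inertiaSubgroupIn ℚ) : IsScal (y τ) := by
  have : Fact (q : ℕ).Prime := ⟨q.2⟩
  set P₀ := padicPlace (q : ℕ)
  have hP₀ : P₀.LiesOverPrime (q : ℕ) := Descent.padicPlace_liesOver (q : ℕ)
  suffices h₀ : ∀ τ' ∈ P₀.inertiaSubgroupIn ℚ, IsScal (y τ') by
    obtain ⟨g, hg⟩ := Fermat.Agent.Frobenius.exists_smul_eq_of_liesOverPrime_qbar q.2 hP hP₀
    have hmem : g * τ * g⁻¹ ∈ P₀.inertiaSubgroupIn ℚ := hg ▸ conj_mem_inertiaSubgroupIn hτ g
    obtain ⟨z, hz⟩ := h₀ _ hmem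
    refine ⟨z, ?_⟩
    rw [hy.conj_of_eq_one (hr.unramified q q.2 hqD P hP τ hτ)] at hz
    have := congrArg (fun Z => r g⁻¹ * Z * r g) hz
    simpa [mul_assoc, r_inv_mul, ← mul_assoc (r g⁻¹) (r g)] using this
  clear hτ hP P τ
  intro τ hτ
  obtain ⟨φ, hφ⟩ := Fermat.Agent.Frobenius.exists_isFrobeniusAt_qbar q.2 hP₀
  obtain ⟨hT, hne⟩ := hxT P₀ hP₀ φ hφ
  have hτD := ((Fermat.Agent.FreyReducible.mem_inertiaSubgroupIn_iff P₀ τ).1 hτ).1
  have hrI := hr.unramified q q.2 hqD P₀ hP₀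
  have hcomm : Commute (y τ) (r φ) := by
    have := (isLift_liftOf hy (compat_levelsS S) hrS hyc).commute_frobenius q.2 hq2 hP₀ hrI hφ hτ
    rwa [cocOf_liftOf] at this
  have hAd : r φ * y τ * r φ⁻¹ = y τ := by
    rw [← hcomm.eq, mul_assoc, r_mul_inv, mul_one]
  refine isScal_of_trace_mul (hx0 φ) (hy0 τ) hT.1 ((commute_iff_trace_mul (hy0 τ) hT.1).mp hcomm)
    ?_ hne
  refine (Module.forall_dual_apply_eq_zero_iff (ZMod 2) _).mp fun μ => ?_
  obtain ⟨φd, hφd⟩ : ∃ d : primeLocalGaloisGroup q, primeLocalToGlobal q d = φ :=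
    Descent.exists_localGaloisToGlobal_eq (q : ℕ) hφ.mem_decompositionSubgroup
  obtain ⟨τd, hτd⟩ : ∃ d : primeLocalGaloisGroup q, primeLocalToGlobal q d = τ :=
    Descent.exists_localGaloisToGlobal_eq (q : ℕ) hτD
  have hdet := hr.det_one
  have hz := cupFn_mem_Z2 μ hrS hx hy hxc hyc
  obtain ⟨inv, hinj, hsum⟩ := hrec
  have hsum' := hsum S h2 (H2mk (levelsS S) (muRep 2) ⟨_, hz⟩)
  let u₀ : extArithIndex S := Sum.inr ⟨q, hqS⟩
  rw [Finset.sum_eq_single u₀] at hsum'
  rotate_left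
  · intro u _ hu
    rw [Mor.map₂_mk]
    convert map_zero (inv (toPlace u))
    rw [H2mk_eq_zero_iff]
    obtain u | ⟨p, hp⟩ := u
    · convert Submodule.zero_mem _
      funext ⟨g, h⟩
      show cupFn r μ x y (placeLoc (toPlace (S := S) (Sum.inl u)) g,
        placeLoc (toPlace (S := S) (Sum.inl u)) h) = 0
      simp only [cupFn]
      rw [show (x (placeLoc (toPlace (S := S) (Sum.inl u)) g) *
        (r (placeLoc (toPlace (S := S) (Sum.inl u)) g) *
        y (placeLoc (toPlace (S := S) (Sum.inl u)) h) *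
        r (placeLoc (toPlace (S := S) (Sum.inl u)) g)⁻¹)).trace = 0 from ?_, map_zero]
      have hmem : ∀ d : placeGroup (toPlace (S := S) (Sum.inl u)),
          placeLoc (toPlace (S := S) (Sum.inl u)) d = 1 ∨
          placeLoc (toPlace (S := S) (Sum.inl u)) d = complexConjugation := by
        intro d
        let d' : ↥archimedeanDecomposition := d
        obtain ⟨n, hn⟩ := Subgroup.mem_zpowers_iff.mp (show (d' : GQ) ∈ Subgroup.zpowers complexConjugation
          from d'.2)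
        show (d' : GQ) = 1 ∨ (d' : GQ) = complexConjugation
        rw [← hn]
        rcases Int.even_or_odd' n with ⟨m, rfl | rfl⟩
        · left; rw [_root_.zpow_mul, _root_.zpow_two, complexConjugation_mul_self, _root_.one_zpow]
        · right; rw [_root_.zpow_add, _root_.zpow_mul, _root_.zpow_two, complexConjugation_mul_self, _root_.one_zpow, one_mul,
            _root_.zpow_one]
      rcases hmem g with hg | hg
      · rw [hg, hx.map_one, zero_mul, trace_zero]
      rcases hmem h with hh | hh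
      · rw [hh, hy.map_one, mul_zero, zero_mul, mul_zero, trace_zero]
      rw [hg, hh]
      have hT' : IsTransp r complexConjugation :=
        (transp_iff hr _).mpr (complexConjugation_sqrt hD (rootNeg_sq D))
      have key : ∀ z : GQ → Matrix (Fin 2) (Fin 2) k, IsCoc r z →
          r complexConjugation * z complexConjugation * r complexConjugation⁻¹ =
            z complexConjugation := fun z hz' => by
        have := hz' complexConjugation complexConjugation
        rw [complexConjugation_mul_self, hz'.map_one, ← sub_mat, eq_comm, sub_eq_zero] at this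
        exact this
      have hcm : ∀ z : GQ → Matrix (Fin 2) (Fin 2) k, IsCoc r z → (∀ g, (z g).trace = 0) →
          (z complexConjugation * r complexConjugation).trace = 0 := fun z hz' hz0 => by
        refine (commute_iff_trace_mul (hz0 _) hT'.1).mp ?_
        show _ = _
        conv_lhs => rw [← key z hz', mul_assoc, r_inv_mul, mul_one]
      rw [key y hy]
      exact trace_mul_eq_zero hT'.1 (hdet _) hT'.2 (hx0 _) (hy0 _) (hcm x hx hx0) (hcm y hy hy0)
    · exact hcup p hp (fun h => hu (by subst h; rfl)) μ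
  · exact fun h => absurd (Finset.mem_univ u₀) h
  rw [← map_zero (inv _)] at hsum'
  have hres := hinj _ hsum'
  rw [Mor.map₂_mk, H2mk_eq_zero_iff, mem_B2_iff] at hres
  obtain ⟨f, hfc, hf⟩ := hres
  change primeLocalGaloisGroup q → ZMod 2 at f
  set loc := primeLocalToGlobal q
  have hf' : ∀ g h : primeLocalGaloisGroup q,
      f (g * h) = f h + f g + cupFn r μ x y (loc g, loc h) := by
    intro g h
    have := congrFun hf (g, h)
    change muRep 2 (loc g) (f h) - f (g * h) + f g = cupFn r μ x y (loc g, loc h) at this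
    rw [muRep_two] at this
    rw [← this, CharTwo.sub_eq_add]
    linear_combination -(f h + f g) * (CharTwo.two_eq_zero (R := ZMod 2))
  let J : Subgroup (primeLocalGaloisGroup q) := (P₀.inertiaSubgroupIn ℚ).comap loc
  have hzJ : ∀ a ∈ J, ∀ h, cupFn r μ x y (loc a, loc h) = 0 := fun a ha h => by
    simp only [cupFn, hxI P₀ hP₀ _ ha, zero_mul, trace_zero, map_zero]
  have hfJ : ∀ a ∈ J, ∀ h, f (a * h) = f h + f a := fun a ha h => by
    rw [hf', hzJ a ha, add_zero]
  have hf1 : f 1 = 0 := by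
    have := hfJ 1 (one_mem J) 1
    rw [mul_one] at this
    simpa using this
  have hconjJ : ∀ a ∈ J, φd * a * φd⁻¹ ∈ J := fun a ha => by
    show loc (φd * a * φd⁻¹) ∈ P₀.inertiaSubgroupIn ℚ
    rw [map_mul, map_mul, map_inv, hφd]
    exact inertia_normal_in_decomposition hφ.mem_decompositionSubgroup ha
  have hconjJ' : ∀ a ∈ J, φd⁻¹ * a * φd ∈ J := fun a ha => by
    show loc (φd⁻¹ * a * φd) ∈ P₀.inertiaSubgroupIn ℚ
    rw [map_mul, map_mul, map_inv, hφd]
    simpa using inertia_normal_in_decomposition (inv_mem hφ.mem_decompositionSubgroup) ha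
  let ρ : J →* Multiplicative (ZMod 2 × ZMod 2) :=
    MonoidHom.mk' (fun a => Multiplicative.ofAdd (f a.1, f (φd * a.1 * φd⁻¹))) fun a b => by
      rw [← ofAdd_add, Prod.mk_add_mk, Subgroup.coe_mul, hfJ _ a.2,
        show φd * (a.1 * b.1) * φd⁻¹ = (φd * a.1 * φd⁻¹) * (φd * b.1 * φd⁻¹) by group,
        hfJ _ (hconjJ _ a.2), add_comm (f b.1), add_comm (f (φd * b.1 * φd⁻¹))]
  obtain ⟨U, hU, hU'⟩ := hfc
  obtain ⟨W, hW, hWn, hWU⟩ := (localLevels (placeLoc (toPlace (Sum.inr ⟨q, hqS⟩)))).exists_normal hU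
  obtain ⟨V, ⟨F, hF, hFV⟩, hVW⟩ := hW
  obtain ⟨⟨d₀, -, hgen⟩, -⟩ := local_tame_inertia (A := P₀) (loc.comp J.subtype) (ρ := ρ)
    ⟨F, hF, fun a ha => by
      have haW : (a : primeLocalGaloisGroup q) ∈ W := hVW (hFV ha)
      have h0 : ∀ s ∈ W, f s = 0 := fun s hs => by
        rw [← one_mul s]; exact (hU' 1 s (hWU hs)).trans hf1
      show Multiplicative.ofAdd _ = (1 : Multiplicative (ZMod 2 × ZMod 2))
      rw [h0 _ haW]
      exact congrArg (fun z => Multiplicative.ofAdd ((0 : ZMod 2), z)) (h0 _ (hWn.conj_mem _ haW φd))⟩ q.2 hP₀ (e := 2) ((Nat.coprime_primes Nat.prime_two q.2).2 (Ne.symm hq2))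
    (fun a _ => by
      show Multiplicative.ofAdd _ ^ 2 = (1 : Multiplicative (ZMod 2 × ZMod 2))
      rw [← ofAdd_nsmul, two_nsmul, ← ofAdd_zero]
      congr 1
      exact Prod.ext (CharTwo.add_self_eq_zero _) (CharTwo.add_self_eq_zero _))
  have hgen' : ∀ a ∈ J, ∃ n : ℕ, f a = n • f d₀ ∧ f (φd * a * φd⁻¹) = n • f (φd * d₀ * φd⁻¹) := by
    intro a ha
    obtain ⟨n, hn⟩ := hgen ⟨a, ha⟩ ha
    have hn' := congrArg Multiplicative.toAdd hn
    change (f a, f (φd * a * φd⁻¹)) = n • (f d₀.1, f (φd * d₀.1 * φd⁻¹)) at hn'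
    exact ⟨n, congrArg Prod.fst hn', congrArg Prod.snd hn'⟩
  have huv : f d₀ = f (φd * d₀ * φd⁻¹) := by
    by_contra hne'
    have hdec : ∀ a b : ZMod 2, a ≠ b → (a = 1 ∧ b = 0) ∨ (a = 0 ∧ b = 1) := by decide
    rcases hdec _ _ hne' with ⟨e1, e2⟩ | ⟨e1, e2⟩
    · obtain ⟨n, -, hn⟩ := hgen' _ (hconjJ' _ d₀.2)
      rw [show φd * (φd⁻¹ * (d₀ : primeLocalGaloisGroup q) * φd) * φd⁻¹ = d₀ by group, e1, e2,
        smul_zero] at hn
      exact one_ne_zero hn
    · obtain ⟨n, hn, -⟩ := hgen' _ (hconjJ _ d₀.2)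
      rw [e1, e2, smul_zero] at hn
      exact one_ne_zero hn
  have hτJ : τd ∈ J := by
    show loc τd ∈ P₀.inertiaSubgroupIn ℚ
    rw [hτd]; exact hτ
  obtain ⟨n, hn1, hn2⟩ := hgen' τd hτJ
  have heq : f (φd * τd * φd⁻¹) = f τd := by rw [hn2, hn1, huv]
  have e1 := hf' φd τd
  have e2 := hfJ _ (hconjJ _ hτJ) φd
  rw [inv_mul_cancel_right, heq, e1, hφd, hτd, add_comm (f φd), add_eq_left] at e2
  simpa [cupFn, hAd] using e2

end Cup

end Fermat.Agent.TwoAdic.Selmer
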