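import Fermat.Agent.TwoAdic.Selmer.Cocycle
import Fermat.Agent.Deform.TangentBound

/-!
# First order lifts in the local conditions

First order lifts of the residual representation satisfying the local conditions give classes in
the local subspaces.
-/

set_option autoImplicit false

noncomputable section

namespace Fermat.Agent.TwoAdic.Selmer

open GaloisRep Fermat.Agent.DefRing Fermat.Agent.TameInertia Fermat.Agent.Deform Matrix

local notation "Ω" => AlgebraicClosure ℚ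

variable {k : Type} [Field k] [CharP k 2]

local notation "R" => DualNumber k

theorem dual_two : (2 : R) = 0 := by
  rw [show (2 : R) = TrivSqZeroExt.inl (2 : k) from (TrivSqZeroExt.inl_natCast 2).symm,
    CharTwo.two_eq_zero, TrivSqZeroExt.inl_zero]

theorem dual_neg_one : (-1 : R) = 1 := by
  rw [neg_eq_iff_add_eq_zero, one_add_one_eq_two, dual_two]

theorem dual_sign {s : ℤ} (hs : s = 1 ∨ s = -1) : (s : R) = 1 := by
  rcases hs with rfl | rfl <;> simp [dual_neg_one]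

theorem dual_odd {n : ℕ} (hn : ¬ 2 ∣ n) : (n : R) = 1 := by
  obtain ⟨m, rfl⟩ : ∃ m, n = 2 * m + 1 := ⟨n / 2, by omega⟩
  rw [Nat.cast_add, Nat.cast_mul, Nat.cast_ofNat, Nat.cast_one, dual_two, zero_mul, zero_add]

theorem sub_eq_add_dual (A B : Matrix (Fin 2) (Fin 2) R) : A - B = A + B := by
  ext i j : 1
  rw [Matrix.sub_apply, Matrix.add_apply, sub_eq_add_neg, neg_eq_neg_one_mul, dual_neg_one, one_mul]

theorem mul_self_of_trace {M : Matrix (Fin 2) (Fin 2) R} (ht : M.trace = 0) (hd : M.det = 1) :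
    M * M = 1 := by
  rw [trace_fin_two] at ht
  rw [det_fin_two] at hd
  have h0 := dual_two (k := k)
  ext i j : 1
  fin_cases i <;> fin_cases j <;> simp [mul_apply, Fin.sum_univ_two]
  · linear_combination hd + (M 0 1 * M 1 0 + M 0 0 * M 0 0) * h0 - M 0 0 * ht
  · linear_combination M 0 1 * ht
  · linear_combination M 1 0 * ht
  · linear_combination hd + (M 0 1 * M 1 0 + M 1 1 * M 1 1) * h0 - M 1 1 * ht

theorem trace_of_mul_self {M : Matrix (Fin 2) (Fin 2) R} (hM : M * M = 1) (hd : M.det = 1) :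
    M.trace = 0 := by
  have h0 := dual_two (k := k)
  rw [det_fin_two] at hd
  have a := congrFun (congrFun hM 0) 0
  have b := congrFun (congrFun hM 0) 1
  have c := congrFun (congrFun hM 1) 0
  have d := congrFun (congrFun hM 1) 1
  simp only [mul_apply, Fin.sum_univ_two, one_apply_eq, one_apply_ne (show (0 : Fin 2) ≠ 1 by decide),
    one_apply_ne (show (1 : Fin 2) ≠ 0 by decide)] at a b c d
  rw [trace_fin_two]
  linear_combination -(M 0 0 + M 1 1) * hd + M 1 1 * (a + hd + h0) - M 1 0 * b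

variable {D : ℕ} {r : MRep k} {N : MRep (DualNumber k)}

/-- A first order lift of finite level. -/
structure IsLift (r : MRep k) (N : MRep R) : Prop where
  fst : ∀ g, (N g).map TrivSqZeroExt.fst = r g
  level : ∃ F : IntermediateField ℚ Ω, FiniteDimensional ℚ F ∧ ∀ σ ∈ F.fixingSubgroup, N σ = 1

variable (hN : IsLift r N)

local notation "cN" => cocOf r N

include hN

omit [CharP k 2] in
theorem IsLift.eq_dualMat (g : GQ) : N g = dualMat (r g) (cocOf r N g * r g) :=
  ext_fst_snd ((hN.fst g).trans (fst_dualMat _ _).symm)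
    ((snd_eq_cocOf_mul g).trans (snd_dualMat _ _).symm)

theorem IsLift.sub_one (g : GQ) : N g - 1 = dualMat (r g - 1) (cocOf r N g * r g) := by
  rw [sub_eq_add_dual, hN.eq_dualMat, ← dualMat_one]
  refine ext_fst_snd ?_ ?_
  · rw [Matrix.map_add _ TrivSqZeroExt.fst_add, fst_dualMat, fst_dualMat, fst_dualMat, sub_mat]
  · rw [Matrix.map_add _ TrivSqZeroExt.snd_add, snd_dualMat, snd_dualMat, snd_dualMat, add_zero]

theorem IsLift.coc : IsCoc r cN := isCoc_iff_adRep.mpr (cocOf_mul hN.fst)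

theorem IsLift.trace_eq (g : GQ) :
    (N g).trace = 0 → (r g).trace = 0 ∧ (cocOf r N g * r g).trace = 0 := by
  intro h
  rw [hN.eq_dualMat, trace_fin_two] at h
  constructor
  · have := congrArg TrivSqZeroExt.fst h
    simpa [dualMat, trace_fin_two] using this
  · have := congrArg TrivSqZeroExt.snd h
    simpa [dualMat, trace_fin_two] using this

theorem IsLift.level' :
    ∃ F : IntermediateField ℚ Ω, FiniteDimensional ℚ F ∧
      ∀ σ ∈ F.fixingSubgroup, r σ = 1 ∧ cocOf r N σ = 0 := by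
  obtain ⟨F, hF, h⟩ := hN.level
  refine ⟨F, hF, fun σ hσ => ?_⟩
  have h1 := h σ hσ
  rw [hN.eq_dualMat, ← dualMat_one] at h1
  have hr1 : r σ = 1 := by simpa using congrArg (fun A => A.map TrivSqZeroExt.fst) h1
  have h2 := congrArg (fun A => A.map TrivSqZeroExt.snd) h1
  simp only [snd_dualMat, hr1, mul_one] at h2
  exact ⟨hr1, h2⟩

omit [CharP k 2] in
theorem IsLift.trace_coc (hd : ∀ g, (N g).det = 1) (hr1 : ∀ g, (r g).det = 1) (g : GQ) :
    (cocOf r N g).trace = 0 := by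
  rw [← det_eq_iff_trace_cocOf hN.fst, hr1, TrivSqZeroExt.inl_one]
  exact hd g

theorem IsLift.mul_coc_eq_zero {g τ : GQ} (hτ : r τ = 1) (h : (N g - 1) * (N τ - 1) = 0) :
    (r g - 1) * cocOf r N τ = 0 := by
  rw [hN.sub_one, hN.sub_one, dualMat_mul, hτ, sub_self, mul_zero, mul_one, mul_zero, add_zero] at h
  simpa using congrArg (fun A => A.map TrivSqZeroExt.snd) h

theorem IsLift.coc_mul_eq_zero {g τ : GQ} (hτ : r τ = 1) (h : (N τ - 1) * (N g - 1) = 0) :
    cocOf r N τ * (r g - 1) = 0 := by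
  rw [hN.sub_one, hN.sub_one, dualMat_mul, hτ, sub_self, zero_mul, mul_one, zero_mul, zero_add] at h
  simpa using congrArg (fun A => A.map TrivSqZeroExt.snd) h

/-- The exponent of inertia is two; Frobenius commutes with the values on inertia. -/
theorem IsLift.commute_frobenius {q : ℕ} (hq : q.Prime) (hq2 : q ≠ 2) {P : ValuationSubring Ω}
    (hP : P.LiesOverPrime q) (hun : ∀ τ ∈ P.inertiaSubgroupIn ℚ, r τ = 1) {φ : GQ}
    (hφ : P.IsFrobeniusAt φ q) {τ : GQ} (hτ : τ ∈ P.inertiaSubgroupIn ℚ) :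
    Commute (cocOf r N τ) (r φ) := by
  obtain ⟨F, hF, hlev⟩ := hN.level
  have hsq : ∀ σ ∈ P.inertiaSubgroupIn ℚ, N σ * N σ = 1 := fun σ hσ => by
    rw [hN.eq_dualMat, hun σ hσ, dualMat_mul, one_mul, mul_one, ← dualMat_one, one_mul, mul_one, add_self_mat]
  have hle : (F.fixingSubgroup).comap (MonoidHom.id GQ) ≤ N.toHomUnits.ker := fun σ hσ =>
    Units.ext (hlev σ hσ)
  obtain ⟨-, hconj⟩ := local_tame_inertia (MonoidHom.id GQ) (ρ := N.toHomUnits) ⟨F, hF, hle⟩ hq hP
    (e := 2) ((Nat.coprime_primes Nat.prime_two hq).2 hq2.symm)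
    (fun σ hσ => Units.ext (by
      show N σ ^ 1 * N σ = 1
      rw [pow_one]
      exact hsq σ hσ))
  have h := hconj φ hφ τ hτ
  obtain ⟨m, rfl⟩ : ∃ m, q = 2 * m + 1 :=
    ⟨q / 2, (Nat.two_mul_div_two_add_one_of_odd (hq.odd_of_ne_two hq2)).symm⟩
  rw [mul_inv_eq_iff_eq_mul] at h
  have h' := congrArg Units.val h
  simp only [Units.val_mul, Units.val_pow_eq_pow_val, MonoidHom.coe_toHomUnits] at h'
  rw [pow_succ, pow_mul, pow_two, hsq τ hτ, one_pow, one_mul, hN.eq_dualMat φ, hN.eq_dualMat τ,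
    hun τ hτ, dualMat_mul, dualMat_mul, mul_one, mul_one, one_mul, one_mul] at h'
  have h2 := congrArg (fun A => A.map TrivSqZeroExt.snd) h'
  simp only [snd_dualMat, mul_one] at h2
  rw [add_comm (cocOf r N φ * r φ) (cocOf r N τ * r φ)] at h2
  exact (add_right_cancel h2).symm

/-- Locality at a prime dividing `D`. -/
theorem IsLift.isLocalAt_dvd (hr : IsDihedralResidual D r) (hsf : Squarefree D) (hodd : Odd D)
    (hd : ∀ g, (N g).det = 1) {ℓ : ℕ} (hℓ : ℓ.Prime) (hℓD : ℓ ∣ D) {P : ValuationSubring Ω}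
    (hP : P.LiesOverPrime ℓ) (htr : ∀ τ ∈ P.inertiaSubgroupIn ℚ, (N τ).trace = 0) :
    IsLocalAt r cN P ∧ ∀ τ ∈ P.inertiaSubgroupIn ℚ, r τ = 1 → cocOf r N τ = 0 := by
  have hℓ2 : (2 : ℕ) ≠ ℓ := fun h => by
    subst h
    exact Nat.not_even_iff_odd.mpr hodd (even_iff_two_dvd.mpr hℓD)
  obtain ⟨τ₀, hτ₀⟩ := exists_tameGenerator Nat.prime_two hℓ hℓ2 hP
  obtain ⟨hT, hI, himg⟩ := inertia_image hr hsf hodd hℓ hℓD hP hτ₀
  obtain ⟨F, hF, hlev⟩ := hN.level
  have hsq : ∀ σ ∈ P.inertiaSubgroupIn ℚ, N σ * N σ = 1 := fun σ hσ =>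
    mul_self_of_trace (htr σ hσ) (hd σ)
  have hcyc : ∀ σ ∈ P.inertiaSubgroupIn ℚ, N σ = 1 ∨ N σ = N τ₀ := by
    intro σ hσ
    obtain ⟨j, hj⟩ := exists_eq_pow_tameGenerator Nat.prime_two hℓ hℓ2 hP (MonoidHom.id GQ)
      (ρ := N.toHomUnits) ⟨F, hF, fun σ hσ => Units.ext (hlev σ hσ)⟩ (k := 1)
      (fun σ hσ => Units.ext (by
        show N σ ^ 1 * N σ = 1
        rw [pow_one]
        exact hsq σ hσ)) (d₀ := τ₀) hτ₀ (d := σ) hσ
    have hj' : N σ = N τ₀ ^ j := by simpa using congrArg Units.val hj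
    rcases Nat.even_or_odd' j with ⟨m, rfl | rfl⟩
    · left; rw [hj', pow_mul, pow_two, hsq τ₀ hτ₀.1, one_pow]
    · right; rw [hj', pow_succ, pow_mul, pow_two, hsq τ₀ hτ₀.1, one_pow, one_mul]
  have hzero : ∀ σ ∈ P.inertiaSubgroupIn ℚ, r σ = 1 → cocOf r N σ = 0 := by
    intro σ hσ h1
    rcases hcyc σ hσ with h | h
    · rw [hN.eq_dualMat, h1, mul_one, ← dualMat_one] at h
      simpa using congrArg (fun A => A.map TrivSqZeroExt.snd) h
    · exfalso
      have := congrArg (fun A => A.map TrivSqZeroExt.fst) h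
      simp only [hN.fst, h1] at this
      exact hT.2 this.symm
  refine ⟨?_, hzero⟩
  have hc0 := hN.trace_coc hd hr.det_one
  have hτtr : ∀ σ ∈ P.inertiaSubgroupIn ℚ, (cocOf r N σ * r τ₀).trace = 0 := by
    intro σ hσ
    rcases hI σ hσ with h | h
    · rw [hzero σ hσ h, zero_mul, trace_zero]
    · rw [← h]; exact (hN.trace_eq σ (htr σ hσ)).2
  obtain ⟨φ, hφ⟩ := Fermat.Agent.Frobenius.exists_isFrobeniusAt_qbar hℓ hP
  obtain ⟨F', hF', hlev'⟩ := hN.level'
  have key : ∀ h ∈ P.decompositionSubgroup ℚ, r h = 1 → (cocOf r N h * r τ₀).trace = 0 := by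
    intro h hh h1
    have hj : h * τ₀ * h⁻¹ ∈ P.inertiaSubgroupIn ℚ := inertia_normal_in_decomposition hh hτ₀.1
    have hinv : r h⁻¹ = 1 := by simpa [h1] using r_mul_inv r h
    have hrj : r (h * τ₀ * h⁻¹) = r τ₀ := by rw [map_mul, map_mul, h1, hinv, one_mul, mul_one]
    have hrj' : r (h * τ₀ * h⁻¹)⁻¹ = r τ₀ := by
      calc r (h * τ₀ * h⁻¹)⁻¹ = r (h * τ₀ * h⁻¹)⁻¹ * (r (h * τ₀ * h⁻¹) * r τ₀) := by
            rw [hrj, transp_sq hr hT, mul_one]
        _ = r τ₀ := by rw [← mul_assoc, r_inv_mul, one_mul]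
    have hNj : N (h * τ₀ * h⁻¹) = N τ₀ := by
      refine (hcyc _ hj).resolve_left fun h' => hT.2 ?_
      have := congrArg (fun A => A.map TrivSqZeroExt.fst) h'
      simp only [hN.fst, hrj, Matrix.map_one _ TrivSqZeroExt.fst_zero TrivSqZeroExt.fst_one] at this
      exact this
    have hcj : cocOf r N (h * τ₀ * h⁻¹) = cocOf r N τ₀ := by
      have := congrArg (fun A => A.map TrivSqZeroExt.snd) hNj
      simp only [snd_eq_cocOf_mul (ρ := r), hrj] at this
      have h2 := congrArg (· * r τ₀) this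
      simpa [mul_assoc, transp_sq hr hT] using h2
    rw [hN.coc.conj, h1, hinv, hrj, hrj', one_mul, mul_one, add_assoc, add_eq_left] at hcj
    rw [← sub_mat, sub_eq_zero] at hcj
    refine (commute_iff_trace_mul (hc0 h) hT.1).mp ?_
    show cocOf r N h * r τ₀ = r τ₀ * cocOf r N h
    conv_lhs => rw [hcj, mul_assoc, transp_sq hr hT, mul_one]
  refine isLocalAt_of_generators hN.coc hc0 hℓ hP hφ hlev' (t := τ₀) himg ?_ hτtr
  rcases himg φ hφ.mem_decompositionSubgroup with h | h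
  · exact key φ hφ.mem_decompositionSubgroup h
  · have hτD := ((Fermat.Agent.FreyReducible.mem_inertiaSubgroupIn_iff P τ₀).1 hτ₀.1).1
    have h1 : r (φ * τ₀⁻¹) = 1 := by rw [map_mul, h, r_mul_inv]
    have h2 := hN.coc.mul_of_eq_one (σ := τ₀) h1
    rw [inv_mul_cancel_right] at h2
    rw [h2, add_mul, trace_add, hτtr τ₀ hτ₀.1,
      key _ (mul_mem hφ.mem_decompositionSubgroup (inv_mem hτD)) h1, add_zero]

/-- Locality at an auxiliary prime. -/
theorem IsLift.isLocalAt_aux (hr : IsDihedralResidual D r) (hD : 0 < D) (hcont : IsCont r)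
    (hd : ∀ g, (N g).det = 1) {q : ℕ} (hq : q.Prime) (hqD : ¬ q ∣ D) {P : ValuationSubring Ω}
    (hP : P.LiesOverPrime q) {φ : GQ} (hφ : P.IsFrobeniusAt φ q) (hT : IsTransp r φ)
    (htr : (N φ).trace = 0)
    (hnew : ∀ τ ∈ P.inertiaSubgroupIn ℚ, (N τ - 1) * (N φ - 1) = 0) : IsLocalAt r cN P := by
  have hc0 := hN.trace_coc hd hr.det_one
  obtain ⟨F', hF', hlev'⟩ := hN.level'
  refine isLocalAt_of_generators hN.coc hc0 hq hP hφ hlev' (t := φ)
    (unramified_image hr hD hcont hq hqD hP hφ hT) (hN.trace_eq φ htr).2 fun τ hτ => ?_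
  have h := congrArg trace (hN.coc_mul_eq_zero (hr.unramified q hq hqD P hP τ hτ) (hnew τ hτ))
  rwa [mul_sub, mul_one, trace_sub, hc0, sub_zero, trace_zero] at h

end Fermat.Agent.TwoAdic.Selmer
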